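import Mathlib.NumberTheory.ModularForms.LevelOne.DimensionFormula
import Mathlib.RingTheory.PowerSeries.Expand

/-!
# Expansions of functions on the upper half plane as convergent series in `q^(1/h)`
-/

set_option autoImplicit false

noncomputable section

open UpperHalfPlane Complex
open scoped MatrixGroups Manifold

local notation "𝕢" => Function.Periodic.qParam

namespace Fermat.Agent.EisensteinIndex

/-- `P` is a convergent expansion of `F` in powers of `exp (2πiτ/h)`. -/
def HasExp (h : ℝ) (F : ℍ → ℂ) (P : PowerSeries ℂ) : Prop :=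
  ∀ τ : ℍ, HasSum (fun m => P.coeff m * 𝕢 h τ ^ m) (F τ)

namespace HasExp

variable {h : ℝ} {F G : ℍ → ℂ} {P Q : PowerSeries ℂ}

theorem congr (hF : HasExp h F P) (hFG : F = G) (hPQ : P = Q) : HasExp h G Q :=
  hFG ▸ hPQ ▸ hF

theorem add (hF : HasExp h F P) (hG : HasExp h G Q) : HasExp h (F + G) (P + Q) := fun τ => by
  simpa [add_mul] using (hF τ).add (hG τ)

theorem sub (hF : HasExp h F P) (hG : HasExp h G Q) : HasExp h (F - G) (P - Q) := fun τ => by
  simpa [sub_mul] using (hF τ).sub (hG τ)

theorem smul (c : ℂ) (hF : HasExp h F P) : HasExp h (c • F) (c • P) := fun τ => by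
  simpa [mul_assoc] using (hF τ).mul_left c

theorem C_mul (c : ℂ) (hF : HasExp h F P) :
    HasExp h (c • F) (PowerSeries.C c * P) := fun τ => by
  simpa [mul_assoc] using (hF τ).mul_left c

theorem const (c : ℂ) : HasExp h (fun _ => c) (PowerSeries.C c) := fun τ => by
  convert hasSum_single (α := ℂ) 0 (f := fun m => (PowerSeries.C c).coeff m * 𝕢 h τ ^ m)
    (fun m hm => by simp [PowerSeries.coeff_C, hm]) using 1
  simp

theorem one : HasExp h (1 : ℍ → ℂ) 1 := (const (h := h) 1).congr rfl (map_one _)

theorem mul (hF : HasExp h F P) (hG : HasExp h G Q) : HasExp h (F * G) (P * Q) := fun τ => by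
  have h1 := (hF τ).summable.norm
  have h2 := (hG τ).summable.norm
  have h3 := summable_norm_sum_mul_antidiagonal_of_summable_norm h1 h2
  have hval := tsum_mul_tsum_eq_tsum_sum_antidiagonal_of_summable_norm h1 h2
  rw [(hF τ).tsum_eq, (hG τ).tsum_eq] at hval
  have h4 := h3.of_norm.hasSum
  rw [← hval] at h4
  refine h4.congr_fun fun m => ?_
  rw [PowerSeries.coeff_mul, Finset.sum_mul]
  refine Finset.sum_congr rfl fun x hx => ?_
  rw [← Finset.mem_antidiagonal.mp hx, pow_add]
  ring

theorem pow (hF : HasExp h F P) (n : ℕ) : HasExp h (F ^ n) (P ^ n) := by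
  induction n with
  | zero => simpa using one
  | succ n ih => simpa [pow_succ] using ih.mul hF

theorem finsetSum {ι : Type*} {s : Finset ι} {F : ι → ℍ → ℂ} {P : ι → PowerSeries ℂ}
    (hF : ∀ i ∈ s, HasExp h (F i) (P i)) : HasExp h (∑ i ∈ s, F i) (∑ i ∈ s, P i) := by
  classical
  induction s using Finset.induction_on with
  | empty =>
    intro τ
    simp
  | insert i s hi ih =>
    rw [Finset.sum_insert hi, Finset.sum_insert hi]
    exact (hF i (Finset.mem_insert_self i s)).add
      (ih fun j hj => hF j (Finset.mem_insert_of_mem hj))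

theorem finsetProd {ι : Type*} {s : Finset ι} {F : ι → ℍ → ℂ} {P : ι → PowerSeries ℂ}
    (hF : ∀ i ∈ s, HasExp h (F i) (P i)) : HasExp h (∏ i ∈ s, F i) (∏ i ∈ s, P i) := by
  classical
  induction s using Finset.induction_on with
  | empty => simpa using one
  | insert i s hi ih =>
    rw [Finset.prod_insert hi, Finset.prod_insert hi]
    exact (hF i (Finset.mem_insert_self i s)).mul
      (ih fun j hj => hF j (Finset.mem_insert_of_mem hj))

/-- A period can be refined. -/
theorem expand (hF : HasExp h F P) {M : ℕ} (hM : M ≠ 0) :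
    HasExp (M * h) F (PowerSeries.expand M hM P) := fun τ => by
  have hq : ∀ m, 𝕢 (M * h) τ ^ (M * m) = 𝕢 h τ ^ m := fun m => by
    rw [pow_mul]
    congr 1
    simp only [Function.Periodic.qParam, ← Complex.exp_nat_mul]
    congr 1
    rcases eq_or_ne h 0 with rfl | hh
    · simp
    · push_cast
      field_simp
  have hinj : Function.Injective (M * ·) := fun a b hab => Nat.eq_of_mul_eq_mul_left
    (Nat.pos_of_ne_zero hM) hab
  refine (hinj.hasSum_iff (fun m hm => ?_)).mp ?_
  · rw [PowerSeries.coeff_expand_of_not_dvd, zero_mul]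
    exact fun ⟨d, hd⟩ => hm ⟨d, hd.symm⟩
  · refine (hF τ).congr_fun fun m => ?_
    simp [PowerSeries.coeff_expand_mul, hq]

/-- Composition with an affine map which multiplies the parameter by a constant. -/
theorem comp_rescale {h' : ℝ} (hF : HasExp h F P) {e : ℍ → ℍ} {c : ℂ}
    (he : ∀ τ : ℍ, 𝕢 h (e τ) = c * 𝕢 h' τ) :
    HasExp h' (F ∘ e) (PowerSeries.rescale c P) := fun τ => by
  refine (hF (e τ)).congr_fun fun m => ?_
  rw [PowerSeries.coeff_rescale, he, mul_pow]
  ring

theorem isBoundedAtImInfty (hh : 0 < h) (hF : HasExp h F P) : IsBoundedAtImInfty F :=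
  isBoundedAtImInfty_of_hasSum_qExpansion (c := fun m => P.coeff m) hh fun τ => by
    simpa using hF τ

variable {Γ : Subgroup (GL (Fin 2) ℝ)} {k : ℤ} {E : Type*} [FunLike E ℍ ℂ]

/-- The expansion of a modular form at a strict period is unique. -/
theorem eq_qExpansion [ModularFormClass E Γ k] {f : E} (hh : 0 < h)
    (hΓ : h ∈ Γ.strictPeriods) (hF : HasExp h f P) : P = qExpansion h f :=
  PowerSeries.ext fun m => ModularFormClass.qExpansion_coeff_unique hh hΓ
    (fun τ => by simpa using hF τ) m

/-- The `q`-expansion of a modular form is an expansion in the sense of `HasExp`. -/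
theorem of_modularForm [ModularFormClass E Γ k] (f : E) (hh : 0 < h)
    (hΓ : h ∈ Γ.strictPeriods) : HasExp h f (qExpansion h f) :=
  have : Fact (IsCusp OnePoint.infty Γ) := ⟨Γ.isCusp_of_mem_strictPeriods hh hΓ⟩
  ModularForm.hasSum_qExpansion f hh hΓ

end HasExp

end Fermat.Agent.EisensteinIndex

end
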