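import Mathlib.NumberTheory.ModularForms.CongruenceSubgroups
import Fermat.Agent.EisensteinIndex.Series

/-!
# Families of conjugates for `Γ₀(p)`

The `p + 1` cosets of `Γ₀(p)` are indexed by `Option (ZMod p)`.
-/

set_option autoImplicit false

noncomputable section

open UpperHalfPlane CongruenceSubgroup ModularGroup
open scoped MatrixGroups Manifold ModularForm

namespace Fermat.Agent.EisensteinIndex

variable {p : ℕ} [Fact p.Prime]

/-- Index of the right coset of `Γ₀(p)`: the point of `ℙ¹(𝔽_p)` given by the bottom row. -/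
def idx (g : SL(2, ℤ)) : Option (ZMod p) :=
  if (g 1 0 : ZMod p) = 0 then none else some ((g 1 1 : ZMod p) * (g 1 0 : ZMod p)⁻¹)

/-- Coset representatives. -/
def rep : Option (ZMod p) → SL(2, ℤ)
  | none => 1
  | some j => S * T ^ (j.val : ℤ)

omit [Fact (Nat.Prime p)] in
theorem rep_some (j : ZMod p) : rep (some j) = S * T ^ (j.val : ℤ) := rfl

@[simp] theorem idx_rep (i : Option (ZMod p)) : idx (rep i) = i := by
  cases i with
  | none => simp [idx, rep]
  | some j => simp [idx, rep, coe_S, coe_T_zpow]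

theorem idx_Gamma0_mul {γ : SL(2, ℤ)} (hγ : γ ∈ Gamma0 p) (g : SL(2, ℤ)) :
    (idx (γ * g) : Option (ZMod p)) = idx g := by
  have hc : (γ 1 0 : ZMod p) = 0 := Gamma0_mem.mp hγ
  have hdet : (γ 0 0 : ZMod p) * (γ 1 1 : ZMod p) = 1 := by
    have h := congrArg (Int.cast (R := ZMod p))
      ((Matrix.det_fin_two γ.1).symm.trans γ.det_coe)
    simpa [hc] using h
  have hd : (γ 1 1 : ZMod p) ≠ 0 := right_ne_zero_of_mul_eq_one hdet
  have h10 : ((γ * g) 1 0 : ZMod p) = (γ 1 1 : ZMod p) * (g 1 0 : ZMod p) := by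
    simp [Matrix.SpecialLinearGroup.coe_mul, Matrix.mul_apply, Fin.sum_univ_succ, hc]
  have h11 : ((γ * g) 1 1 : ZMod p) = (γ 1 1 : ZMod p) * (g 1 1 : ZMod p) := by
    simp [Matrix.SpecialLinearGroup.coe_mul, Matrix.mul_apply, Fin.sum_univ_succ, hc]
  simp only [idx, h10, h11, mul_eq_zero, hd, false_or]
  split_ifs with h
  · rfl
  · congr 1
    field_simp

theorem mul_inv_mem_of_idx_eq {g g' : SL(2, ℤ)}
    (h : (idx g : Option (ZMod p)) = idx g') : g * g'⁻¹ ∈ Gamma0 p := by
  rw [Gamma0_mem, Matrix.SpecialLinearGroup.coe_mul, Matrix.SpecialLinearGroup.coe_inv,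
    Matrix.adjugate_fin_two]
  simp only [idx] at h
  simp [Matrix.mul_apply, Fin.sum_univ_succ]
  split_ifs at h with h1 h2
  · rw [h1, h2]; ring
  · have := Option.some.inj h
    field_simp at this
    linear_combination -this

theorem exists_eq_mul_rep (g : SL(2, ℤ)) :
    ∃ γ ∈ Gamma0 p, g = γ * rep (idx g : Option (ZMod p)) :=
  ⟨g * (rep (idx g : Option (ZMod p)))⁻¹,
    mul_inv_mem_of_idx_eq (idx_rep _).symm, (inv_mul_cancel_right _ _).symm⟩

/-- The right action on cosets. -/
def act (g : SL(2, ℤ)) (i : Option (ZMod p)) : Option (ZMod p) := idx (rep i * g)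

theorem act_one (i : Option (ZMod p)) : act 1 i = i := by simp [act]

theorem act_act (g h : SL(2, ℤ)) (i : Option (ZMod p)) : act h (act g i) = act (g * h) i := by
  obtain ⟨γ, hγ, he⟩ := exists_eq_mul_rep (p := p) (rep i * g)
  calc act h (act g i) = idx (γ * (rep (act g i) * h)) := (idx_Gamma0_mul hγ _).symm
    _ = act (g * h) i := by
      rw [← mul_assoc, show γ * rep (act g i) = rep i * g from he.symm, mul_assoc]
      rfl

/-- The permutation of cosets induced by `g`. -/
def actEquiv (g : SL(2, ℤ)) : Equiv.Perm (Option (ZMod p)) where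
  toFun := act g
  invFun := act g⁻¹
  left_inv i := by rw [act_act, mul_inv_cancel, act_one]
  right_inv i := by rw [act_act, inv_mul_cancel, act_one]

theorem act_none (g : SL(2, ℤ)) : act g (none : Option (ZMod p)) = idx g := by
  simp [act, rep]

theorem act_none_of_mem {γ : SL(2, ℤ)} (hγ : γ ∈ Gamma0 p) :
    act γ (none : Option (ZMod p)) = none := by
  rw [act_none, idx, if_pos (Gamma0_mem.mp hγ)]

/-- A family of functions of weight `k` permuted by `SL(2, ℤ)` like the cosets of `Γ₀(p)`. -/
structure IsFamily (k : ℤ) (F : Option (ZMod p) → ℍ → ℂ) : Prop where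
  slash : ∀ (g : SL(2, ℤ)) (i : Option (ZMod p)), F i ∣[k] g = F (act g i)
  holo : ∀ i, MDiff (F i)
  bdd : ∀ i, IsBoundedAtImInfty (F i)

/-- The conjugates of a function. -/
def conj (f : ℍ → ℂ) (k : ℤ) (i : Option (ZMod p)) : ℍ → ℂ := f ∣[k] rep i

omit [Fact (Nat.Prime p)] in
theorem conj_none (f : ℍ → ℂ) (k : ℤ) : conj (p := p) f k none = f := SlashAction.slash_one k f

theorem conj_slash {f : ℍ → ℂ} {k : ℤ} (hinv : ∀ γ ∈ Gamma0 p, f ∣[k] γ = f)
    (g : SL(2, ℤ)) (i : Option (ZMod p)) : conj f k i ∣[k] g = conj f k (act g i) := by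
  obtain ⟨γ, hγ, he⟩ := exists_eq_mul_rep (p := p) (rep i * g)
  rw [conj, ← SlashAction.slash_mul, he, SlashAction.slash_mul, hinv γ hγ]
  rfl

theorem isFamily_conj {k : ℤ} {E : Type*} [FunLike E ℍ ℂ]
    [ModularFormClass E (Gamma0 p) k] (f : E) : IsFamily k (conj (p := p) (⇑f) k) where
  slash := conj_slash fun _ hγ =>
    SlashInvariantFormClass.slash_action_eq f _ (Subgroup.mem_map_of_mem _ hγ)
  holo _ := (ModularFormClass.holo f).slash k _
  bdd i := ModularFormClass.bdd_at_infty_slash f (rep i)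

namespace IsFamily

variable {k l : ℤ} {F G : Option (ZMod p) → ℍ → ℂ}

/-- A family is determined by the action of the two generators. -/
theorem slash_of_generators (hS : ∀ i, F i ∣[k] S = F (act S i))
    (hT : ∀ i, F i ∣[k] T = F (act T i)) (g : SL(2, ℤ)) :
    ∀ i, F i ∣[k] g = F (act g i) := by
  have hg : g ∈ Subgroup.closure {S, T} := by simp [SpecialLinearGroup.SL2Z_generators]
  induction hg using Subgroup.closure_induction with
  | mem x hx =>
    rcases hx with rfl | rfl
    · exact hS
    · exact hT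
  | one => intro i; rw [SlashAction.slash_one, act_one]
  | mul x y _ _ hx hy => intro i; rw [SlashAction.slash_mul, hx, hy, act_act]
  | inv x _ hx =>
    intro i
    have h := congrArg (· ∣[k] x⁻¹) (hx (act x⁻¹ i))
    simp only [← SlashAction.slash_mul, mul_inv_cancel, SlashAction.slash_one, act_act,
      inv_mul_cancel, act_one] at h
    exact h.symm

theorem mul (hF : IsFamily k F) (hG : IsFamily l G) : IsFamily (k + l) (F * G) where
  slash g i := by
    rw [Pi.mul_apply, ModularForm.mul_slash_SL2, hF.slash, hG.slash]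
    rfl
  holo i := (hF.holo i).mul (hG.holo i)
  bdd i := (hF.bdd i).mul (hG.bdd i)

theorem add (hF : IsFamily k F) (hG : IsFamily k G) : IsFamily k (F + G) where
  slash g i := by
    rw [Pi.add_apply, SlashAction.add_slash, hF.slash, hG.slash]
    rfl
  holo i := (hF.holo i).add (hG.holo i)
  bdd i := (hF.bdd i).add (hG.bdd i)

theorem smul (c : ℂ) (hF : IsFamily k F) : IsFamily k (c • F) where
  slash g i := by
    rw [Pi.smul_apply, ModularForm.SL_smul_slash, hF.slash]
    rfl
  holo i := (hF.holo i).const_smul c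
  bdd i := Asymptotics.IsBigO.const_smul_left (hF.bdd i) c

theorem sub (hF : IsFamily k F) (hG : IsFamily k G) : IsFamily k (F - G) := by
  rw [sub_eq_add_neg, ← neg_one_smul ℂ G]
  exact hF.add (hG.smul (-1))

/-- A level one form as a constant family. -/
theorem const {E : Type*} [FunLike E ℍ ℂ] [ModularFormClass E 𝒮ℒ k] (f : E) :
    IsFamily k (fun _ : Option (ZMod p) => ⇑f) where
  slash g _ := SlashInvariantFormClass.slash_action_eq f _ ⟨g, rfl⟩
  holo _ := ModularFormClass.holo f
  bdd _ := ModularFormClass.bdd_at_infty f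

/-- The elementary symmetric functions of a family are level one forms. -/
theorem prod_slash_SL {ι : Type*} (s : Finset ι) (f : ι → ℍ → ℂ) (g : SL(2, ℤ)) (k : ℤ) :
    (∏ i ∈ s, f i) ∣[k * s.card] g = ∏ i ∈ s, f i ∣[k] g := by
  classical
  induction s using Finset.induction_on with
  | empty =>
    simp only [Finset.prod_empty, Finset.card_empty, Nat.cast_zero, mul_zero]
    exact ModularForm.is_invariant_one g
  | insert a s ha ih =>
    rw [Finset.prod_insert ha, Finset.prod_insert ha, Finset.card_insert_of_notMem ha,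
      show k * ((s.card + 1 : ℕ) : ℤ) = k + k * s.card by push_cast; ring,
      ModularForm.mul_slash_SL2, ih]

/-- The `r`-th elementary symmetric function of a family. -/
def esymmFun (F : Option (ZMod p) → ℍ → ℂ) (r : ℕ) : ℍ → ℂ :=
  ∑ s ∈ (Finset.univ : Finset (Option (ZMod p))).powersetCard r, ∏ i ∈ s, F i

theorem esymmFun_slash (hF : IsFamily k F) (r : ℕ) (g : SL(2, ℤ)) :
    esymmFun F r ∣[k * r] g = esymmFun F r := by
  classical
  rw [esymmFun, SlashAction.sum_slash]
  conv_rhs => rw [← Finset.map_univ_equiv (actEquiv g), Finset.powersetCard_map, Finset.sum_map]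
  refine Finset.sum_congr rfl fun s hs => ?_
  rw [← (Finset.mem_powersetCard.mp hs).2, prod_slash_SL]
  simp [Finset.prod_map, hF.slash, actEquiv]

theorem isBoundedAtImInfty_esymmFun (hF : IsFamily k F) (r : ℕ) :
    IsBoundedAtImInfty (esymmFun F r) := by
  classical
  rw [esymmFun, IsBoundedAtImInfty, Filter.BoundedAtFilter, Finset.sum_fn]
  refine Asymptotics.IsBigO.fun_sum fun s _ => ?_
  rw [show (1 : ℍ → ℝ) = (fun x => ∏ i ∈ s, 1) by ext; simp, Finset.prod_fn]
  exact Asymptotics.IsBigO.finsetProd fun i _ => hF.bdd i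

/-- The `r`-th elementary symmetric function as a level one form. -/
def esymmForm (hF : IsFamily k F) (r : ℕ) : ModularForm 𝒮ℒ (k * r) where
  toFun := esymmFun F r
  slash_action_eq' := fun _ ⟨g, hg⟩ => hg ▸ hF.esymmFun_slash r g
  holo' := MDifferentiable.sum fun s _ => MDifferentiable.prod fun i _ => hF.holo i
  bdd_at_cusps' {c} hc := by
    rw [Subgroup.IsArithmetic.isCusp_iff_isCusp_SL2Z] at hc
    rw [OnePoint.isBoundedAt_iff_forall_SL2Z hc]
    intro g _
    rw [hF.esymmFun_slash r g]
    exact hF.isBoundedAtImInfty_esymmFun r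

theorem coe_esymmForm (hF : IsFamily k F) (r : ℕ) : ⇑(hF.esymmForm r) = esymmFun F r := rfl

theorem esymmFun_one (F : Option (ZMod p) → ℍ → ℂ) : esymmFun F 1 = ∑ i, F i := by
  simp [esymmFun, Finset.powersetCard_one, Finset.sum_map]

/-- The member at the trivial coset is a form on `Γ₀(p)`. -/
def toForm (hF : IsFamily k F) : ModularForm (Gamma0 p) k where
  toFun := F none
  slash_action_eq' := by
    rintro _ ⟨g, hg, rfl⟩
    exact (hF.slash g none).trans (congrArg F (act_none_of_mem hg))
  holo' := hF.holo none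
  bdd_at_cusps' {c} hc := by
    rw [Subgroup.IsArithmetic.isCusp_iff_isCusp_SL2Z] at hc
    rw [OnePoint.isBoundedAt_iff_forall_SL2Z hc]
    intro g _
    rw [hF.slash g none]
    exact hF.bdd _

/-- The form of a family is its member at the trivial coset. -/
theorem coe_toForm (hF : IsFamily k F) : ⇑hF.toForm = F none := rfl

end IsFamily

end Fermat.Agent.EisensteinIndex

end
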