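import Mathlib.NumberTheory.ModularForms.LevelOne.GradedRing
import Mathlib.RingTheory.IntegralClosure.IsIntegralClosure.Basic
import Mathlib.RingTheory.PowerSeries.Inverse
import Fermat.Agent.EisensteinIndex.Series

/-!
# Level one modular forms with algebraic integer coefficients

Such a form is built from `E₄`, `E₆` and `Δ` with algebraic integer coefficients; this gives a
Sturm bound modulo any prime and the integrality of normalised values at a zero of `E₄`.
-/

set_option autoImplicit false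

noncomputable section

open UpperHalfPlane ModularForm EisensteinSeries ArithmeticFunction
open scoped MatrixGroups Manifold ArithmeticFunction.sigma

namespace Fermat.Agent.EisensteinIndex

/-- The ring of algebraic integers in `ℂ`. -/
abbrev AInt : Subalgebra ℤ ℂ := integralClosure ℤ ℂ

/-- The inclusion of the algebraic integers into `ℂ`. -/
def toC : AInt →+* ℂ := AInt.val.toRingHom

theorem toC_apply (x : AInt) : toC x = (x : ℂ) := rfl

theorem toC_injective : Function.Injective toC := Subtype.val_injective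

theorem map_toC_injective : Function.Injective (PowerSeries.map toC) :=
  PowerSeries.map_injective toC toC_injective

/-- Change of coefficients from `ℤ` to any ring. -/
def castSeries (R : Type*) [CommRing R] : PowerSeries ℤ →+* PowerSeries R :=
  PowerSeries.map (Int.castRingHom R)

theorem map_castSeries {R S : Type*} [CommRing R] [CommRing S] (φ : R →+* S) (P : PowerSeries ℤ) :
    PowerSeries.map φ (castSeries R P) = castSeries S P := by
  ext n
  simp [castSeries]

/-- `∑ σ_k(n) qⁿ`. -/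
def sigmaSeries (k : ℕ) : PowerSeries ℤ := PowerSeries.mk fun n => (σ k n : ℤ)

@[simp] theorem coeff_sigmaSeries (k n : ℕ) : (sigmaSeries k).coeff n = (σ k n : ℤ) :=
  PowerSeries.coeff_mk n _

/-- The expansion of `E₄`. -/
def e4Z : PowerSeries ℤ := 1 + (240 : ℤ) • sigmaSeries 3

/-- The expansion of `E₆`. -/
def e6Z : PowerSeries ℤ := 1 - (504 : ℤ) • sigmaSeries 5

/-- `∑ (5σ₃(n) + 7σ₅(n))/12 qⁿ`, an integral series. -/
def mixZ : PowerSeries ℤ := PowerSeries.mk fun n => (5 * (σ 3 n : ℤ) + 7 * (σ 5 n : ℤ)) / 12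

/-- The expansion of `Δ`. -/
def dZ : PowerSeries ℤ :=
  (100 : ℤ) • sigmaSeries 3 ^ 2 + (8000 : ℤ) • sigmaSeries 3 ^ 3
    - (147 : ℤ) • sigmaSeries 5 ^ 2 + mixZ

theorem twelve_dvd_mix (n : ℕ) : (12 : ℤ) ∣ 5 * (σ 3 n : ℤ) + 7 * (σ 5 n : ℤ) := by
  refine (ZMod.intCast_zmod_eq_zero_iff_dvd _ 12).mp ?_
  have h : ∀ x : ZMod 12, 5 * x ^ 3 + 7 * x ^ 5 = 0 := by decide
  simp only [ArithmeticFunction.sigma_apply, Int.cast_add, Int.cast_mul, Nat.cast_sum,
    Int.cast_sum, Finset.mul_sum, ← Finset.sum_add_distrib]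
  exact Finset.sum_eq_zero fun x _ => by push_cast; exact h _

theorem twelve_mul_mixZ :
    (12 : ℤ) • mixZ = (5 : ℤ) • sigmaSeries 3 + (7 : ℤ) • sigmaSeries 5 :=
  PowerSeries.ext fun n => by
    rw [map_zsmul, map_add, map_zsmul, map_zsmul, mixZ, PowerSeries.coeff_mk, coeff_sigmaSeries,
      coeff_sigmaSeries, smul_eq_mul, smul_eq_mul, smul_eq_mul,
      Int.mul_ediv_cancel' (twelve_dvd_mix n)]

theorem dZ_mul : (1728 : ℤ) • dZ = e4Z ^ 3 - e6Z ^ 2 := by
  have h := twelve_mul_mixZ
  simp only [zsmul_eq_mul] at h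
  simp only [dZ, e4Z, e6Z, zsmul_eq_mul]
  push_cast at h ⊢
  linear_combination 144 * h

@[simp] theorem coeff_zero_sigmaSeries (k : ℕ) : (sigmaSeries k).constantCoeff = 0 := by
  rw [← PowerSeries.coeff_zero_eq_constantCoeff_apply]
  simp

theorem constantCoeff_dZ : dZ.constantCoeff = 0 := by
  have : mixZ.constantCoeff = 0 := by
    rw [← PowerSeries.coeff_zero_eq_constantCoeff_apply]
    simp [mixZ]
  simp [dZ, this]

theorem coeff_one_dZ : dZ.coeff 1 = 1 := by
  simp [dZ, mixZ, pow_succ, PowerSeries.coeff_mul, Finset.Nat.antidiagonal_succ]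

theorem exists_dZ_eq_X_mul : ∃ u : PowerSeries ℤ, IsUnit u ∧ dZ = PowerSeries.X * u := by
  obtain ⟨u, hu⟩ := PowerSeries.X_dvd_iff.mpr constantCoeff_dZ
  refine ⟨u, ?_, hu⟩
  rw [PowerSeries.isUnit_iff_constantCoeff, ← PowerSeries.coeff_zero_eq_constantCoeff_apply]
  have h := coeff_one_dZ
  rw [hu, PowerSeries.coeff_succ_X_mul] at h
  rw [h]
  exact isUnit_one

@[simp] theorem constantCoeff_castSeries_dZ (R : Type*) [CommRing R] :
    (castSeries R dZ).constantCoeff = 0 := by
  rw [← PowerSeries.coeff_zero_eq_constantCoeff_apply, castSeries, PowerSeries.coeff_map,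
    PowerSeries.coeff_zero_eq_constantCoeff_apply, constantCoeff_dZ, _root_.map_zero]

theorem coeff_e4Z (n : ℕ) : e4Z.coeff n = if n = 0 then 1 else 240 * (σ 3 n : ℤ) := by
  rw [e4Z, map_add, map_zsmul, PowerSeries.coeff_one, coeff_sigmaSeries, smul_eq_mul]
  split_ifs with h <;> simp [h]

theorem coeff_e6Z (n : ℕ) : e6Z.coeff n = if n = 0 then 1 else -(504 * (σ 5 n : ℤ)) := by
  rw [e6Z, map_sub, map_zsmul, PowerSeries.coeff_one, coeff_sigmaSeries, smul_eq_mul]
  split_ifs with h <;> simp [h]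

theorem constantCoeff_e4Z : e4Z.constantCoeff = 1 := by
  rw [← PowerSeries.coeff_zero_eq_constantCoeff_apply, coeff_e4Z, if_pos rfl]

theorem constantCoeff_e6Z : e6Z.constantCoeff = 1 := by
  rw [← PowerSeries.coeff_zero_eq_constantCoeff_apply, coeff_e6Z, if_pos rfl]

theorem hasExp_E4 : HasExp 1 E₄ (castSeries ℂ e4Z) :=
  (HasExp.of_modularForm E₄ one_pos one_mem_strictPeriods_SL).congr rfl <| PowerSeries.ext fun n => by
    rw [E_qExpansion_coeff _ ⟨2, rfl⟩]
    have hb : bernoulli 4 = -1 / 30 := by decide +kernel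
    rcases eq_or_ne n 0 with rfl | hn
    · simp [castSeries, constantCoeff_e4Z]
    · simp [castSeries, coeff_e4Z, hn, hb]
      norm_num

theorem hasExp_E6 : HasExp 1 E₆ (castSeries ℂ e6Z) :=
  (HasExp.of_modularForm E₆ one_pos one_mem_strictPeriods_SL).congr rfl <| PowerSeries.ext fun n => by
    rw [E_qExpansion_coeff _ ⟨3, rfl⟩]
    have hb : bernoulli 6 = 1 / 42 := by decide +kernel
    rcases eq_or_ne n 0 with rfl | hn
    · simp [castSeries, constantCoeff_e6Z]
    · simp [castSeries, coeff_e6Z, hn, hb]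
      norm_num

theorem hasExp_discriminant : HasExp 1 discriminant (castSeries ℂ dZ) := by
  refine (((hasExp_E4.pow 3).sub (hasExp_E6.pow 2)).C_mul (1728 : ℂ)⁻¹).congr ?_ ?_
  · funext z
    simp [discriminant_eq_E₄_cube_sub_E₆_sq]
    ring
  · rw [← map_pow, ← map_pow, ← map_sub, ← dZ_mul]
    ext n
    rw [PowerSeries.coeff_C_mul, castSeries, PowerSeries.coeff_map, PowerSeries.coeff_map,
      map_zsmul, smul_eq_mul]
    simp

theorem castSeries_dZ_ne_zero {R : Type*} [CommRing R] [Nontrivial R] : castSeries R dZ ≠ 0 :=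
  fun h => by
    have h1 := congrArg (PowerSeries.coeff 1) h
    simp [castSeries, coeff_one_dZ] at h1

/-- The form `E₄ᵃ E₆ᵇ`. -/
def monoForm (a b w : ℕ) (h : 4 * a + 6 * b = w) : ModularForm 𝒮ℒ (w : ℤ) :=
  ModularForm.mcast (by omega) ((E₄.pow a).mul (E₆.pow b))

theorem coe_monoForm (a b w : ℕ) (h : 4 * a + 6 * b = w) :
    ⇑(monoForm a b w h) = (⇑E₄) ^ a * (⇑E₆) ^ b := by
  simp [monoForm]

/-- The expansion of `E₄ᵃ E₆ᵇ`. -/
def monoSeries (R : Type*) [CommRing R] (a b : ℕ) : PowerSeries R :=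
  castSeries R (e4Z ^ a * e6Z ^ b)

theorem constantCoeff_monoSeries (R : Type*) [CommRing R] (a b : ℕ) :
    (monoSeries R a b).constantCoeff = 1 := by
  simp only [monoSeries, map_mul, map_pow, castSeries,
    ← PowerSeries.coeff_zero_eq_constantCoeff_apply, PowerSeries.coeff_map]
  simp [coeff_e4Z, coeff_e6Z]

theorem monoSeries_map {R S : Type*} [CommRing R] [CommRing S] (φ : R →+* S) (a b : ℕ) :
    PowerSeries.map φ (monoSeries R a b) = monoSeries S a b :=
  map_castSeries φ _

theorem hasExp_mono (a b : ℕ) :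
    HasExp 1 ((⇑E₄) ^ a * (⇑E₆) ^ b) (monoSeries ℂ a b) :=
  ((hasExp_E4.pow a).mul (hasExp_E6.pow b)).congr rfl (by simp [monoSeries])

theorem exists_weights {w : ℕ} (hw : Even w) (h2 : w ≠ 2) : ∃ a b, 4 * a + 6 * b = w := by
  obtain ⟨m, rfl⟩ := hw
  rcases Nat.even_or_odd m with ⟨j, rfl⟩ | ⟨j, rfl⟩
  · exact ⟨j, 0, by omega⟩
  · exact ⟨j - 1, 1, by omega⟩

theorem eq_zero_of_constantCoeff_eq_zero {w : ℤ} (hw : w < 12) {g : ModularForm 𝒮ℒ w}
    (hg : (qExpansion 1 g).coeff 0 = 0) : g = 0 := by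
  have h := rank_zero_iff_forall_zero.mp (CuspForm.rank_eq_zero_of_weight_lt_twelve hw)
    (toCuspForm g hg)
  exact DFunLike.ext g 0 fun z => congrArg (fun F : CuspForm 𝒮ℒ w => F z) h

/-- Induction principle for level one forms with algebraic integer coefficients. -/
theorem levelOne_induction {motive : ℕ → (ℍ → ℂ) → PowerSeries AInt → Prop}
    (zero : ∀ w, motive w 0 0)
    (mono : ∀ (c : AInt) (a b w : ℕ), 4 * a + 6 * b = w →
      motive w ((c : ℂ) • ((⇑E₄) ^ a * (⇑E₆) ^ b)) (PowerSeries.C c * monoSeries AInt a b))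
    (addDelta : ∀ (c : AInt) (a b w : ℕ) (f : ℍ → ℂ) (P : PowerSeries AInt),
      4 * a + 6 * b = w + 12 → motive w f P →
      motive (w + 12) ((c : ℂ) • ((⇑E₄) ^ a * (⇑E₆) ^ b) + discriminant * f)
        (PowerSeries.C c * monoSeries AInt a b + castSeries AInt dZ * P))
    (w : ℕ) (f : ModularForm 𝒮ℒ (w : ℤ)) (P : PowerSeries AInt)
    (hP : PowerSeries.map toC P = qExpansion 1 f) : motive w f P := by
  induction w using Nat.strong_induction_on generalizing P with
  | _ w ih =>
    rcases Nat.even_or_odd w with heven | hodd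
    swap
    · have hf : f = 0 := levelOne_odd_weight_eq_zero (by exact_mod_cast hodd) f
      subst hf
      rw [FunLike.coe_zero, qExpansion_zero, ← map_zero (PowerSeries.map toC)] at hP
      rw [map_toC_injective hP]
      exact zero w
    by_cases h2 : w = 2
    · subst h2
      have hf : f = 0 := rank_zero_iff_forall_zero.mp levelOne_weight_two_rank_zero f
      subst hf
      rw [FunLike.coe_zero, qExpansion_zero, ← map_zero (PowerSeries.map toC)] at hP
      rw [map_toC_injective hP]
      exact zero 2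
    obtain ⟨a, b, hab⟩ := exists_weights heven h2
    set c : AInt := P.coeff 0 with hc
    set g : ModularForm 𝒮ℒ (w : ℤ) := f - (c : ℂ) • monoForm a b w hab with hgdef
    have hgexp : qExpansion 1 g = PowerSeries.map toC (P - PowerSeries.C c * monoSeries AInt a b) := by
      refine ((HasExp.eq_qExpansion (k := (w : ℤ)) one_pos one_mem_strictPeriods_SL (f := g) ?_)).symm
      refine ((HasExp.of_modularForm f one_pos one_mem_strictPeriods_SL).sub
        ((hasExp_mono a b).C_mul (c : ℂ))).congr ?_ ?_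
      · simp [hgdef, coe_monoForm]
      · rw [map_sub, map_mul, PowerSeries.map_C, hP, monoSeries, monoSeries, map_castSeries,
          toC_apply]
    have hg0 : (qExpansion 1 g).coeff 0 = 0 := by
      rw [hgexp, PowerSeries.coeff_map]
      simp [hc, PowerSeries.coeff_zero_eq_constantCoeff_apply, constantCoeff_monoSeries,
        -PowerSeries.coeff_map]
    have hfg : (f : ℍ → ℂ) = (c : ℂ) • ((⇑E₄) ^ a * (⇑E₆) ^ b) + (g : ℍ → ℂ) := by
      simp [hgdef, coe_monoForm]
    rcases lt_or_ge w 12 with hlt | hge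
    · have hg : g = 0 := eq_zero_of_constantCoeff_eq_zero (by omega) hg0
      rw [hg, FunLike.coe_zero, qExpansion_zero, ← map_zero (PowerSeries.map toC)] at hgexp
      rw [hfg, hg, FunLike.coe_zero, add_zero, sub_eq_zero.mp (map_toC_injective hgexp.symm)]
      exact mono c a b w hab
    · obtain ⟨w', rfl⟩ := Nat.exists_eq_add_of_le' hge
      obtain ⟨u, hu, hdu⟩ := exists_dZ_eq_X_mul
      obtain ⟨R', hR'⟩ : PowerSeries.X ∣ P - PowerSeries.C c * monoSeries AInt a b := by
        rw [PowerSeries.X_dvd_iff]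
        simp [hc, PowerSeries.coeff_zero_eq_constantCoeff_apply, constantCoeff_monoSeries]
      obtain ⟨v, hv⟩ := hu.map (castSeries AInt)
      have hR : P - PowerSeries.C c * monoSeries AInt a b =
          castSeries AInt dZ * (↑v⁻¹ * R') := by
        rw [hR', hdu, map_mul, ← hv, castSeries, PowerSeries.map_X, mul_assoc, Units.mul_inv_cancel_left]
      set f1 : ModularForm 𝒮ℒ (w' : ℤ) :=
        ModularForm.mcast (by omega) (CuspForm.discriminantEquiv (toCuspForm g hg0)) with hf1
      have hgf1 : (g : ℍ → ℂ) = discriminant * (f1 : ℍ → ℂ) := by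
        rw [hf1, coe_mcast, discriminant_mul_discriminantEquiv]
        rfl
      have hP1 : PowerSeries.map toC (↑v⁻¹ * R') = qExpansion 1 f1 := by
        have h1 : castSeries ℂ dZ * qExpansion 1 f1 = qExpansion 1 g :=
          HasExp.eq_qExpansion (k := ((w' + 12 : ℕ) : ℤ)) one_pos one_mem_strictPeriods_SL (f := g)
            ((hasExp_discriminant.mul (HasExp.of_modularForm f1 one_pos
              one_mem_strictPeriods_SL)).congr hgf1.symm rfl)
        rw [hgexp, hR, map_mul, map_castSeries] at h1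
        exact (mul_left_cancel₀ castSeries_dZ_ne_zero h1).symm
      rw [hfg, hgf1, show P = PowerSeries.C c * monoSeries AInt a b +
        castSeries AInt dZ * (↑v⁻¹ * R') by rw [← hR, add_sub_cancel]]
      exact addDelta c a b w' f1 _ hab (ih w' (by omega) f1 _ hP1)

/-- Sturm bound modulo a prime: enough vanishing coefficients force all of them to vanish. -/
theorem map_eq_zero_of_dvd {k : Type*} [Field k] (π : AInt →+* k) (w : ℕ)
    (f : ModularForm 𝒮ℒ (w : ℤ)) (P : PowerSeries AInt)
    (hP : PowerSeries.map toC P = qExpansion 1 f)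
    (h : PowerSeries.X ^ (w / 12 + 1) ∣ PowerSeries.map π P) : PowerSeries.map π P = 0 := by
  revert h
  refine levelOne_induction (motive := fun w _ P =>
    PowerSeries.X ^ (w / 12 + 1) ∣ PowerSeries.map π P → PowerSeries.map π P = 0)
    (fun w _ => map_zero _) ?_ ?_ w f P hP
  · intro c a b w _ h
    have h0 : π c = 0 := by
      simpa [PowerSeries.coeff_zero_eq_constantCoeff_apply, constantCoeff_monoSeries]
        using PowerSeries.X_pow_dvd_iff.mp h 0 (Nat.succ_pos _)
    simp [h0]
  · intro c a b w f P _ ih h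
    obtain ⟨u, hu, hdu⟩ := exists_dZ_eq_X_mul
    have h0 : π c = 0 := by
      simpa [PowerSeries.coeff_zero_eq_constantCoeff_apply, constantCoeff_monoSeries, map_castSeries,
        monoSeries_map] using PowerSeries.X_pow_dvd_iff.mp h 0 (Nat.succ_pos _)
    have he : PowerSeries.map π (PowerSeries.C c * monoSeries AInt a b + castSeries AInt dZ * P) =
        PowerSeries.X * (castSeries k u * PowerSeries.map π P) := by
      simp [h0, map_castSeries, hdu, mul_assoc]
      simp [castSeries]
    rw [he, show (w + 12) / 12 + 1 = (w / 12 + 1) + 1 by omega, pow_succ'] at h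
    rw [he, ih ((IsUnit.dvd_mul_left (hu.map (castSeries k))).mp
      ((mul_dvd_mul_iff_left PowerSeries.X_ne_zero).mp h)), mul_zero, mul_zero]

/-- Normalised values at a common zero of `E₄`, with `E₆ = -216 t⁶`, are algebraic integers. -/
theorem isIntegral_value (τ : ℍ) (t : ℂ) (h4 : E₄ τ = 0) (h6 : E₆ τ = -216 * t ^ 6) (w : ℕ)
    (f : ModularForm 𝒮ℒ (w : ℤ)) (P : PowerSeries AInt)
    (hP : PowerSeries.map toC P = qExpansion 1 f) :
    ∃ z : AInt, f τ = z * t ^ w := by
  have h216 : ((-216 : AInt) : ℂ) = -216 := by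
    rw [← toC_apply, map_neg, map_ofNat]
  have h27 : ((-27 : AInt) : ℂ) = -27 := by
    rw [← toC_apply, map_neg, map_ofNat]
  have hmono : ∀ (c : AInt) (a b w : ℕ), 4 * a + 6 * b = w →
      ∃ z : AInt, ((c : ℂ) • ((⇑E₄) ^ a * (⇑E₆) ^ b)) τ = z * t ^ w := by
    intro c a b w hab
    rcases Nat.eq_zero_or_pos a with rfl | ha
    · refine ⟨c * (-216) ^ b, ?_⟩
      rw [← hab, Pi.smul_apply, Pi.mul_apply, Pi.pow_apply, Pi.pow_apply, h4, h6, mul_pow,
        ← pow_mul, MulMemClass.coe_mul, SubmonoidClass.coe_pow, h216, smul_eq_mul]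
      ring
    · exact ⟨0, by simp [h4, ha.ne']⟩
  refine levelOne_induction (motive := fun w f _ => ∃ z : AInt, f τ = z * t ^ w)
    (fun w => ⟨0, by simp⟩) hmono ?_ w f P hP
  rintro c a b w f P hab ⟨z, hz⟩
  obtain ⟨z', hz'⟩ := hmono c a b (w + 12) hab
  refine ⟨z' + (-27) * z, ?_⟩
  have hd : discriminant τ = -27 * t ^ 12 := by
    rw [discriminant_eq_E₄_cube_sub_E₆_sq, h4, h6]
    ring
  rw [Pi.add_apply, hz', Pi.mul_apply, hd, hz, AddMemClass.coe_add, MulMemClass.coe_mul, h27]
  ring

end Fermat.Agent.EisensteinIndex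

end
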