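import Fermat.Prelude.Def_ModularForm_HeckeOperator
import Fermat.Prelude.Def_FLTPrelim_Modularity
import Fermat.Prelude.Thm_CongruenceSubgroup_one_mem_strictPeriods_Gamma0
import Fermat.Prelude.Thm_ModularFormClass_qCoeff_heckeU
import Fermat.Agent.EisensteinIndex.LevelOne
import Fermat.Agent.EisensteinIndex.Conjugates

/-!
# Weight two forms on `Γ₀(p)`: the Atkin–Lehner transform and the conjugates
-/

set_option autoImplicit false

noncomputable section

open UpperHalfPlane CongruenceSubgroup ModularGroup Filter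
open scoped MatrixGroups Manifold ModularForm Topology

local notation "𝕢" => Function.Periodic.qParam

namespace Fermat.Agent.EisensteinIndex

variable {p : ℕ} [Fact p.Prime]

theorem prime_ne_zero : p ≠ 0 := (Fact.out : p.Prime).ne_zero

theorem natCast_ne_zero : (p : ℂ) ≠ 0 := Nat.cast_ne_zero.mpr prime_ne_zero

theorem slash_T_zpow_apply (f : ℍ → ℂ) (k : ℤ) (n : ℤ) (τ : ℍ) :
    (f ∣[k] (T ^ n : SL(2, ℤ))) τ = f ((n : ℝ) +ᵥ τ) := by
  have h : (T ^ n : SL(2, ℤ)) • τ = (n : ℝ) +ᵥ τ :=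
    UpperHalfPlane.ext <| (ModularGroup.coe_T_zpow_smul_eq (z := τ) (n := n)).trans (by simp [add_comm])
  rw [ModularForm.SL_slash_apply, h]
  simp [denom, coe_T_zpow, -map_zpow]

theorem bdd_comp {f : ℍ → ℂ} (hf : IsBoundedAtImInfty f) {e : ℍ → ℍ} {a : ℝ} (ha : 0 < a)
    (he : ∀ τ : ℍ, (e τ).im = a * τ.im) : IsBoundedAtImInfty (f ∘ e) :=
  Asymptotics.IsBigO.comp_tendsto hf <| tendsto_comap_iff.mpr <| by
    simp only [Function.comp_def, he]
    exact tendsto_comap.const_mul_atTop ha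

theorem bdd_slash_T_zpow {f : ℍ → ℂ} (hf : IsBoundedAtImInfty f) (k n : ℤ) :
    IsBoundedAtImInfty (f ∣[k] (T ^ n : SL(2, ℤ))) := by
  have h : f ∣[k] (T ^ n : SL(2, ℤ)) = f ∘ fun τ => (n : ℝ) +ᵥ τ :=
    funext (slash_T_zpow_apply f k n)
  rw [h]
  exact bdd_comp hf one_pos fun τ => by simp

theorem bdd_slash_heckeMatrix {f : ℍ → ℂ} (hf : IsBoundedAtImInfty f) (k : ℤ) (j : ℕ) :
    IsBoundedAtImInfty (f ∣[k] ModularForm.heckeMatrix p j) := by
  have h : f ∣[k] ModularForm.heckeMatrix p j =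
      (p : ℂ)⁻¹ • (f ∘ fun τ => ModularForm.heckeMatrix p j • τ) :=
    funext fun τ => ModularForm.slash_heckeMatrix_apply k prime_ne_zero j f τ
  rw [h]
  refine Asymptotics.IsBigO.const_smul_left (bdd_comp hf (a := (p : ℝ)⁻¹)
    (inv_pos.mpr (Nat.cast_pos.mpr (Fact.out : p.Prime).pos)) fun τ => ?_) _
  have h := congrArg Complex.im (ModularForm.coe_heckeMatrix_smul prime_ne_zero j τ (p := p))
  simp only [Complex.div_natCast_im, Complex.add_im, Complex.natCast_im, add_zero] at h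
  rw [← coe_im, ← coe_im, h]
  ring

theorem bdd_slash_heckeDiag {f : ℍ → ℂ} (hf : IsBoundedAtImInfty f) (k : ℤ) :
    IsBoundedAtImInfty (f ∣[k] ModularForm.heckeDiagMatrix p) := by
  have h : f ∣[k] ModularForm.heckeDiagMatrix p =
      ((p : ℂ) ^ (k - 1)) • (f ∘ fun τ => ModularForm.heckeDiagMatrix p • τ) :=
    funext fun τ => ModularForm.slash_heckeDiagMatrix_apply k prime_ne_zero f τ
  rw [h]
  refine Asymptotics.IsBigO.const_smul_left (bdd_comp hf (a := (p : ℝ))
    (Nat.cast_pos.mpr (Fact.out : p.Prime).pos) fun τ => ?_) _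
  have h := congrArg Complex.im (ModularForm.coe_heckeDiagMatrix_smul prime_ne_zero τ (p := p))
  simp only [Complex.mul_im, Complex.natCast_re, Complex.natCast_im, zero_mul, add_zero] at h
  rw [← coe_im, ← coe_im, h]

/-- Conjugation of `Γ₀(p)` by `diag(p, 1)`. -/
theorem exists_diag_mul {γ : SL(2, ℤ)} (hγ : γ ∈ Gamma0 p) :
    ∃ γ' : SL(2, ℤ), (γ' 0 1 : ZMod p) = 0 ∧ γ' 1 1 = γ 1 1 ∧ (p : ℤ) * γ' 1 0 = γ 1 0 ∧
      ModularForm.heckeDiagMatrix p * (γ : GL (Fin 2) ℝ) =
        (γ' : GL (Fin 2) ℝ) * ModularForm.heckeDiagMatrix p := by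
  obtain ⟨c', hc'⟩ := (ZMod.intCast_zmod_eq_zero_iff_dvd _ p).mp (Gamma0_mem.mp hγ)
  have hdet := (Matrix.det_fin_two γ.1).symm.trans γ.det_coe
  obtain ⟨g, hg⟩ : ∃ g : SL(2, ℤ),
      (g : Matrix (Fin 2) (Fin 2) ℤ) = !![γ 0 0, (p : ℤ) * γ 0 1; c', γ 1 1] :=
    ⟨⟨_, by rw [Matrix.det_fin_two_of]; linear_combination hdet + γ 0 1 * hc'⟩, rfl⟩
  refine ⟨g, by simp [hg], by simp [hg], by simp [hg, hc'], Units.ext ?_⟩
  ext i j
  fin_cases i <;> fin_cases j <;>
    simp [ModularForm.val_heckeDiagMatrix prime_ne_zero, Matrix.mul_apply, Fin.sum_univ_succ,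
      hc', hg] <;> ring

theorem S_conj_mem {γ' : SL(2, ℤ)} (h : (γ' 0 1 : ZMod p) = 0) : S * γ' * S⁻¹ ∈ Gamma0 p := by
  rw [Gamma0_mem]
  simp [Matrix.SpecialLinearGroup.coe_mul, coe_S, Matrix.SpecialLinearGroup.coe_inv,
    Matrix.adjugate_fin_two, Matrix.mul_apply, Fin.sum_univ_succ, Matrix.vecMul, dotProduct, h]

/-- If `f` is invariant under `Γ₀(p)` and bounded at both cusps, its conjugates form a family. -/
theorem isFamily_conj_of {f : ℍ → ℂ} {k : ℤ} (hinv : ∀ γ ∈ Gamma0 p, f ∣[k] γ = f)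
    (hf : MDiff f) (h0 : IsBoundedAtImInfty f) (hS : IsBoundedAtImInfty (f ∣[k] S)) :
    IsFamily k (conj (p := p) f k) where
  slash := conj_slash hinv
  holo i := hf.slash k _
  bdd i := by
    cases i with
    | none => rwa [conj_none]
    | some j =>
      rw [conj, rep_some, SlashAction.slash_mul]
      exact bdd_slash_T_zpow hS k _

theorem S_slash_S (f : ℍ → ℂ) (k : ℤ) (hk : Even k) : (f ∣[k] S) ∣[k] S = f := by
  funext τ
  simp only [SlashInvariantForm.slash_S_apply]
  have hτ : (τ : ℂ) ≠ 0 := ne_zero τ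
  obtain ⟨m, rfl⟩ := hk
  have : UpperHalfPlane.mk (-(UpperHalfPlane.mk (-τ : ℂ)⁻¹ τ.im_inv_neg_coe_pos : ℍ) : ℂ)⁻¹
      (UpperHalfPlane.im_inv_neg_coe_pos _) = τ := UpperHalfPlane.ext (by simp)
  rw [this]
  rw [mul_assoc, ← mul_zpow]
  simp [hτ, inv_neg]
  rw [Even.neg_one_zpow ⟨-m, rfl⟩, mul_one]

variable (p) in
/-- The Atkin–Lehner transform in weight two. -/
def atkin (f : ℍ → ℂ) : ℍ → ℂ :=
  (f ∣[(2 : ℤ)] S) ∣[(2 : ℤ)] ModularForm.heckeDiagMatrix p

theorem atkin_apply (f : ℍ → ℂ) (τ : ℍ) :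
    atkin p f τ = p * (f ∣[(2 : ℤ)] S) (ModularForm.heckeDiagMatrix p • τ) := by
  rw [atkin, ModularForm.slash_heckeDiagMatrix_apply 2 prime_ne_zero]
  norm_num

theorem atkin_slash_heckeMatrix (f : ℍ → ℂ) (j : ℕ) :
    atkin p f ∣[(2 : ℤ)] ModularForm.heckeMatrix p j = f ∣[(2 : ℤ)] (S * T ^ (j : ℤ)) := by
  funext τ
  have h : ModularForm.heckeDiagMatrix p • ModularForm.heckeMatrix p j • τ = ((j : ℤ) : ℝ) +ᵥ τ :=
    UpperHalfPlane.ext <| by
      rw [ModularForm.coe_heckeDiagMatrix_smul prime_ne_zero,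
        ModularForm.coe_heckeMatrix_smul prime_ne_zero]
      rw [UpperHalfPlane.coe_vadd]
      push_cast
      field_simp [natCast_ne_zero (p := p)]
      ring
  rw [ModularForm.slash_heckeMatrix_apply 2 prime_ne_zero, atkin_apply, h, SlashAction.slash_mul,
    slash_T_zpow_apply, inv_mul_cancel_left₀ natCast_ne_zero]

theorem atkin_invariant {f : ℍ → ℂ} (hinv : ∀ γ ∈ Gamma0 p, f ∣[(2 : ℤ)] γ = f) :
    ∀ γ ∈ Gamma0 p, atkin p f ∣[(2 : ℤ)] γ = atkin p f := fun γ hγ => by
  obtain ⟨γ', h01, -, -, he⟩ := exists_diag_mul hγ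
  rw [atkin, ModularForm.SL_slash, ← SlashAction.slash_mul, he, SlashAction.slash_mul,
    ← ModularForm.SL_slash]
  congr 1
  rw [← SlashAction.slash_mul, show S * γ' = S * γ' * S⁻¹ * S by group, SlashAction.slash_mul,
    hinv _ (S_conj_mem h01)]

theorem atkin_slash_S (f : ℍ → ℂ) :
    atkin p f ∣[(2 : ℤ)] S = f ∣[(2 : ℤ)] ModularForm.heckeMatrix p 0 := by
  rw [atkin, ModularForm.SL_slash S (f := _ ∣[(2 : ℤ)] _), ← SlashAction.slash_mul,
    show ModularForm.heckeDiagMatrix p * (S : GL (Fin 2) ℝ) =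
      (S : GL (Fin 2) ℝ) * ModularForm.heckeMatrix p 0 from Units.ext <| by
        ext i j
        fin_cases i <;> fin_cases j <;>
          simp [ModularForm.val_heckeDiagMatrix prime_ne_zero,
            ModularForm.val_heckeMatrix prime_ne_zero, Matrix.mul_apply, Fin.sum_univ_succ, coe_S],
    SlashAction.slash_mul, ← ModularForm.SL_slash, S_slash_S f 2 (by decide)]

theorem atkin_atkin (f : ℍ → ℂ) : atkin p (atkin p f) = f := by
  funext τ
  have h : ModularForm.heckeMatrix p 0 • ModularForm.heckeDiagMatrix p • τ = τ :=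
    UpperHalfPlane.ext <| by
      rw [ModularForm.coe_heckeMatrix_smul prime_ne_zero,
        ModularForm.coe_heckeDiagMatrix_smul prime_ne_zero]
      push_cast
      field_simp [natCast_ne_zero (p := p)]
      ring
  rw [atkin_apply, atkin_slash_S, ModularForm.slash_heckeMatrix_apply 2 prime_ne_zero, h,
    mul_inv_cancel_left₀ natCast_ne_zero]

/-- The Atkin–Lehner transform of a form, as a form. -/
def atkinForm (f : ModularForm (Gamma0 p) 2) : ModularForm (Gamma0 p) 2 :=
  (isFamily_conj_of (f := atkin p f) (k := 2)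
    (atkin_invariant fun γ hγ =>
      SlashInvariantFormClass.slash_action_eq f _ (Subgroup.mem_map_of_mem _ hγ))
    (((ModularFormClass.holo f).slash 2 _).slash 2 _)
    (bdd_slash_heckeDiag (ModularFormClass.bdd_at_infty_slash f S) 2)
    (by
      rw [atkin_slash_S]
      exact bdd_slash_heckeMatrix (ModularFormClass.bdd_at_infty f) 2 0)).toForm

theorem coe_atkinForm (f : ModularForm (Gamma0 p) 2) : ⇑(atkinForm f) = atkin p ⇑f :=
  conj_none _ _

theorem sum_range_eq_sum_zmod {M : Type*} [AddCommMonoid M] (g : ℕ → M) :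
    ∑ j ∈ Finset.range p, g j = ∑ j : ZMod p, g j.val := by
  refine Finset.sum_bij' (fun j _ => (j : ZMod p)) (fun j _ => j.val) (by simp)
    (fun j _ => Finset.mem_range.mpr j.val_lt) (fun j hj => ZMod.val_cast_of_lt (Finset.mem_range.mp hj))
    (fun j _ => ZMod.natCast_zmod_val j) fun j hj => ?_
  rw [ZMod.val_cast_of_lt (Finset.mem_range.mp hj)]

theorem sum_option (F : Option (ZMod p) → ℍ → ℂ) : ∑ i, F i = F none + ∑ j, F (some j) :=
  Fintype.sum_option F

/-- The trace to level one vanishes in weight two. -/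
theorem heckeU_atkin (f : ModularForm (Gamma0 p) 2) :
    ModularForm.heckeU 2 p (atkin p ⇑f) = -⇑f := by
  have hfam := isFamily_conj f
  have hw : ∀ g : ModularForm 𝒮ℒ (2 * ((1 : ℕ) : ℤ)), g = 0 := by
    exact rank_zero_iff_forall_zero.mp ModularForm.levelOne_weight_two_rank_zero
  have h0 : IsFamily.esymmFun (conj (p := p) ⇑f 2) 1 = 0 := by
    rw [← hfam.coe_esymmForm, hw (hfam.esymmForm 1), FunLike.coe_zero]
  rw [IsFamily.esymmFun_one, sum_option, conj_none] at h0
  rw [ModularForm.heckeU, sum_range_eq_sum_zmod, ← eq_neg_of_add_eq_zero_right h0]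
  exact Finset.sum_congr rfl fun j _ => by rw [atkin_slash_heckeMatrix, conj, rep_some]

theorem qCoeff_atkin (f : ModularForm (Gamma0 p) 2) (n : ℕ) :
    ModularFormClass.qCoeff (atkin p ⇑f) n = -ModularFormClass.qCoeff (⇑f) (n * p) := by
  have h := ModularFormClass.qCoeff_heckeU (atkinForm (atkinForm f))
    (one_mem_strictPeriods_Gamma0 p) (p := p) prime_ne_zero n
  have h2 := congrArg (fun F => ModularFormClass.qCoeff F n) (heckeU_atkin (atkinForm f))
  simp only [coe_atkinForm, atkin_atkin] at h h2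
  rw [h, ModularForm.coeffHeckeU_apply] at h2
  rw [h2]
  simp only [ModularFormClass.qCoeff]
  rw [← coe_atkinForm, ModularForm.qExpansion_neg one_pos (one_mem_strictPeriods_Gamma0 p)]
  simp

omit [Fact (Nat.Prime p)] in
theorem hasExp_form (f : ModularForm (Gamma0 p) 2) :
    HasExp 1 f (qExpansion 1 f) :=
  HasExp.of_modularForm f one_pos (one_mem_strictPeriods_Gamma0 p)

theorem coeff_qExpansion_atkin (f : ModularForm (Gamma0 p) 2) (n : ℕ) :
    (qExpansion 1 (atkin p ⇑f)).coeff n = -(qExpansion 1 f).coeff (n * p) :=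
  qCoeff_atkin f n

/-- A `p`-th root of unity, as an algebraic integer. -/
def zeta (p : ℕ) [Fact p.Prime] (j : ℕ) : AInt :=
  ⟨Complex.exp (2 * Real.pi * Complex.I * j / p), IsIntegral.of_pow (n := p)
    (Fact.out : p.Prime).pos <| by
      rw [← Complex.exp_nat_mul]
      have : (p : ℂ) * (2 * Real.pi * Complex.I * j / p) = (j : ℕ) * (2 * Real.pi * Complex.I) := by
        field_simp [natCast_ne_zero (p := p)]
      rw [this, Complex.exp_nat_mul_two_pi_mul_I]
      exact isIntegral_one⟩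

theorem qParam_heckeMatrix (j : ℕ) (τ : ℍ) :
    𝕢 1 (ModularForm.heckeMatrix p j • τ : ℍ) = toC (zeta p j) * 𝕢 p τ := by
  rw [ModularForm.coe_heckeMatrix_smul prime_ne_zero, toC_apply, zeta, Function.Periodic.qParam,
    Function.Periodic.qParam, ← Complex.exp_add]
  congr 1
  push_cast
  ring

theorem hasExp_comp_heckeMatrix {F : ℍ → ℂ} {P : PowerSeries ℂ} (hF : HasExp 1 F P) (j : ℕ) :
    HasExp p (fun τ => F (ModularForm.heckeMatrix p j • τ))
      (PowerSeries.rescale (toC (zeta p j)) P) :=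
  hF.comp_rescale fun τ => qParam_heckeMatrix j τ

/-- `p` times the conjugates of a weight two form. -/
def kFamily (f : ModularForm (Gamma0 p) 2) : Option (ZMod p) → ℍ → ℂ :=
  (p : ℂ) • conj ⇑f 2

theorem isFamily_kFamily (f : ModularForm (Gamma0 p) 2) : IsFamily 2 (kFamily f) :=
  (isFamily_conj f).smul _

theorem kFamily_some (f : ModularForm (Gamma0 p) 2) (j : ZMod p) (τ : ℍ) :
    kFamily f (some j) τ = atkin p ⇑f (ModularForm.heckeMatrix p j.val • τ) := by
  have h := congrFun (atkin_slash_heckeMatrix (p := p) ⇑f j.val) τ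
  rw [ModularForm.slash_heckeMatrix_apply 2 prime_ne_zero] at h
  simp only [kFamily, Pi.smul_apply, conj, rep_some, ← h, smul_eq_mul]
  rw [mul_inv_cancel_left₀ natCast_ne_zero]

/-- The expansions of the family in powers of `q^(1/p)`. -/
def kSeries (R : Type*) [CommRing R] (ζ : ZMod p → R) (P Q : PowerSeries R) :
    Option (ZMod p) → PowerSeries R
  | none => PowerSeries.expand p prime_ne_zero (PowerSeries.C (p : R) * P)
  | some j => PowerSeries.rescale (ζ j) Q

/-- Expansions of the conjugates of a weight two form in terms of those at the two cusps. -/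
theorem hasExp_kFamily (f : ModularForm (Gamma0 p) 2) (i : Option (ZMod p)) :
    HasExp p (kFamily f i) (kSeries ℂ (fun j => toC (zeta p j.val)) (qExpansion 1 f)
      (qExpansion 1 (atkin p ⇑f)) i) := by
  cases i with
  | none =>
    have h := ((hasExp_form f).C_mul (p : ℂ)).expand (M := p) prime_ne_zero
    rw [mul_one] at h
    exact h.congr (by simp [kFamily, conj_none]) rfl
  | some j =>
    refine (hasExp_comp_heckeMatrix (F := atkin p ⇑f) ?_ j.val).congr
      (funext fun τ => (kFamily_some f j τ).symm) rfl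
    rw [← coe_atkinForm]
    exact hasExp_form _

end Fermat.Agent.EisensteinIndex

end
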