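import Mathlib.NumberTheory.ModularForms.EisensteinSeries.E2.MDifferentiable
import Mathlib.NumberTheory.ModularForms.EisensteinSeries.E2.Transform
import Fermat.Agent.EisensteinIndex.WeightTwo

/-!
# The Eisenstein series of weight two on `Γ₀(p)`
-/

set_option autoImplicit false

noncomputable section

open UpperHalfPlane CongruenceSubgroup ModularGroup EisensteinSeries ArithmeticFunction
open scoped MatrixGroups Manifold ModularForm ArithmeticFunction.sigma

local notation "𝕢" => Function.Periodic.qParam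

namespace Fermat.Agent.EisensteinIndex

variable {p : ℕ} [Fact p.Prime]

variable (p) in
/-- The sum of the divisors prime to `p`. -/
def sigmaPrime (n : ℕ) : ℕ := σ 1 (ordCompl[p] n)

theorem sigma_one_prime_mul {n : ℕ} (hn : n ≠ 0) :
    σ 1 (p * n) = sigmaPrime p (p * n) + p * σ 1 n := by
  have hp : p.Prime := Fact.out
  obtain ⟨a, m, hm, rfl⟩ := Nat.exists_eq_pow_mul_and_not_dvd hn p hp.ne_one
  have hco : ∀ b, (p ^ b).Coprime m := fun b => ((hp.coprime_iff_not_dvd.mpr hm)).pow_left b
  have hm0 : m ≠ 0 := fun h => hn (by simp [h])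
  have hcompl : ordCompl[p] (p ^ (a + 1) * m) = m := by
    rw [Nat.factorization_mul (pow_ne_zero _ hp.ne_zero) hm0, Finsupp.add_apply,
      Nat.factorization_eq_zero_of_not_dvd hm, hp.factorization_pow, Finsupp.single_eq_same,
      add_zero, Nat.mul_div_cancel_left _ (pow_pos hp.pos _)]
  rw [← mul_assoc, ← pow_succ', sigmaPrime, hcompl, isMultiplicative_sigma.map_mul_of_coprime (hco _),
    isMultiplicative_sigma.map_mul_of_coprime (hco _), sigma_one_apply_prime_pow hp,
    sigma_one_apply_prime_pow hp, geom_sum_succ]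
  ring

omit [Fact (Nat.Prime p)] in
theorem sigma_one_of_not_dvd {n : ℕ} (hn : ¬ p ∣ n) : σ 1 n = sigmaPrime p n := by
  rw [sigmaPrime, Nat.factorization_eq_zero_of_not_dvd hn, pow_zero, Nat.div_one]

/-- The expansion of `E₂`. -/
def e2Z : PowerSeries ℤ := 1 - (24 : ℤ) • sigmaSeries 1

theorem coeff_e2Z (n : ℕ) : e2Z.coeff n = if n = 0 then 1 else -(24 * (σ 1 n : ℤ)) := by
  rw [e2Z, map_sub, map_zsmul, PowerSeries.coeff_one, coeff_sigmaSeries, smul_eq_mul]
  split_ifs with h <;> simp [h]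

theorem hasExp_E2 : HasExp 1 E2 (castSeries ℂ e2Z) := fun τ => by
  refine (hasSum_qExpansion_E2 (z := τ)).congr_fun fun m => ?_
  rw [castSeries, PowerSeries.coeff_map, coeff_e2Z]
  split_ifs <;> simp [Function.Periodic.qParam]

theorem hasExp_comp_heckeDiag {F : ℍ → ℂ} {P : PowerSeries ℂ} (hF : HasExp 1 F P) :
    HasExp 1 (fun τ => F (ModularForm.heckeDiagMatrix p • τ))
      (PowerSeries.expand p prime_ne_zero P) := by
  refine ((hF.expand (M := p) prime_ne_zero).comp_rescale (h' := 1) (c := 1)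
    (e := fun τ => ModularForm.heckeDiagMatrix p • τ) fun τ => ?_).congr rfl ?_
  · rw [one_mul, mul_one, ModularForm.coe_heckeDiagMatrix_smul prime_ne_zero]
    simp only [Function.Periodic.qParam]
    congr 1
    push_cast
    field_simp [natCast_ne_zero (p := p)]
  · rw [PowerSeries.rescale_one, RingHom.id_apply]

variable (p) in
/-- `p E₂(pτ) - E₂(τ)`. -/
def eisFun : ℍ → ℂ := E2 ∣[(2 : ℤ)] ModularForm.heckeDiagMatrix p - E2

theorem eisFun_invariant : ∀ γ ∈ Gamma0 p, eisFun p ∣[(2 : ℤ)] γ = eisFun p := fun γ hγ => by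
  obtain ⟨γ', -, h11, h10, he⟩ := exists_diag_mul hγ
  have h : (E2 ∣[(2 : ℤ)] ModularForm.heckeDiagMatrix p) ∣[(2 : ℤ)] γ =
      E2 ∣[(2 : ℤ)] ModularForm.heckeDiagMatrix p - (1 / (2 * riemannZeta 2)) • D2 γ := by
    rw [ModularForm.SL_slash γ (f := _ ∣[(2 : ℤ)] _), ← SlashAction.slash_mul, he, SlashAction.slash_mul,
      ← ModularForm.SL_slash, E2_slash_action]
    funext τ
    have hp : ((p : ℤ) * γ' 1 0 : ℂ) = (γ 1 0 : ℂ) := by exact_mod_cast congrArg (Int.cast (R := ℂ)) h10
    simp only [Pi.sub_apply, ModularForm.slash_heckeDiagMatrix_apply 2 prime_ne_zero,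
      Pi.smul_apply, smul_eq_mul, D2, ModularGroup.denom_apply,
      ModularForm.coe_heckeDiagMatrix_smul prime_ne_zero]
    rw [← hp]
    push_cast
    simp [denom, h11]
    ring
  rw [eisFun, sub_eq_add_neg, SlashAction.add_slash, SlashAction.neg_slash, h, E2_slash_action]
  abel

theorem eisFun_slash_S :
    eisFun p ∣[(2 : ℤ)] S = E2 ∣[(2 : ℤ)] ModularForm.heckeMatrix p 0 - E2 := by
  have h : (E2 ∣[(2 : ℤ)] ModularForm.heckeDiagMatrix p) ∣[(2 : ℤ)] S =
      E2 ∣[(2 : ℤ)] ModularForm.heckeMatrix p 0 - (1 / (2 * riemannZeta 2)) • D2 S := by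
    rw [ModularForm.SL_slash S (f := _ ∣[(2 : ℤ)] _), ← SlashAction.slash_mul,
      show ModularForm.heckeDiagMatrix p * (S : GL (Fin 2) ℝ) =
        (S : GL (Fin 2) ℝ) * ModularForm.heckeMatrix p 0 from Units.ext <| by
          ext i j
          fin_cases i <;> fin_cases j <;>
            simp [ModularForm.val_heckeDiagMatrix prime_ne_zero,
              ModularForm.val_heckeMatrix prime_ne_zero, Matrix.mul_apply, Fin.sum_univ_succ, coe_S],
      SlashAction.slash_mul, ← ModularForm.SL_slash, E2_slash_action]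
    funext τ
    simp only [Pi.sub_apply, ModularForm.slash_heckeMatrix_apply 2 prime_ne_zero,
      Pi.smul_apply, smul_eq_mul, D2_S, ModularForm.coe_heckeMatrix_smul prime_ne_zero]
    field_simp [natCast_ne_zero (p := p)]
    ring
  rw [eisFun, sub_eq_add_neg, SlashAction.add_slash, SlashAction.neg_slash, h, E2_slash_action]
  abel

variable (p) in
/-- The Eisenstein series `p E₂(pτ) - E₂(τ)` as a form on `Γ₀(p)`. -/
def eisForm : ModularForm (Gamma0 p) 2 :=
  (isFamily_conj_of (f := eisFun p) (k := 2) eisFun_invariant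
    ((E2_mdifferentiable.slash 2 _).sub E2_mdifferentiable)
    ((bdd_slash_heckeDiag isBoundedAtImInfty_E2 2).sub isBoundedAtImInfty_E2)
    (by
      rw [eisFun_slash_S]
      exact (bdd_slash_heckeMatrix isBoundedAtImInfty_E2 2 0).sub isBoundedAtImInfty_E2)).toForm

theorem coe_eisForm : ⇑(eisForm p) = eisFun p := conj_none _ _

/-- The Fourier coefficients of the weight two Eisenstein series of level `p`. -/
theorem coeff_eisForm (n : ℕ) : (qExpansion 1 (eisForm p)).coeff n =
    if n = 0 then (p : ℂ) - 1 else 24 * (sigmaPrime p n : ℂ) := by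
  have h : HasExp 1 (eisFun p)
      ((p : ℂ) • PowerSeries.expand p prime_ne_zero (castSeries ℂ e2Z) - castSeries ℂ e2Z) := by
    refine (((hasExp_comp_heckeDiag hasExp_E2).smul (p : ℂ)).sub hasExp_E2).congr ?_ rfl
    funext τ
    simp [eisFun, ModularForm.slash_heckeDiagMatrix_apply 2 prime_ne_zero]
  rw [← coe_eisForm] at h
  rw [← h.eq_qExpansion one_pos (one_mem_strictPeriods_Gamma0 p), map_sub, PowerSeries.coeff_smul,
    smul_eq_mul]
  by_cases hdvd : p ∣ n
  · obtain ⟨m, rfl⟩ := hdvd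
    rw [PowerSeries.coeff_expand_mul, castSeries, PowerSeries.coeff_map, PowerSeries.coeff_map,
      coeff_e2Z, coeff_e2Z]
    rcases eq_or_ne m 0 with rfl | hm
    · simp
    · have hp : p ≠ 0 := prime_ne_zero
      simp [hm, hp, sigma_one_prime_mul hm]
      ring
  · have hn : n ≠ 0 := fun h0 => hdvd (h0 ▸ dvd_zero p)
    rw [PowerSeries.coeff_expand_of_not_dvd _ _ _ hdvd, castSeries, PowerSeries.coeff_map, coeff_e2Z]
    simp [hn, sigma_one_of_not_dvd hdvd]

end Fermat.Agent.EisensteinIndex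

end
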