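import Mathlib.Analysis.SpecialFunctions.Complex.CircleAddChar
import Mathlib.NumberTheory.GaussSum
import Mathlib.NumberTheory.LSeries.PrimesInAP
import Mathlib.NumberTheory.LegendreSymbol.QuadraticReciprocity

/-!
# The auxiliary prime and the quadratic Gauss sum
-/

set_option autoImplicit false

noncomputable section

open ZMod

namespace Fermat.Agent.EisensteinIndex

variable {p : ℕ} [Fact p.Prime]

/-- The auxiliary prime of the quaternary lattice. -/
theorem exists_aux_prime (hp : p ≠ 2) :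
    ∃ (q : ℕ) (r : ℤ), q.Prime ∧ q % 4 = 3 ∧ q ≠ p ∧ (q : ℤ) ∣ r ^ 2 + p ∧
      ¬ IsSquare (-(q : ZMod p)) := by
  have hpp : p.Prime := Fact.out
  have hpodd : p % 2 = 1 := hpp.eq_two_or_odd.resolve_left hp
  have hchar : ringChar (ZMod p) ≠ 2 := by rwa [ringChar_zmod_n]
  obtain ⟨b, hb⟩ := quadraticChar_exists_neg_one hchar
  have hb0 : b ≠ 0 := fun h => by simp [h] at hb
  have hco : Nat.Coprime 4 p :=
    (Nat.Coprime.pow_left 2 ((Nat.coprime_primes Nat.prime_two hpp).mpr (Ne.symm hp)) :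
      Nat.Coprime (2 ^ 2) p)
  have hu : IsUnit ((ZMod.chineseRemainder hco).symm ((3 : ZMod 4), -b)) := by
    refine IsUnit.map _ (Prod.isUnit_iff.mpr ⟨?_, (Ne.isUnit hb0).neg⟩)
    exact (by decide : IsUnit (3 : ZMod 4))
  have : NeZero (4 * p) := ⟨by have := hpp.pos; omega⟩
  obtain ⟨q, hqgt, hq, hqeq⟩ := Nat.forall_exists_prime_gt_and_eq_mod hu p
  have hq' := congrArg (ZMod.chineseRemainder hco) hqeq
  rw [RingEquiv.apply_symm_apply, map_natCast] at hq'
  have hq4 : q % 4 = 3 := by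
    have h := congrArg Prod.fst hq'
    simp only [Prod.fst_natCast] at h
    exact (ZMod.natCast_eq_natCast_iff' q 3 4).mp (by simpa using h)
  have hqb : (q : ZMod p) = -b := by
    have h := congrArg Prod.snd hq'
    simpa using h
  have hqp : q ≠ p := by omega
  refine ⟨q, ?_⟩
  have : Fact q.Prime := ⟨hq⟩
  have hq2 : q ≠ 2 := by omega
  have hqne : ((q : ℤ) : ZMod p) ≠ 0 := by simpa [hqb] using hb0
  have hpne : ((p : ℤ) : ZMod q) ≠ 0 := by
    intro h
    rw [Int.cast_natCast, ZMod.natCast_eq_zero_iff] at h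
    exact hqp ((Nat.prime_dvd_prime_iff_eq hq hpp).mp h)
  have hneg : legendreSym p (-q : ℤ) = -1 := by
    rw [legendreSym, Int.cast_neg, Int.cast_natCast, hqb, neg_neg, hb]
  have hsq : IsSquare ((-p : ℤ) : ZMod q) := by
    rw [← legendreSym.eq_one_iff q (by simpa using hpne)]
    have e1 : legendreSym p (q : ℤ) = -χ₄ p := by
      have h := legendreSym.mul p (-1) (q : ℤ)
      rw [neg_one_mul, hneg, legendreSym.at_neg_one hp] at h
      have hsq1 : χ₄ (p : ZMod 4) * χ₄ (p : ZMod 4) = 1 := by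
        rw [ZMod.χ₄_eq_neg_one_pow hpodd, ← pow_add, ← two_mul, pow_mul]
        norm_num
      linear_combination -(χ₄ (p : ZMod 4)) * h - legendreSym p (q : ℤ) * hsq1
    have e2 : (-1 : ℤ) ^ (p / 2 * (q / 2)) = χ₄ p := by
      rw [ZMod.χ₄_eq_neg_one_pow hpodd, mul_comm, pow_mul,
        show (-1 : ℤ) ^ (q / 2) = -1 from Odd.neg_one_pow ⟨q / 4, by omega⟩]
    rw [show (-p : ℤ) = (-1) * (p : ℤ) by ring, legendreSym.mul, legendreSym.at_neg_one hq2,
      legendreSym.quadratic_reciprocity' hp hq2, e1, e2,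
      ZMod.χ₄_nat_three_mod_four hq4, ZMod.χ₄_eq_neg_one_pow hpodd]
    rw [mul_neg, ← pow_add, ← two_mul, pow_mul]
    norm_num
  obtain ⟨s, hs⟩ := hsq
  refine ⟨(s.val : ℤ), hq, hq4, hqp, ?_, ?_⟩
  · rw [← ZMod.intCast_zmod_eq_zero_iff_dvd]
    push_cast at hs ⊢
    rw [ZMod.natCast_zmod_val, pow_two, ← hs, neg_add_cancel]
  · rw [hqb, neg_neg]
    exact quadraticChar_neg_one_iff_not_isSquare.mp hb

variable (p) in
/-- The quadratic character with values in `ℂ`. -/
def quadC : MulChar (ZMod p) ℂ := (quadraticChar (ZMod p)).ringHomComp (Int.castRingHom ℂ)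

variable (p) in
/-- `∑ ψ(a x²)`. -/
def sqSum (a : ZMod p) : ℂ := ∑ x : ZMod p, stdAddChar (a * x ^ 2)

theorem sqSum_eq (hp : p ≠ 2) {a : ZMod p} (ha : a ≠ 0) :
    sqSum p a = quadC p a * gaussSum (quadC p) (stdAddChar (N := p)) := by
  classical
  have hchar : ringChar (ZMod p) ≠ 2 := by rwa [ringChar_zmod_n]
  have hfib : sqSum p a = ∑ y : ZMod p,
      ((quadraticChar (ZMod p) y : ℂ) + 1) * stdAddChar (a * y) := by
    rw [sqSum, ← Finset.sum_fiberwise Finset.univ (fun x : ZMod p => x ^ 2)]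
    refine Finset.sum_congr rfl fun y _ => ?_
    rw [Finset.sum_congr rfl (g := fun _ => stdAddChar (a * y)) fun x hx => by
      rw [(Finset.mem_filter.mp hx).2]]
    rw [Finset.sum_const, nsmul_eq_mul]
    congr 1
    have h := quadraticChar_card_sqrts hchar y
    rw [show Finset.univ.filter (fun x : ZMod p => x ^ 2 = y) = {x : ZMod p | x ^ 2 = y}.toFinset by
      ext; simp]
    exact_mod_cast h
  rw [hfib]
  simp only [add_mul, one_mul, Finset.sum_add_distrib]
  rw [show ∑ y : ZMod p, stdAddChar (a * y) = 0 by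
    have := AddChar.sum_mulShift a (isPrimitive_stdAddChar p)
    simpa [ha, mul_comm] using this, add_zero]
  have h1 := gaussSum_mulShift (quadC p) (stdAddChar (N := p)) (Units.mk0 a ha)
  have h2 : quadC p a * quadC p a = 1 := by
    simp only [quadC, MulChar.ringHomComp_apply]
    rw [← map_mul, ← pow_two, quadraticChar_sq_one ha, map_one]
  rw [← h1, Units.val_mk0, ← mul_assoc, h2, one_mul, gaussSum]
  exact Finset.sum_congr rfl fun y _ => by simp [quadC, AddChar.mulShift_apply]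

theorem sqSum_mul_sqSum (hp : p ≠ 2) {a b : ZMod p} (ha : a ≠ 0) (hb : b ≠ 0)
    (hab : ¬ IsSquare (-(a * b))) : sqSum p a * sqSum p b = -(p : ℂ) := by
  have hchar : ringChar (ZMod p) ≠ 2 := by rwa [ringChar_zmod_n]
  have hne : quadC p ≠ 1 :=
    (MulChar.ringHomComp_ne_one_iff (RingHom.injective_int (Int.castRingHom ℂ))).mpr
      (quadraticChar_ne_one hchar)
  have hsq := gaussSum_sq hne ((quadraticChar_isQuadratic (ZMod p)).comp _) (isPrimitive_stdAddChar p)
  have hm : quadC p (-(a * b)) = -1 := by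
    rw [quadC, MulChar.ringHomComp_apply, quadraticChar_neg_one_iff_not_isSquare.mpr hab, map_neg,
      map_one]
  rw [neg_eq_neg_one_mul, map_mul, map_mul] at hm
  rw [sqSum_eq hp ha, sqSum_eq hp hb, show ∀ x y g : ℂ, x * g * (y * g) = x * y * g ^ 2 by
    intros; ring, hsq, ZMod.card]
  linear_combination (p : ℂ) * hm

theorem sum_quadratic (hp : p ≠ 2) {a : ZMod p} (ha : a ≠ 0) (b : ZMod p) :
    ∑ x : ZMod p, stdAddChar (a * x ^ 2 + b * x) =
      stdAddChar (-(b ^ 2) / (4 * a)) * sqSum p a := by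
  have h2 : (2 : ZMod p) ≠ 0 := Ring.two_ne_zero (by rwa [ringChar_zmod_n])
  rw [sqSum, Finset.mul_sum, ← Equiv.sum_comp (Equiv.addRight (-b / (2 * a)))]
  refine Finset.sum_congr rfl fun x _ => ?_
  rw [← AddChar.map_add_eq_mul, Equiv.coe_addRight]
  congr 1
  rw [show (4 : ZMod p) = 2 * 2 by norm_num]
  field_simp
  ring

/-- The two variable Gauss sum of the form `(x² + y²/q)/4`. -/
theorem gauss_plane (hp : p ≠ 2) {q a : ZMod p} (hq : ¬ IsSquare (-q)) (ha : a ≠ 0)
    (A B : ZMod p) :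
    ∑ x : ZMod p, ∑ y : ZMod p,
        stdAddChar (a * ((x ^ 2 + y ^ 2 / q) / 4) - (A * x + B * y / q) / 2) =
      -(p : ℂ) * stdAddChar (-a⁻¹ * ((A ^ 2 + B ^ 2 / q) / 4)) := by
  have h2 : (2 : ZMod p) ≠ 0 := Ring.two_ne_zero (by rwa [ringChar_zmod_n])
  have h4 : (4 : ZMod p) ≠ 0 := by
    rw [show (4 : ZMod p) = 2 * 2 by norm_num]; exact mul_ne_zero h2 h2
  have hq0 : q ≠ 0 := fun h => hq (by rw [h, neg_zero]; exact IsSquare.zero)
  have ha4 : a / 4 ≠ 0 := div_ne_zero ha h4
  have ha4q : a / (4 * q) ≠ 0 := div_ne_zero ha (mul_ne_zero h4 hq0)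
  calc _ = (∑ x : ZMod p, stdAddChar (a / 4 * x ^ 2 + -A / 2 * x)) *
        ∑ y : ZMod p, stdAddChar (a / (4 * q) * y ^ 2 + -B / (2 * q) * y) := by
        rw [Finset.sum_mul_sum]
        refine Finset.sum_congr rfl fun x _ => Finset.sum_congr rfl fun y _ => ?_
        rw [← AddChar.map_add_eq_mul]
        congr 1
        field_simp
        ring
    _ = _ := by
        rw [sum_quadratic hp ha4, sum_quadratic hp ha4q,
          show ∀ x g y h : ℂ, x * g * (y * h) = x * y * (g * h) by intros; ring,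
          sqSum_mul_sqSum hp ha4 ha4q, ← AddChar.map_add_eq_mul, mul_comm]
        · congr 2
          field_simp
          ring
        · intro ⟨c, hc⟩
          refine hq ⟨4 * q * c / a, ?_⟩
          field_simp at hc ⊢
          linear_combination hc

end Fermat.Agent.EisensteinIndex

end
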