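import Mathlib.NumberTheory.ModularForms.JacobiTheta.TwoVariable
import Mathlib.NumberTheory.ModularForms.SlashInvariantForms
import Mathlib.Analysis.SpecialFunctions.Complex.CircleAddChar
import Mathlib.NumberTheory.ModularForms.QExpansion

/-!
# Theta series of a quaternary lattice, twisted by functions on its discriminant group

The lattice is described through the integer vectors `m` with `m₀ ≡ m₂`, `m₁ ≡ m₃ (mod 2)` and
`q ∣ r m₂ + m₃`, the form being `(p q m₀² + q m₁² + p m₂² + m₃²)/(4 p q)`.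
-/

set_option autoImplicit false

noncomputable section

open UpperHalfPlane hiding I
open Complex ZMod
open scoped Manifold

namespace Fermat.Agent.EisensteinIndex

/-- Integer vectors of length four. -/
abbrev Quad : Type := ℤ × ℤ × ℤ × ℤ

/-- A one variable theta series. -/
def line (d β : ℝ) (τ : ℂ) : ℂ := jacobiTheta₂ β (τ / (2 * d))

/-- The square root factor. -/
def sC (τ : ℂ) : ℂ := (I / τ) ^ (1 / 2 : ℂ)

theorem hasSum_line (d β : ℝ) (hd : 0 < d) (τ : ℍ) :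
    HasSum (fun m : ℤ => cexp (2 * Real.pi * I * (m * β + τ * (m : ℂ) ^ 2 / (4 * d))))
      (line d β τ) := by
  have him : 0 < ((τ : ℂ) / (2 * d)).im := by
    rw [show (2 * (d : ℂ)) = ((2 * d : ℝ) : ℂ) by push_cast; ring, div_ofReal_im]
    exact div_pos τ.im_pos (by positivity)
  refine (hasSum_jacobiTheta₂_term (β : ℂ) him).congr_fun fun m => ?_
  rw [jacobiTheta₂_term]
  congr 1
  field_simp
  ring

/-- The functional equation of a one variable series. -/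
theorem hasSum_line_inv (d β : ℝ) (hd : 0 < d) (τ : ℍ) :
    HasSum (fun n : ℤ => ((Real.sqrt (1 / (2 * d)) : ℂ) * sC τ)⁻¹ *
        cexp (2 * Real.pi * I * τ * d * ((n : ℂ) + β) ^ 2))
      (line d β (-1 / τ)) := by
  have hτ : (τ : ℂ) ≠ 0 := ne_zero τ
  have hd' : (d : ℂ) ≠ 0 := Complex.ofReal_ne_zero.mpr hd.ne'
  have him : 0 < (2 * (d : ℂ) * τ).im := by
    simpa using mul_pos (mul_pos two_pos hd) τ.im_pos
  have hs : ((-I * (-1 / (τ : ℂ) / (2 * d))) ^ (1 / 2 : ℂ)) =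
      (Real.sqrt (1 / (2 * d)) : ℂ) * sC τ := by
    have hr : (0 : ℝ) < 1 / (2 * d) := by positivity
    have hx : I / (τ : ℂ) ≠ 0 := div_ne_zero I_ne_zero hτ
    have he : -I * (-1 / (τ : ℂ) / (2 * d)) = ((1 / (2 * d) : ℝ) : ℂ) * (I / τ) := by
      push_cast
      field_simp
    rw [he, sC, Complex.cpow_def_of_ne_zero
      (mul_ne_zero (Complex.ofReal_ne_zero.mpr hr.ne') hx), Complex.log_ofReal_mul hr hx, add_mul,
      Complex.exp_add, ← Complex.cpow_def_of_ne_zero hx, Real.sqrt_eq_rpow,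
      Real.rpow_def_of_pos hr]
    push_cast
    norm_num
  have h := jacobiTheta₂_functional_equation (β : ℂ) (-1 / (τ : ℂ) / (2 * d))
  rw [hs] at h
  have hT : -1 / (-1 / (τ : ℂ) / (2 * d)) = 2 * d * τ := by field_simp
  have hz : (β : ℂ) / (-1 / (τ : ℂ) / (2 * d)) = -(2 * d * τ * β) := by field_simp
  rw [hT, hz, jacobiTheta₂_neg_left] at h
  rw [line, h]
  refine ((hasSum_jacobiTheta₂_term (2 * d * τ * β) him).mul_left _).congr_fun fun n => ?_
  rw [jacobiTheta₂_term]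
  simp only [one_div]
  conv_rhs => rw [mul_assoc, ← Complex.exp_add]
  congr 2
  field_simp
  ring

theorem hasSum_mul_prod {ι κ : Type} {f : ι → ℂ} {g : κ → ℂ} {s t : ℂ} (hf : HasSum f s)
    (hg : HasSum g t) : HasSum (fun x : ι × κ => f x.1 * g x.2) (s * t) := by
  have nf : Summable fun a => ‖f a‖ := hf.summable.norm
  have ng : Summable fun a => ‖g a‖ := hg.summable.norm
  have h : Summable fun x : ι × κ => f x.1 * g x.2 := summable_mul_of_summable_norm nf ng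
  exact HasSum.mul hf hg h

theorem hasSum_quad {f₀ f₁ f₂ f₃ : ℤ → ℂ} {a₀ a₁ a₂ a₃ : ℂ} (h₀ : HasSum f₀ a₀)
    (h₁ : HasSum f₁ a₁) (h₂ : HasSum f₂ a₂) (h₃ : HasSum f₃ a₃) :
    HasSum (fun m : Quad => f₀ m.1 * (f₁ m.2.1 * (f₂ m.2.2.1 * f₃ m.2.2.2)))
      (a₀ * (a₁ * (a₂ * a₃))) := by
  have k₂ := hasSum_mul_prod h₂ h₃
  have k₁ := hasSum_mul_prod h₁ k₂
  have k₀ := hasSum_mul_prod h₀ k₁
  exact k₀

variable (p q : ℕ) (r : ℤ)

/-- The congruences describing the dual lattice. -/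
def InLat (m : Quad) : Prop :=
  2 ∣ m.1 - m.2.2.1 ∧ 2 ∣ m.2.1 - m.2.2.2 ∧ (q : ℤ) ∣ r * m.2.2.1 + m.2.2.2

/-- The value of the form. -/
def latN (m : Quad) : ℂ :=
  ((p : ℂ) * q * (m.1 : ℂ) ^ 2 + q * (m.2.1 : ℂ) ^ 2 + p * (m.2.2.1 : ℂ) ^ 2
    + (m.2.2.2 : ℂ) ^ 2) / (4 * p * q)

/-- The exponential of the form. -/
def latExp (τ : ℂ) (m : Quad) : ℂ := cexp (2 * Real.pi * I * τ * latN p q m)

/-- The shift vector of a gluing index. -/
def shift₀ (g : Fin 2 × Fin 2 × ZMod q) : ℝ := (g.1.val : ℝ) / 2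
/-- The shift vector of a gluing index. -/
def shift₁ (u : ℤ) (g : Fin 2 × Fin 2 × ZMod q) : ℝ := (g.2.1.val : ℝ) / 2 + (u : ℝ) / p
/-- The shift vector of a gluing index. -/
def shift₂ (g : Fin 2 × Fin 2 × ZMod q) : ℝ :=
  (g.1.val : ℝ) / 2 + (r : ℝ) * (g.2.2.val : ℝ) / q
/-- The shift vector of a gluing index. -/
def shift₃ (v : ℤ) (g : Fin 2 × Fin 2 × ZMod q) : ℝ :=
  (g.2.1.val : ℝ) / 2 + (g.2.2.val : ℝ) / q + (v : ℝ) / p

variable [Fact p.Prime] [Fact q.Prime]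

/-- The theta series twisted by an additive character. -/
def thetaChar (u v : ℤ) (τ : ℂ) : ℂ :=
  (4 * (q : ℂ))⁻¹ * ∑ g : Fin 2 × Fin 2 × ZMod q,
    line 1 (shift₀ q g) τ * (line p (shift₁ p q u g) τ *
      (line q (shift₂ q r g) τ * line ((p : ℝ) * q) (shift₃ p q v g) τ))

theorem cast_pos₁ : (0 : ℝ) < p := Nat.cast_pos.mpr (Fact.out : p.Prime).pos

theorem sum_fin_two_exp (n : ℤ) :
    ∑ e : Fin 2, cexp (Real.pi * I * n * (e.val : ℕ)) = if 2 ∣ n then 2 else 0 := by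
  rw [Fin.sum_univ_two]
  simp only [Fin.val_zero, Fin.val_one, Nat.cast_zero, mul_zero, Complex.exp_zero, Nat.cast_one,
    mul_one]
  rw [show (Real.pi : ℂ) * I * n = (n : ℤ) * (Real.pi * I) by ring, Complex.exp_int_mul,
    Complex.exp_pi_mul_I]
  split_ifs with h
  · rw [(even_iff_two_dvd.mpr h).neg_one_zpow]; norm_num
  · rw [(Int.not_even_iff_odd.mp fun h' => h (even_iff_two_dvd.mp h')).neg_one_zpow]; norm_num

theorem sum_zmod_exp (n : ℤ) :
    ∑ w : ZMod q, cexp (2 * Real.pi * I * n * (w.val : ℕ) / q) =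
      if (q : ℤ) ∣ n then (q : ℂ) else 0 := by
  have h1 : ∀ w : ZMod q, cexp (2 * Real.pi * I * n * (w.val : ℕ) / q) =
      stdAddChar (w * (n : ZMod q)) := fun w => by
    conv_rhs => rw [← ZMod.natCast_zmod_val w, ← Int.cast_natCast (w.val), ← Int.cast_mul]
    rw [ZMod.stdAddChar_coe]
    congr 1
    push_cast
    ring
  rw [Finset.sum_congr rfl fun w _ => h1 w, AddChar.sum_mulShift _ (isPrimitive_stdAddChar q),
    ZMod.card]
  simp only [ZMod.intCast_zmod_eq_zero_iff_dvd]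
  split_ifs <;> simp

omit [Fact (Nat.Prime p)] in
theorem sum_shift_exp (u v : ℤ) (m : Quad) :
    ∑ g : Fin 2 × Fin 2 × ZMod q, cexp (2 * Real.pi * I *
        (m.1 * (shift₀ q g : ℂ) + m.2.1 * (shift₁ p q u g : ℂ) + m.2.2.1 * (shift₂ q r g : ℂ)
          + m.2.2.2 * (shift₃ p q v g : ℂ))) =
      {m | InLat q r m}.indicator
        (fun m => 4 * (q : ℂ) * cexp (2 * Real.pi * I * (u * m.2.1 + v * m.2.2.2) / p)) m := by
  have hsplit : ∀ g : Fin 2 × Fin 2 × ZMod q, cexp (2 * Real.pi * I *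
        (m.1 * (shift₀ q g : ℂ) + m.2.1 * (shift₁ p q u g : ℂ) + m.2.2.1 * (shift₂ q r g : ℂ)
          + m.2.2.2 * (shift₃ p q v g : ℂ))) =
      cexp (2 * Real.pi * I * (u * m.2.1 + v * m.2.2.2) / p) *
        (cexp (Real.pi * I * ((m.1 + m.2.2.1 : ℤ) : ℂ) * (g.1.val : ℕ)) *
          (cexp (Real.pi * I * ((m.2.1 + m.2.2.2 : ℤ) : ℂ) * (g.2.1.val : ℕ)) *
            cexp (2 * Real.pi * I * ((r * m.2.2.1 + m.2.2.2 : ℤ) : ℂ) * (g.2.2.val : ℕ) / q))) := by
    intro g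
    rw [← Complex.exp_add, ← Complex.exp_add, ← Complex.exp_add]
    congr 1
    simp only [shift₀, shift₁, shift₂, shift₃]
    push_cast
    ring
  rw [Finset.sum_congr rfl fun g _ => hsplit g, ← Finset.mul_sum, Fintype.sum_prod_type]
  simp only [Fintype.sum_prod_type, ← Finset.mul_sum]
  rw [← Finset.sum_mul, ← Finset.sum_mul, sum_fin_two_exp, sum_fin_two_exp, sum_zmod_exp]
  have h0 : (2 ∣ m.1 + m.2.2.1) ↔ 2 ∣ m.1 - m.2.2.1 := by omega
  have h1 : (2 ∣ m.2.1 + m.2.2.2) ↔ 2 ∣ m.2.1 - m.2.2.2 := by omega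
  by_cases hm : InLat q r m
  · rw [Set.indicator_of_mem (s := {m | InLat q r m}) hm, if_pos (h0.mpr hm.1),
      if_pos (h1.mpr hm.2.1), if_pos hm.2.2]
    ring
  · rw [Set.indicator_of_notMem (s := {m | InLat q r m}) hm]
    split_ifs with a b c <;> try simp
    exact absurd ⟨h0.mp a, h1.mp b, c⟩ hm

theorem hasSum_thetaChar (u v : ℤ) (τ : ℍ) :
    HasSum ({m | InLat q r m}.indicator fun m =>
        cexp (2 * Real.pi * I * (u * m.2.1 + v * m.2.2.2) / p) * latExp p q τ m)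
      (thetaChar p q r u v τ) := by
  have hp := cast_pos₁ p
  have hq := cast_pos₁ q
  have h := (hasSum_sum fun (g : Fin 2 × Fin 2 × ZMod q) (_ : g ∈ Finset.univ) =>
    hasSum_quad (hasSum_line 1 (shift₀ q g) one_pos τ) (hasSum_line p (shift₁ p q u g) hp τ)
      (hasSum_line q (shift₂ q r g) hq τ)
      (hasSum_line ((p : ℝ) * q) (shift₃ p q v g) (mul_pos hp hq) τ)).mul_left (4 * (q : ℂ))⁻¹
  refine h.congr_fun fun m => ?_
  have hq' : (q : ℂ) ≠ 0 := Nat.cast_ne_zero.mpr (Fact.out : q.Prime).ne_zero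
  have hterm : ∀ g : Fin 2 × Fin 2 × ZMod q,
      cexp (2 * Real.pi * I * (m.1 * (shift₀ q g : ℂ) + (τ : ℂ) * (m.1 : ℂ) ^ 2 / (4 * ((1 : ℝ) : ℂ)))) *
      (cexp (2 * Real.pi * I * (m.2.1 * (shift₁ p q u g : ℂ) + (τ : ℂ) * (m.2.1 : ℂ) ^ 2 / (4 * ((p : ℝ) : ℂ)))) *
      (cexp (2 * Real.pi * I * (m.2.2.1 * (shift₂ q r g : ℂ) + (τ : ℂ) * (m.2.2.1 : ℂ) ^ 2 / (4 * ((q : ℝ) : ℂ)))) *
      cexp (2 * Real.pi * I * (m.2.2.2 * (shift₃ p q v g : ℂ) + (τ : ℂ) * (m.2.2.2 : ℂ) ^ 2 / (4 * (((p : ℝ) * q : ℝ) : ℂ)))))) =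
      latExp p q τ m * cexp (2 * Real.pi * I *
        (m.1 * (shift₀ q g : ℂ) + m.2.1 * (shift₁ p q u g : ℂ) + m.2.2.1 * (shift₂ q r g : ℂ)
          + m.2.2.2 * (shift₃ p q v g : ℂ))) := by
    intro g
    have hp' : (p : ℂ) ≠ 0 := Nat.cast_ne_zero.mpr (Fact.out : p.Prime).ne_zero
    rw [latExp, latN, ← Complex.exp_add, ← Complex.exp_add, ← Complex.exp_add, ← Complex.exp_add]
    congr 1
    push_cast
    field_simp
    ring
  rw [Finset.sum_congr rfl fun g _ => hterm g, ← Finset.mul_sum, sum_shift_exp]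
  by_cases hm : InLat q r m
  · rw [Set.indicator_of_mem (s := {m | InLat q r m}) hm,
      Set.indicator_of_mem (s := {m | InLat q r m}) hm]
    field_simp
  · simp [Set.indicator_of_notMem (s := {m | InLat q r m}) hm]

/-- The index map of the functional equation. -/
def glue (u v : ℤ) (x : (Fin 2 × Fin 2 × ZMod q) × Quad) : Quad :=
  (2 * x.2.1 + (x.1.1.val : ℕ),
    (p : ℤ) * (2 * x.2.2.1 + (x.1.2.1.val : ℕ)) + 2 * u,
    (q : ℤ) * (2 * x.2.2.2.1 + (x.1.1.val : ℕ)) + 2 * r * (x.1.2.2.val : ℕ),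
    (p : ℤ) * q * (2 * x.2.2.2.2 + (x.1.2.1.val : ℕ)) + 2 * p * (x.1.2.2.val : ℕ) + 2 * q * v)

/-- The image of the gluing map. -/
def glueImage (u v : ℤ) : Set Quad :=
  {m | InLat q r m ∧ (p : ℤ) ∣ m.2.1 - 2 * u ∧ (p : ℤ) ∣ m.2.2.2 - 2 * q * v}

theorem range_glue (hp : p ≠ 2) (hq : q ≠ 2) (hpq : q ≠ p) (hr : (q : ℤ) ∣ r ^ 2 + p) (u v : ℤ) :
    Set.range (glue p q r u v) = glueImage p q r u v ∧ Function.Injective (glue p q r u v) := by
  have hpp : p.Prime := Fact.out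
  have hqp : q.Prime := Fact.out
  have hpo : (p : ℤ) % 2 = 1 := by exact_mod_cast hpp.eq_two_or_odd.resolve_left hp
  have hqo : (q : ℤ) % 2 = 1 := by exact_mod_cast hqp.eq_two_or_odd.resolve_left hq
  have hp0 : (p : ℤ) ≠ 0 := Int.natCast_ne_zero.mpr hpp.ne_zero
  have hq0 : (q : ℤ) ≠ 0 := Int.natCast_ne_zero.mpr hqp.ne_zero
  have hcop : IsCoprime (p : ℤ) q :=
    Nat.isCoprime_iff_coprime.mpr ((Nat.coprime_primes hpp hqp).mpr hpq.symm)
  have hr0 : ((r : ℤ) : ZMod q) ≠ 0 := by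
    intro h
    rw [ZMod.intCast_zmod_eq_zero_iff_dvd] at h
    have h2 : (q : ℤ) ∣ (p : ℤ) := by
      have := Int.dvd_sub hr (h.mul_left r)
      rwa [show r ^ 2 + (p : ℤ) - r * r = p by ring] at this
    exact hpq ((Nat.prime_dvd_prime_iff_eq hqp hpp).mp (Int.natCast_dvd_natCast.mp h2))
  have h2q : (2 : ZMod q) ≠ 0 := Ring.two_ne_zero (by rwa [ringChar_zmod_n])
  have hpar : ∀ (a : ℤ) (n : ℕ), (n : ℤ) % 2 = 1 → ∀ x : ℤ, ((n : ℤ) * (2 * x + a)) % 2 = a % 2 := by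
    intro a n hn x
    rw [Int.mul_emod, hn, one_mul, Int.emod_emod_of_dvd _ dvd_rfl]
    omega
  refine ⟨Set.Subset.antisymm ?_ ?_, ?_⟩
  · rintro _ ⟨⟨⟨e1, e2, w⟩, n0, n1, n2, n3⟩, rfl⟩
    refine ⟨⟨?_, ?_, ?_⟩, ?_, ?_⟩
    · simp only [glue]
      have := hpar (e1.val : ℕ) q hqo n2
      rw [Int.dvd_iff_emod_eq_zero]
      generalize (q : ℤ) * (2 * n2 + (e1.val : ℕ)) = Q at this
      have h3 : 2 * r * (w.val : ℕ) % 2 = 0 := by rw [mul_assoc]; exact Int.mul_emod_right _ _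
      omega
    · simp only [glue]
      have h1 := hpar (e2.val : ℕ) p hpo n1
      have h2 : ((p : ℤ) * q * (2 * n3 + (e2.val : ℕ))) % 2 = ((e2.val : ℕ) : ℤ) % 2 := by
        rw [← Nat.cast_mul]; exact hpar _ _ (by rw [Nat.cast_mul, Int.mul_emod, hpo, hqo]; rfl) n3
      rw [Int.dvd_iff_emod_eq_zero]
      generalize (p : ℤ) * (2 * n1 + (e2.val : ℕ)) = P at h1
      generalize (p : ℤ) * q * (2 * n3 + (e2.val : ℕ)) = R at h2
      have h3 : 2 * (p : ℤ) * (w.val : ℕ) % 2 = 0 := by rw [mul_assoc]; exact Int.mul_emod_right _ _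
      have h4 : 2 * (q : ℤ) * v % 2 = 0 := by rw [mul_assoc]; exact Int.mul_emod_right _ _
      omega
    · simp only [glue]
      obtain ⟨k, hk⟩ := hr
      exact ⟨r * (2 * n2 + (e1.val : ℕ)) + 2 * k * (w.val : ℕ) + p * (2 * n3 + (e2.val : ℕ)) + 2 * v,
        by linear_combination 2 * ((w.val : ℕ) : ℤ) * hk⟩
    · simp only [glue]
      exact ⟨2 * n1 + (e2.val : ℕ), by ring⟩
    · simp only [glue]
      exact ⟨q * (2 * n3 + (e2.val : ℕ)) + 2 * (w.val : ℕ), by ring⟩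
  · rintro ⟨m0, m1, m2, m3⟩ ⟨⟨ha, hb, hc⟩, ⟨t1, ht1⟩, ht3⟩
    simp only at ha hb hc ht1 ht3
    set w : ZMod q := (m2 : ZMod q) * (2 * (r : ZMod q))⁻¹ with hw
    have hw2 : (q : ℤ) ∣ m2 - 2 * r * (w.val : ℕ) := by
      rw [← ZMod.intCast_zmod_eq_zero_iff_dvd]
      push_cast
      rw [ZMod.natCast_zmod_val, hw]
      field_simp
      ring
    obtain ⟨t2, ht2⟩ := hw2
    have hq3 : (q : ℤ) ∣ m3 - 2 * q * v - 2 * p * (w.val : ℕ) := by
      obtain ⟨k, hk⟩ := hr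
      obtain ⟨c, hc⟩ := hc
      exact ⟨c - r * t2 - 2 * k * (w.val : ℕ) - 2 * v,
        by linear_combination hc - r * ht2 - 2 * ((w.val : ℕ) : ℤ) * hk⟩
    have hp3 : (p : ℤ) ∣ m3 - 2 * q * v - 2 * p * (w.val : ℕ) :=
      Int.dvd_sub ht3 ⟨2 * (w.val : ℕ), by ring⟩
    obtain ⟨t3, ht3'⟩ := hcop.mul_dvd hp3 hq3
    have hpe : ∀ (n : ℕ), (n : ℤ) % 2 = 1 → ∀ x : ℤ, ((n : ℤ) * x) % 2 = x % 2 := fun n hn x => by
      rw [Int.mul_emod, hn, one_mul, Int.emod_emod_of_dvd _ dvd_rfl]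
    have he1 : m0 % 2 = t2 % 2 := by
      have h := hpe q hqo t2
      rw [← ht2] at h
      have h3 : 2 * r * (w.val : ℕ) % 2 = 0 := by rw [mul_assoc]; exact Int.mul_emod_right _ _
      omega
    have he2 : t1 % 2 = t3 % 2 := by
      have h := hpe (p * q) (by rw [Nat.cast_mul, Int.mul_emod, hpo, hqo]; rfl) t3
      rw [Nat.cast_mul, ← ht3'] at h
      have h' := hpe p hpo t1
      rw [← ht1] at h'
      have h3 : 2 * (p : ℤ) * (w.val : ℕ) % 2 = 0 := by rw [mul_assoc]; exact Int.mul_emod_right _ _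
      have h4 : 2 * (q : ℤ) * v % 2 = 0 := by rw [mul_assoc]; exact Int.mul_emod_right _ _
      omega
    refine ⟨((⟨(m0 % 2).toNat, by omega⟩, ⟨(t1 % 2).toNat, by omega⟩, w),
      (m0 / 2, t1 / 2, t2 / 2, t3 / 2)), ?_⟩
    simp only [glue, Prod.mk.injEq]
    rw [Int.toNat_of_nonneg (Int.emod_nonneg _ two_ne_zero),
      Int.toNat_of_nonneg (Int.emod_nonneg _ two_ne_zero)]
    refine ⟨by omega, ?_, ?_, ?_⟩
    · rw [Int.mul_ediv_add_emod]; linear_combination -ht1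
    · rw [he1, Int.mul_ediv_add_emod]; linear_combination -ht2
    · rw [he2, Int.mul_ediv_add_emod]; linear_combination -ht3'
  · rintro ⟨⟨e1, e2, w⟩, n0, n1, n2, n3⟩ ⟨⟨e1', e2', w'⟩, n0', n1', n2', n3'⟩ h
    simp only [glue, Prod.mk.injEq] at h
    obtain ⟨h0, h1, h2, h3⟩ := h
    have hb1 := e1.isLt
    have hb1' := e1'.isLt
    have hb2 := e2.isLt
    have hb2' := e2'.isLt
    have he1 : e1 = e1' := Fin.ext (by omega)
    subst he1
    have hn0 : n0 = n0' := by omega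
    subst hn0
    have h1' : 2 * n1 + ((e2.val : ℕ) : ℤ) = 2 * n1' + ((e2'.val : ℕ) : ℤ) :=
      mul_left_cancel₀ hp0 (by linear_combination h1)
    have he2 : e2 = e2' := Fin.ext (by omega)
    subst he2
    have hn1 : n1 = n1' := by omega
    subst hn1
    have hw : w = w' := by
      have h2' := congrArg (fun z : ℤ => ((z : ℤ) : ZMod q)) h2
      push_cast at h2'
      simp only [ZMod.natCast_self, zero_mul, zero_add, ZMod.natCast_zmod_val] at h2'
      exact mul_left_cancel₀ (mul_ne_zero h2q hr0) h2'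
    subst hw
    have hn2 : n2 = n2' := by
      have := mul_left_cancel₀ hq0 (show (q : ℤ) * (2 * n2) = q * (2 * n2') by linear_combination h2)
      omega
    have hn3 : n3 = n3' := by
      have := mul_left_cancel₀ (mul_ne_zero hp0 hq0)
        (show (p : ℤ) * q * (2 * n3) = p * q * (2 * n3') by linear_combination h3)
      omega
    subst hn2 hn3
    rfl

/-- The functional equation of the twisted series. -/
theorem hasSum_thetaChar_inv (hp : p ≠ 2) (hq : q ≠ 2) (hpq : q ≠ p) (hr : (q : ℤ) ∣ r ^ 2 + p)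
    (u v : ℤ) (τ : ℍ) :
    HasSum ((glueImage p q r u v).indicator fun m => -(p : ℂ) * (τ : ℂ) ^ 2 * latExp p q τ m)
      (thetaChar p q r u v (-1 / τ)) := by
  have hp' := cast_pos₁ p
  have hq' := cast_pos₁ q
  have hpC : (p : ℂ) ≠ 0 := Nat.cast_ne_zero.mpr (Fact.out : p.Prime).ne_zero
  have hqC : (q : ℂ) ≠ 0 := Nat.cast_ne_zero.mpr (Fact.out : q.Prime).ne_zero
  have hτ : (τ : ℂ) ≠ 0 := ne_zero τ
  obtain ⟨hrange, hinj⟩ := range_glue p q r hp hq hpq hr u v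
  set c : ℂ := ((Real.sqrt (1 / (2 * 1)) : ℂ) * sC τ)⁻¹ * (((Real.sqrt (1 / (2 * p)) : ℂ) * sC τ)⁻¹ *
    (((Real.sqrt (1 / (2 * q)) : ℂ) * sC τ)⁻¹ *
      ((Real.sqrt (1 / (2 * ((p : ℝ) * q))) : ℂ) * sC τ)⁻¹)) with hc
  have hcval : c = -(4 * p * q) * (τ : ℂ) ^ 2 := by
    have hs : sC τ ^ 4 = -1 / (τ : ℂ) ^ 2 := by
      rw [sC, ← Complex.cpow_nat_mul, show ((4 : ℕ) : ℂ) * (1 / 2) = (2 : ℕ) by norm_num,
        Complex.cpow_natCast, div_pow, I_sq]
    have hR : Real.sqrt (1 / (2 * 1)) * Real.sqrt (1 / (2 * p)) * Real.sqrt (1 / (2 * q)) *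
        Real.sqrt (1 / (2 * ((p : ℝ) * q))) = 1 / (4 * p * q) := by
      rw [← Real.sqrt_mul (by positivity), ← Real.sqrt_mul (by positivity),
        ← Real.sqrt_mul (by positivity), Real.sqrt_eq_iff_mul_self_eq (by positivity) (by positivity)]
      field_simp
      ring
    have hR' := congrArg (fun x : ℝ => (x : ℂ)) hR
    push_cast at hR'
    rw [hc, ← mul_inv, ← mul_inv, ← mul_inv]
    rw [show ∀ a b c d s : ℂ, a * s * (b * s * (c * s * (d * s))) = (a * b * c * d) * s ^ 4 by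
      intros; ring, hR', hs]
    field_simp
  have h := (hasSum_sum fun (g : Fin 2 × Fin 2 × ZMod q) (_ : g ∈ Finset.univ) =>
    hasSum_quad (hasSum_line_inv 1 (shift₀ q g) one_pos τ)
      (hasSum_line_inv p (shift₁ p q u g) hp' τ)
      (hasSum_line_inv q (shift₂ q r g) hq' τ)
      (hasSum_line_inv ((p : ℝ) * q) (shift₃ p q v g) (mul_pos hp' hq') τ)).mul_left (4 * (q : ℂ))⁻¹
  set F : (Fin 2 × Fin 2 × ZMod q) × Quad → ℂ := fun x =>
    -(p : ℂ) * (τ : ℂ) ^ 2 * latExp p q τ (glue p q r u v x) with hF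
  have hFsum : HasSum F (thetaChar p q r u v (-1 / τ)) := by
    have hterm : ∀ (g : Fin 2 × Fin 2 × ZMod q) (n : Quad), F (g, n) = (4 * (q : ℂ))⁻¹ * (c *
        (cexp (2 * Real.pi * I * τ * ((1 : ℝ) : ℂ) * ((n.1 : ℂ) + (shift₀ q g : ℂ)) ^ 2) *
        (cexp (2 * Real.pi * I * τ * ((p : ℝ) : ℂ) * ((n.2.1 : ℂ) + (shift₁ p q u g : ℂ)) ^ 2) *
        (cexp (2 * Real.pi * I * τ * ((q : ℝ) : ℂ) * ((n.2.2.1 : ℂ) + (shift₂ q r g : ℂ)) ^ 2) *
        cexp (2 * Real.pi * I * τ * (((p : ℝ) * q : ℝ) : ℂ) *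
          ((n.2.2.2 : ℂ) + (shift₃ p q v g : ℂ)) ^ 2))))) := by
      intro g n
      rw [hcval, ← Complex.exp_add, ← Complex.exp_add, ← Complex.exp_add, hF]
      simp only [latExp, latN, glue, shift₀, shift₁, shift₂, shift₃]
      rw [show (4 * (q : ℂ))⁻¹ * (-(4 * p * q) * (τ : ℂ) ^ 2 * cexp _) = _ from
        by rw [← mul_assoc]]
      congr 1
      · field_simp
      · congr 1
        push_cast
        field_simp
        ring
    have hg : ∀ g : Fin 2 × Fin 2 × ZMod q, HasSum (fun n => F (g, n))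
        ((4 * (q : ℂ))⁻¹ * (line 1 (shift₀ q g) (-1 / τ) * (line p (shift₁ p q u g) (-1 / τ) *
          (line q (shift₂ q r g) (-1 / τ) * line ((p : ℝ) * q) (shift₃ p q v g) (-1 / τ))))) := fun g => by
      refine ((hasSum_quad (hasSum_line_inv 1 (shift₀ q g) one_pos τ)
        (hasSum_line_inv p (shift₁ p q u g) hp' τ)
        (hasSum_line_inv q (shift₂ q r g) hq' τ)
        (hasSum_line_inv ((p : ℝ) * q) (shift₃ p q v g) (mul_pos hp' hq') τ)).mul_left _).congr_fun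
        fun n => ?_
      rw [hterm, hc]
      ring
    have hsum : Summable F := by
      rw [← (Equiv.sigmaEquivProd _ _).summable_iff]
      refine Summable.of_norm ?_
      rw [summable_sigma_of_nonneg fun x => norm_nonneg _]
      exact ⟨fun g => (hg g).summable.norm, (hasSum_fintype _).summable⟩
    have := hsum.hasSum.prod_fiberwise hg
    rw [show thetaChar p q r u v (-1 / τ) = ∑' x, F x from ?_]
    · exact hsum.hasSum
    · rw [← this.tsum_eq, tsum_fintype, thetaChar, Finset.mul_sum]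
  refine (hinj.hasSum_iff fun m hm => ?_).mp (hFsum.congr_fun fun x => ?_)
  · rw [hrange] at hm
    exact Set.indicator_of_notMem hm _
  · rw [Function.comp_apply, Set.indicator_of_mem (hrange ▸ Set.mem_range_self x)]

end Fermat.Agent.EisensteinIndex

end
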