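import Fermat.Agent.EisensteinIndex.Eisenstein

/-!
# Tracing `g(τ) Δ(pτ)` down to level one
-/

set_option autoImplicit false

noncomputable section

open UpperHalfPlane CongruenceSubgroup ModularGroup ModularForm
open scoped MatrixGroups Manifold ModularForm

namespace Fermat.Agent.EisensteinIndex

variable {p : ℕ} [Fact p.Prime]

/-- `G` has constant term `C` and all other coefficients are multiples of `M`. -/
def IsCongrConst (G : ModularForm (Gamma0 p) 2) (C M : ℤ) : Prop :=
  ∃ x : PowerSeries ℤ, qExpansion 1 G = castSeries ℂ (PowerSeries.C C + M • x)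

theorem IsCongrConst.atkin {G : ModularForm (Gamma0 p) 2} {C M : ℤ} (h : IsCongrConst G C M) :
    IsCongrConst (atkinForm G) (-C) M := by
  obtain ⟨x, hx⟩ := h
  refine ⟨PowerSeries.mk fun n => -x.coeff (n * p), PowerSeries.ext fun n => ?_⟩
  rw [coe_atkinForm, coeff_qExpansion_atkin, hx]
  simp only [castSeries, PowerSeries.coeff_map, map_add, map_zsmul, PowerSeries.coeff_mk,
    PowerSeries.coeff_C]
  rcases eq_or_ne n 0 with rfl | hn
  · simp
    ring
  · simp [hn, prime_ne_zero (p := p)]

theorem natCast_mem_strictPeriods (n : ℕ) :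
    (n : ℝ) ∈ (𝒮ℒ).strictPeriods := by
  simpa using AddSubgroup.nsmul_mem _ one_mem_strictPeriods_SL n

/-- An expansion in `q^(1/p)` of a level one form. -/
theorem coeff_eq_qExpansion {k : ℤ} (f : ModularForm 𝒮ℒ k) {P : PowerSeries ℂ}
    (h : HasExp p f P) : P = PowerSeries.expand p prime_ne_zero (qExpansion 1 f) := by
  have hp : (0 : ℝ) < p := Nat.cast_pos.mpr (Fact.out : p.Prime).pos
  have h1 := (HasExp.of_modularForm f one_pos one_mem_strictPeriods_SL).expand (M := p)
    prime_ne_zero
  rw [mul_one] at h1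
  rw [h.eq_qExpansion hp (natCast_mem_strictPeriods p),
    h1.eq_qExpansion hp (natCast_mem_strictPeriods p)]

theorem levelOne_weight_fourteen_eq_zero (f : ModularForm 𝒮ℒ 14)
    (h : (qExpansion 1 f).coeff 0 = 0) : f = 0 := by
  have h2 : CuspForm.discriminantEquiv (toCuspForm f h) = 0 := by
    have := rank_zero_iff_forall_zero.mp levelOne_weight_two_rank_zero
      (ModularForm.mcast (by norm_num) (CuspForm.discriminantEquiv (toCuspForm f h)))
    exact DFunLike.ext _ _ fun z => congrArg (fun F : ModularForm 𝒮ℒ 2 => F z) this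
  rw [LinearEquiv.map_eq_zero_iff] at h2
  exact DFunLike.ext f 0 fun z => congrArg (fun F : CuspForm 𝒮ℒ 14 => F z) h2

variable (p) in
/-- `p¹² Δ(pτ)`. -/
def deltaFun : ℍ → ℂ := (p : ℂ) • (discriminant ∣[(12 : ℤ)] ModularForm.heckeDiagMatrix p)

theorem discriminant_slash (γ : SL(2, ℤ)) : discriminant ∣[(12 : ℤ)] γ = discriminant :=
  SlashInvariantFormClass.slash_action_eq CuspForm.discriminant _ ⟨γ, rfl⟩

theorem deltaFun_invariant : ∀ γ ∈ Gamma0 p, deltaFun p ∣[(12 : ℤ)] γ = deltaFun p :=
  fun γ hγ => by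
  obtain ⟨γ', -, -, -, he⟩ := exists_diag_mul hγ
  rw [deltaFun, ModularForm.SL_smul_slash, ModularForm.SL_slash γ (f := _ ∣[(12 : ℤ)] _),
    ← SlashAction.slash_mul, he, SlashAction.slash_mul, ← ModularForm.SL_slash, discriminant_slash]

theorem deltaFun_slash_S : deltaFun p ∣[(12 : ℤ)] S =
    (p : ℂ) • (discriminant ∣[(12 : ℤ)] ModularForm.heckeMatrix p 0) := by
  rw [deltaFun, ModularForm.SL_smul_slash, ModularForm.SL_slash S (f := _ ∣[(12 : ℤ)] _),
    ← SlashAction.slash_mul,
    show ModularForm.heckeDiagMatrix p * (S : GL (Fin 2) ℝ) =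
      (S : GL (Fin 2) ℝ) * ModularForm.heckeMatrix p 0 from Units.ext <| by
        ext i j
        fin_cases i <;> fin_cases j <;>
          simp [ModularForm.val_heckeDiagMatrix prime_ne_zero,
            ModularForm.val_heckeMatrix prime_ne_zero, Matrix.mul_apply, Fin.sum_univ_succ, coe_S],
    SlashAction.slash_mul, ← ModularForm.SL_slash, discriminant_slash]

variable (p) in
/-- The conjugates of `p¹² Δ(pτ)`. -/
def dFamily : Option (ZMod p) → ℍ → ℂ := conj (deltaFun p) 12

theorem isFamily_dFamily : IsFamily 12 (dFamily p) :=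
  isFamily_conj_of deltaFun_invariant
    ((CuspForm.discriminant.holo'.slash 12 _).const_smul _)
    (Asymptotics.IsBigO.const_smul_left
      (bdd_slash_heckeDiag (hasExp_discriminant.isBoundedAtImInfty one_pos) 12) _)
    (by
      rw [deltaFun_slash_S]
      exact Asymptotics.IsBigO.const_smul_left
        (bdd_slash_heckeMatrix (hasExp_discriminant.isBoundedAtImInfty one_pos) 12 0) _)

theorem hasExp_dFamily (i : Option (ZMod p)) : HasExp p (dFamily p i)
    (kSeries ℂ (fun j => toC (zeta p j.val))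
      (PowerSeries.C ((p : ℂ) ^ 11) * PowerSeries.expand p prime_ne_zero (castSeries ℂ dZ))
      (castSeries ℂ dZ) i) := by
  have hp' : (p : ℂ) ≠ 0 := natCast_ne_zero
  cases i with
  | none =>
    have h1 : HasExp 1 (fun τ => discriminant (ModularForm.heckeDiagMatrix p • τ))
        (PowerSeries.expand p prime_ne_zero (castSeries ℂ dZ)) :=
      hasExp_comp_heckeDiag hasExp_discriminant
    have h := ((h1.C_mul ((p : ℂ) ^ 11)).C_mul (p : ℂ)).expand (M := p) prime_ne_zero
    rw [mul_one] at h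
    refine h.congr ?_ rfl
    funext τ
    simp [dFamily, conj_none, deltaFun,
      ModularForm.slash_heckeDiagMatrix_apply 12 prime_ne_zero]
  | some j =>
    refine (hasExp_comp_heckeMatrix hasExp_discriminant j.val).congr (funext fun τ => ?_) rfl
    have h : ModularForm.heckeMatrix p 0 • ((((j.val : ℤ)) : ℝ) +ᵥ τ) =
        ModularForm.heckeMatrix p j.val • τ := UpperHalfPlane.ext <| by
      rw [ModularForm.coe_heckeMatrix_smul prime_ne_zero,
        ModularForm.coe_heckeMatrix_smul prime_ne_zero, UpperHalfPlane.coe_vadd]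
      push_cast
      ring
    rw [dFamily, conj, rep_some, SlashAction.slash_mul, slash_T_zpow_apply, deltaFun_slash_S,
      Pi.smul_apply, ModularForm.slash_heckeMatrix_apply 12 prime_ne_zero, h, smul_eq_mul,
      mul_inv_cancel_left₀ hp']

theorem toC_zeta_pow_mul (j n : ℕ) : toC (zeta p j) ^ (p * n) = 1 := by
  rw [toC_apply, zeta, pow_mul, ← Complex.exp_nat_mul]
  have : (p : ℂ) * (2 * Real.pi * Complex.I * j / p) = (j : ℕ) * (2 * Real.pi * Complex.I) := by
    field_simp [natCast_ne_zero (p := p)]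
  rw [this, Complex.exp_nat_mul_two_pi_mul_I, one_pow]

/-- The coefficient at `q^n` of the trace of a family. -/
theorem coeff_sum_kSeries (P Q : PowerSeries ℂ) (n : ℕ) :
    (∑ i, kSeries ℂ (fun j : ZMod p => toC (zeta p j.val)) P Q i).coeff (p * n) =
      p * P.coeff n + p * Q.coeff (p * n) := by
  rw [Fintype.sum_option, map_add, map_sum]
  simp only [kSeries, PowerSeries.coeff_expand_mul, PowerSeries.coeff_C_mul,
    PowerSeries.coeff_rescale, toC_zeta_pow_mul, one_mul]
  simp

theorem coeff_mul_congr {P : PowerSeries ℂ} {C M : ℤ} {x : PowerSeries ℤ}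
    (hP : P = castSeries ℂ (PowerSeries.C C + M • x)) (R : PowerSeries ℤ) (n : ℕ) :
    ∃ z : ℤ, (P * castSeries ℂ R).coeff n = ((C * R.coeff n + M * z : ℤ) : ℂ) :=
  ⟨(x * R).coeff n, by
    rw [hP, ← map_mul, castSeries, PowerSeries.coeff_map, add_mul, map_add, smul_mul_assoc,
      map_zsmul, PowerSeries.coeff_C_mul, smul_eq_mul]
    simp⟩

/-- `τ(p²) = τ(p)² - p¹¹`. -/
theorem dZ_coeff_sq : dZ.coeff (p * p) = dZ.coeff p ^ 2 - (p : ℤ) ^ 11 := by
  have hp : p.Prime := Fact.out
  have hfam := isFamily_dFamily (p := p)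
  set f : ModularForm 𝒮ℒ 12 := ModularForm.mcast (by norm_num) (hfam.esymmForm 1)
  set R := ∑ i, kSeries ℂ (fun j : ZMod p => toC (zeta p j.val))
    (PowerSeries.C ((p : ℂ) ^ 11) * PowerSeries.expand p prime_ne_zero (castSeries ℂ dZ))
    (castSeries ℂ dZ) i with hR
  have hf : HasExp p f R :=
    (HasExp.finsetSum fun i _ => hasExp_dFamily i).congr
      (by rw [coe_mcast, hfam.coe_esymmForm, IsFamily.esymmFun_one]) rfl
  have hcoeff : ∀ n, (qExpansion 1 f).coeff n = (p : ℂ) ^ 12 *
      (PowerSeries.expand p prime_ne_zero (castSeries ℂ dZ)).coeff n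
        + p * (castSeries ℂ dZ).coeff (p * n) := fun n => by
    rw [← PowerSeries.coeff_expand_mul p prime_ne_zero, ← coeff_eq_qExpansion f hf, hR,
      coeff_sum_kSeries, PowerSeries.coeff_C_mul]
    ring
  have h0 : (qExpansion 1 f).coeff 0 = 0 := by
    rw [hcoeff]
    simp
  obtain ⟨c, hc⟩ := CuspForm.exists_smul_discriminant_of_weight_eq_twelve (toCuspForm f h0)
  have hfc : ∀ n, (qExpansion 1 f).coeff n = c * (castSeries ℂ dZ).coeff n := fun n => by
    have : (f : ℍ → ℂ) = c • discriminant := (congrArg DFunLike.coe hc).symm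
    rw [← (hasExp_discriminant.smul c).congr this.symm rfl |>.eq_qExpansion one_pos
      one_mem_strictPeriods_SL, PowerSeries.coeff_smul, smul_eq_mul]
  have h1 := (hcoeff 1).symm.trans (hfc 1)
  have h2 := (hcoeff p).symm.trans (hfc p)
  rw [PowerSeries.coeff_expand_of_not_dvd _ _ _ (fun h => hp.ne_one (Nat.dvd_one.mp h))] at h1
  rw [show (PowerSeries.expand p prime_ne_zero (castSeries ℂ dZ)).coeff p =
    (PowerSeries.expand p prime_ne_zero (castSeries ℂ dZ)).coeff (p * 1) by rw [mul_one],
    PowerSeries.coeff_expand_mul] at h2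
  simp only [castSeries, PowerSeries.coeff_map, coeff_one_dZ, mul_one, mul_zero, zero_add,
    map_one] at h1 h2
  rw [← h1] at h2
  simp only [eq_intCast] at h2
  have h3 : (p : ℤ) ^ 12 + p * dZ.coeff (p * p) = p * dZ.coeff p * dZ.coeff p := by exact_mod_cast h2
  exact mul_left_cancel₀ (Int.natCast_ne_zero.mpr hp.ne_zero) (by linear_combination h3)

/-- The trace of `G(τ) Δ(pτ)` bounds the modulus of the congruence. -/
theorem dvd_of_isCongrConst {G : ModularForm (Gamma0 p) 2} {C M : ℤ} (hG : IsCongrConst G C M) :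
    M ∣ C * ((p : ℤ) ^ 11 * (p + 1)) := by
  have hp : p.Prime := Fact.out
  obtain ⟨y, hy⟩ := hG.atkin
  obtain ⟨x, hx⟩ := hG
  rw [coe_atkinForm] at hy
  have hfam := (isFamily_kFamily G).mul (isFamily_dFamily (p := p))
  set f : ModularForm 𝒮ℒ 14 := ModularForm.mcast (by norm_num) (hfam.esymmForm 1)
  have hmul : ∀ i, HasExp p ((kFamily G * dFamily p) i)
      (kSeries ℂ (fun j : ZMod p => toC (zeta p j.val))
        (PowerSeries.C ((p : ℂ) ^ 12) *
          (qExpansion 1 G * castSeries ℂ (PowerSeries.expand p prime_ne_zero dZ)))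
        (qExpansion 1 (Fermat.Agent.EisensteinIndex.atkin p ⇑G) * castSeries ℂ dZ) i) := fun i => by
    refine ((hasExp_kFamily G i).mul (hasExp_dFamily i)).congr rfl ?_
    cases i with
    | none =>
      simp only [kSeries, ← map_mul]
      congr 1
      rw [castSeries, PowerSeries.map_expand]
      simp only [map_pow]
      ring
    | some j => simp only [kSeries, ← map_mul]
  have hf := (HasExp.finsetSum fun i (_ : i ∈ Finset.univ) => hmul i).congr
    (G := (f : ℍ → ℂ)) (by rw [coe_mcast, hfam.coe_esymmForm, IsFamily.esymmFun_one]) rfl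
  have hcoeff : ∀ n, ∃ z : ℤ, (qExpansion 1 f).coeff n = (((p : ℤ) ^ 13 *
      (C * (PowerSeries.expand p prime_ne_zero dZ).coeff n)
        + p * (-C * dZ.coeff (p * n)) + p * M * z : ℤ) : ℂ) := fun n => by
    obtain ⟨z1, hz1⟩ := coeff_mul_congr hx (PowerSeries.expand p prime_ne_zero dZ) n
    obtain ⟨z2, hz2⟩ := coeff_mul_congr hy dZ (p * n)
    refine ⟨(p : ℤ) ^ 12 * z1 + z2, ?_⟩
    rw [← PowerSeries.coeff_expand_mul p prime_ne_zero, ← coeff_eq_qExpansion f hf,
      coeff_sum_kSeries, PowerSeries.coeff_C_mul, hz1, hz2]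
    push_cast
    ring
  have hf0 : f = 0 := by
    refine levelOne_weight_fourteen_eq_zero f ?_
    rw [← PowerSeries.coeff_expand_mul p prime_ne_zero, ← coeff_eq_qExpansion f hf,
      coeff_sum_kSeries]
    have h0 := constantCoeff_castSeries_dZ ℂ
    rw [castSeries] at h0
    simp [castSeries, h0, PowerSeries.map_expand]
  have hzero : ∀ n, (qExpansion 1 f).coeff n = 0 := fun n => by
    rw [hf0, FunLike.coe_zero, qExpansion_zero, map_zero]
  obtain ⟨z1, h1⟩ := hcoeff 1
  obtain ⟨z2, h2⟩ := hcoeff p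
  rw [hzero, PowerSeries.coeff_expand_of_not_dvd _ _ _ (fun h => hp.ne_one (Nat.dvd_one.mp h)),
    mul_one] at h1
  rw [hzero, show (PowerSeries.expand p prime_ne_zero dZ).coeff p =
    (PowerSeries.expand p prime_ne_zero dZ).coeff (p * 1) by rw [mul_one],
    PowerSeries.coeff_expand_mul, coeff_one_dZ, dZ_coeff_sq] at h2
  have e1 : M * z1 = C * dZ.coeff p := by
    have := Int.cast_injective (α := ℂ) (h1.symm.trans Int.cast_zero.symm)
    exact mul_left_cancel₀ (Int.natCast_ne_zero.mpr hp.ne_zero) (by linear_combination this)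
  have e2 : (p : ℤ) ^ 12 * C - C * (dZ.coeff p ^ 2 - (p : ℤ) ^ 11) + M * z2 = 0 := by
    have := Int.cast_injective (α := ℂ) (h2.symm.trans Int.cast_zero.symm)
    exact mul_left_cancel₀ (Int.natCast_ne_zero.mpr hp.ne_zero) (by linear_combination this)
  exact ⟨z1 * dZ.coeff p - z2, by linear_combination e2 - dZ.coeff p * e1⟩

end Fermat.Agent.EisensteinIndex

end
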