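import Mathlib.NumberTheory.ModularForms.JacobiTheta.Bounds
import Fermat.Agent.EisensteinIndex.Gauss
import Fermat.Agent.EisensteinIndex.ThetaSeries
import Fermat.Agent.EisensteinIndex.Trace

/-!
# The theta series of the quaternary lattice as a form on `Γ₀(p)`
-/

set_option autoImplicit false

noncomputable section

open UpperHalfPlane hiding I
open Complex ZMod CongruenceSubgroup
open scoped MatrixGroups Manifold ModularForm

namespace Fermat.Agent.EisensteinIndex

variable (p q : ℕ) (r : ℤ) [Fact p.Prime] [Fact q.Prime]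

/-- The value of the form modulo `p`, on the discriminant group. -/
def barN (A B : ZMod p) : ZMod p := (A ^ 2 + B ^ 2 / (q : ZMod p)) / 4

/-- Fourier coefficients on the discriminant group. -/
def fourier (χ : ZMod p → ZMod p → ℂ) (u v : ZMod p) : ℂ :=
  ((p : ℂ) ^ 2)⁻¹ * ∑ A : ZMod p, ∑ B : ZMod p, χ A B * stdAddChar (-(u * A + v * B))

/-- The transformed function of the functional equation. -/
def dualChar (χ : ZMod p → ZMod p → ℂ) (A B : ZMod p) : ℂ :=
  -(p : ℂ) * fourier p χ (A / 2) (B / (2 * (q : ZMod p)))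

/-- The theta series twisted by a function on the discriminant group. -/
def twisted (χ : ZMod p → ZMod p → ℂ) (τ : ℂ) : ℂ :=
  ∑ u : ZMod p, ∑ v : ZMod p, fourier p χ u v * thetaChar p q r (u.val : ℕ) (v.val : ℕ) τ

theorem sum_fourier (χ : ZMod p → ZMod p → ℂ) (A B : ZMod p) :
    ∑ u : ZMod p, ∑ v : ZMod p, fourier p χ u v * stdAddChar (u * A + v * B) = χ A B := by
  have hp : (p : ℂ) ≠ 0 := natCast_ne_zero
  have horth : ∀ a : ZMod p, ∑ u : ZMod p, stdAddChar (u * a) = if a = 0 then (p : ℂ) else 0 := by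
    intro a
    rw [AddChar.sum_mulShift a (isPrimitive_stdAddChar p), ZMod.card]
    split_ifs <;> simp
  have hterm : ∀ u v : ZMod p, fourier p χ u v * stdAddChar (u * A + v * B) =
      ((p : ℂ) ^ 2)⁻¹ * ∑ A' : ZMod p, ∑ B' : ZMod p,
        χ A' B' * (stdAddChar (u * (A - A')) * stdAddChar (v * (B - B'))) := by
    intro u v
    rw [fourier, mul_assoc, Finset.sum_mul]
    congr 1
    refine Finset.sum_congr rfl fun A' _ => ?_
    rw [Finset.sum_mul]
    refine Finset.sum_congr rfl fun B' _ => ?_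
    rw [mul_assoc, ← AddChar.map_add_eq_mul, ← AddChar.map_add_eq_mul]
    congr 2
    ring
  calc _ = ((p : ℂ) ^ 2)⁻¹ * ∑ A' : ZMod p, ∑ B' : ZMod p, χ A' B' *
        ((∑ u : ZMod p, stdAddChar (u * (A - A'))) * ∑ v : ZMod p, stdAddChar (v * (B - B'))) := by
        rw [Finset.sum_congr rfl fun u _ => Finset.sum_congr rfl fun v _ => hterm u v]
        simp only [← Finset.mul_sum]
        congr 1
        simp only [Finset.sum_mul, Finset.mul_sum]
        rw [Finset.sum_comm_cycle]
        refine Finset.sum_congr rfl fun A' _ => ?_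
        rw [Finset.sum_comm_cycle]
        refine Finset.sum_congr rfl fun B' _ => ?_
        rw [Finset.sum_comm]
    _ = _ := by
        simp only [horth, sub_eq_zero]
        simp only [mul_ite, ite_mul, zero_mul, mul_zero, Finset.sum_ite_eq, Finset.mem_univ, if_true]
        field_simp

theorem hasSum_twisted (χ : ZMod p → ZMod p → ℂ) (τ : ℍ) :
    HasSum ({m | InLat q r m}.indicator fun m =>
        χ (m.2.1 : ZMod p) (m.2.2.2 : ZMod p) * latExp p q τ m)
      (twisted p q r χ τ) := by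
  have h := hasSum_sum fun (u : ZMod p) (_ : u ∈ Finset.univ) =>
    hasSum_sum fun (v : ZMod p) (_ : v ∈ Finset.univ) =>
      (hasSum_thetaChar p q r (u.val : ℕ) (v.val : ℕ) τ).mul_left (fourier p χ u v)
  refine h.congr_fun fun m => ?_
  by_cases hm : InLat q r m
  · simp only [Set.indicator_of_mem (s := {m | InLat q r m}) hm]
    rw [← sum_fourier p χ (m.2.1 : ZMod p) (m.2.2.2 : ZMod p), Finset.sum_mul]
    refine Finset.sum_congr rfl fun u _ => ?_
    rw [Finset.sum_mul]
    refine Finset.sum_congr rfl fun v _ => ?_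
    rw [mul_assoc]
    congr 2
    conv_lhs => rw [← ZMod.natCast_zmod_val u, ← ZMod.natCast_zmod_val v]
    rw [← Int.cast_natCast u.val, ← Int.cast_natCast v.val, ← Int.cast_mul, ← Int.cast_mul,
      ← Int.cast_add, ZMod.stdAddChar_coe]
    congr 1
    push_cast
    ring
  · simp [Set.indicator_of_notMem (s := {m | InLat q r m}) hm]

/-- The hypotheses on the auxiliary data. -/
structure AuxData : Prop where
  p_ne : p ≠ 2
  q_mod : q % 4 = 3
  q_ne : q ≠ p
  dvd : (q : ℤ) ∣ r ^ 2 + p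
  not_square : ¬ IsSquare (-(q : ZMod p))

variable {p q r}

namespace AuxData

omit [Fact (Nat.Prime q)] in
theorem q_ne_two (h : AuxData p q r) : q ≠ 2 := fun e => by
  have := h.q_mod
  omega

omit [Fact (Nat.Prime q)] in
theorem q_cast_ne_zero (h : AuxData p q r) : (q : ZMod p) ≠ 0 := fun e =>
  h.not_square (by rw [e, neg_zero]; exact IsSquare.zero)

omit [Fact (Nat.Prime q)] in
theorem two_ne_zero' (h : AuxData p q r) : (2 : ZMod p) ≠ 0 :=
  Ring.two_ne_zero (by rw [ringChar_zmod_n]; exact h.p_ne)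

/-- On the lattice the form takes values in `(1/p)ℤ`. -/
theorem exists_nat (h : AuxData p q r) {m : Quad} (hm : InLat q r m) :
    ∃ n : ℕ, 4 * (q : ℤ) * n =
      (p : ℤ) * q * m.1 ^ 2 + q * m.2.1 ^ 2 + p * m.2.2.1 ^ 2 + m.2.2.2 ^ 2 := by
  obtain ⟨⟨a, ha⟩, ⟨b, hb⟩, ⟨c, hc⟩⟩ := hm
  obtain ⟨k, hk⟩ := h.dvd
  obtain ⟨j, hj⟩ : (4 : ℤ) ∣ (q : ℤ) + 1 := by have := h.q_mod; omega
  have hm1 : m.1 = m.2.2.1 + 2 * a := by linarith
  have hm2 : m.2.1 = m.2.2.2 + 2 * b := by linarith
  have hm3 : m.2.2.2 = (q : ℤ) * c - r * m.2.2.1 := by linarith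
  set N := (p : ℤ) * q * m.1 ^ 2 + q * m.2.1 ^ 2 + p * m.2.2.1 ^ 2 + m.2.2.2 ^ 2 with hN
  have hq : (q : ℤ) ∣ N := ⟨(p : ℤ) * m.1 ^ 2 + m.2.1 ^ 2 + k * m.2.2.1 ^ 2 + q * c ^ 2
    - 2 * r * c * m.2.2.1, by rw [hN, hm3]; linear_combination m.2.2.1 ^ 2 * hk⟩
  have h4 : (4 : ℤ) ∣ N := ⟨(p : ℤ) * q * (a * m.2.2.1 + a ^ 2) + q * (b * m.2.2.2 + b ^ 2)
    + j * (p * m.2.2.1 ^ 2 + m.2.2.2 ^ 2), by
      rw [hN, hm1, hm2]; linear_combination ((p : ℤ) * m.2.2.1 ^ 2 + m.2.2.2 ^ 2) * hj⟩
  have hcop : IsCoprime (4 : ℤ) q := by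
    have h1 : Nat.Coprime (2 ^ 2) q :=
      Nat.Coprime.pow_left 2 ((Nat.coprime_primes Nat.prime_two Fact.out).mpr h.q_ne_two.symm)
    exact Nat.isCoprime_iff_coprime.mpr h1
  obtain ⟨n, hn⟩ := hcop.mul_dvd h4 hq
  have hn0 : 0 ≤ n := by
    have : 0 ≤ N := by rw [hN]; positivity
    have hq0 : (0 : ℤ) < 4 * q := by
      have := (Fact.out : q.Prime).pos
      positivity
    rw [hn] at this
    exact nonneg_of_mul_nonneg_right (by linarith) hq0
  exact ⟨n.toNat, by rw [Int.toNat_of_nonneg hn0, hn]⟩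

omit [Fact (Nat.Prime p)] in
theorem latN_eq {m : Quad} {n : ℕ} (hn : 4 * (q : ℤ) * n =
      (p : ℤ) * q * m.1 ^ 2 + q * m.2.1 ^ 2 + p * m.2.2.1 ^ 2 + m.2.2.2 ^ 2) :
    latN p q m = (n : ℂ) / p := by
  have := congrArg (fun z : ℤ => (z : ℂ)) hn
  push_cast at this
  rw [latN, ← this]
  field_simp [(Nat.cast_ne_zero.mpr (Fact.out : q.Prime).ne_zero : (q : ℂ) ≠ 0)]

omit [Fact (Nat.Prime q)] in
theorem cast_eq_barN (h : AuxData p q r) {m : Quad} {n : ℕ} (hn : 4 * (q : ℤ) * n =
      (p : ℤ) * q * m.1 ^ 2 + q * m.2.1 ^ 2 + p * m.2.2.1 ^ 2 + m.2.2.2 ^ 2) :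
    ((n : ℤ) : ZMod p) = barN p q (m.2.1 : ZMod p) (m.2.2.2 : ZMod p) := by
  have := congrArg (fun z : ℤ => (z : ZMod p)) hn
  push_cast at this
  simp only [ZMod.natCast_self, zero_mul, zero_add, add_zero] at this
  have h4 : (4 : ZMod p) ≠ 0 := by
    rw [show (4 : ZMod p) = 2 * 2 by norm_num]; exact mul_ne_zero h.two_ne_zero' h.two_ne_zero'
  rw [barN, Int.cast_natCast]
  field_simp [h.q_cast_ne_zero]
  linear_combination this

theorem twisted_inv (h : AuxData p q r) (χ : ZMod p → ZMod p → ℂ) (τ : ℍ) :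
    twisted p q r χ (-1 / τ) = (τ : ℂ) ^ 2 * twisted p q r (dualChar p q χ) τ := by
  have h1 := hasSum_sum fun (u : ZMod p) (_ : u ∈ Finset.univ) =>
    hasSum_sum fun (v : ZMod p) (_ : v ∈ Finset.univ) =>
      (hasSum_thetaChar_inv p q r h.p_ne h.q_ne_two h.q_ne h.dvd (u.val : ℕ) (v.val : ℕ) τ).mul_left
        (fourier p χ u v)
  refine HasSum.unique h1 (((hasSum_twisted p q r (dualChar p q χ) τ).mul_left _).congr_fun
    fun m => ?_)
  by_cases hm : InLat q r m
  · have hiff : ∀ u v : ZMod p, m ∈ glueImage p q r (u.val : ℕ) (v.val : ℕ) ↔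
        u = (m.2.1 : ZMod p) / 2 ∧ v = (m.2.2.2 : ZMod p) / (2 * (q : ZMod p)) := by
      intro u v
      simp only [glueImage, Set.mem_ofPred_eq, hm, true_and, ← ZMod.intCast_zmod_eq_zero_iff_dvd]
      push_cast
      rw [ZMod.natCast_zmod_val, ZMod.natCast_zmod_val, sub_eq_zero, sub_eq_zero,
        eq_div_iff h.two_ne_zero', eq_div_iff (mul_ne_zero h.two_ne_zero' h.q_cast_ne_zero)]
      constructor <;> rintro ⟨e1, e2⟩
      · exact ⟨by linear_combination -e1, by linear_combination -e2⟩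
      · exact ⟨by linear_combination -e1, by linear_combination -e2⟩
    rw [Set.indicator_of_mem (s := {m | InLat q r m}) hm]
    rw [Finset.sum_eq_single ((m.2.1 : ZMod p) / 2), Finset.sum_eq_single
      ((m.2.2.2 : ZMod p) / (2 * (q : ZMod p))), Set.indicator_of_mem ((hiff _ _).mpr ⟨rfl, rfl⟩),
      dualChar]
    · ring
    · intro v _ hv
      rw [Set.indicator_of_notMem (fun h' => hv ((hiff _ _).mp h').2), mul_zero]
    · simp
    · intro u _ hu
      refine Finset.sum_eq_zero fun v _ => ?_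
      rw [Set.indicator_of_notMem (fun h' => hu ((hiff _ _).mp h').1), mul_zero]
    · simp
  · rw [Set.indicator_of_notMem (s := {m | InLat q r m}) hm, mul_zero]
    refine (Finset.sum_eq_zero fun u _ => Finset.sum_eq_zero fun v _ => ?_)
    rw [Set.indicator_of_notMem (fun h' => hm h'.1), mul_zero]

theorem twisted_add_one (h : AuxData p q r) (χ : ZMod p → ZMod p → ℂ) (τ : ℍ) :
    twisted p q r χ ((τ : ℂ) + 1) =
      twisted p q r (fun A B => χ A B * stdAddChar (barN p q A B)) τ := by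
  have h1 := hasSum_twisted p q r χ ((1 : ℝ) +ᵥ τ)
  rw [UpperHalfPlane.coe_vadd, Complex.ofReal_one, add_comm] at h1
  refine HasSum.unique h1 ((hasSum_twisted p q r _ τ).congr_fun fun m => ?_)
  by_cases hm : InLat q r m
  · obtain ⟨n, hn⟩ := h.exists_nat hm
    simp only [Set.indicator_of_mem (s := {m | InLat q r m}) hm]
    rw [← h.cast_eq_barN hn, ZMod.stdAddChar_coe, latExp, latExp, latN_eq hn]
    conv_rhs => rw [mul_assoc, ← Complex.exp_add]
    congr 2
    push_cast
    ring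
  · simp [Set.indicator_of_notMem (s := {m | InLat q r m}) hm]

end AuxData

variable (p q r)

/-- The indicator of the origin. -/
def delta0 (A B : ZMod p) : ℂ := if A = 0 ∧ B = 0 then 1 else 0

/-- The functions attached to the cosets. -/
def cosetChar : Option (ZMod p) → ZMod p → ZMod p → ℂ
  | none => delta0 p
  | some a => fun A B => -(p : ℂ)⁻¹ * stdAddChar (a * barN p q A B)

/-- The conjugates of the theta series. -/
def thetaFamily (i : Option (ZMod p)) : ℍ → ℂ := fun τ => twisted p q r (cosetChar p q i) τ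

variable {p q r}

omit [Fact (Nat.Prime q)] in
theorem dualChar_cosetChar (h : AuxData p q r) (i : Option (ZMod p)) :
    dualChar p q (cosetChar p q i) = cosetChar p q (act ModularGroup.S i) := by
  have hp : (p : ℂ) ≠ 0 := natCast_ne_zero
  have h2 := h.two_ne_zero'
  have hq := h.q_cast_ne_zero
  funext A B
  cases i with
  | none =>
    rw [show act ModularGroup.S (none : Option (ZMod p)) = some 0 by
      simp [act_none, idx, ModularGroup.coe_S]]
    simp [dualChar, fourier, cosetChar, delta0, ite_and]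
    field_simp
  | some a =>
    by_cases ha : a = 0
    · subst ha
      rw [show act ModularGroup.S (some (0 : ZMod p)) = none by
        simp [act, idx, rep_some, ModularGroup.coe_S]]
      have horth : ∀ b : ZMod p, ∑ u : ZMod p, stdAddChar (-(b * u)) =
          if b = 0 then (p : ℂ) else 0 := by
        intro b
        have h0 := AddChar.sum_mulShift (-b) (isPrimitive_stdAddChar p)
        rw [ZMod.card] at h0
        simp only [neg_eq_zero] at h0
        split_ifs at h0 ⊢ <;> simpa [mul_comm b] using h0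
      simp only [dualChar, fourier, cosetChar, zero_mul, AddChar.map_zero_eq_one, mul_one, delta0]
      simp only [← Finset.mul_sum, neg_add, AddChar.map_add_eq_mul]
      rw [← Finset.sum_mul, horth, horth]
      simp only [div_eq_zero_iff, h2, or_false, mul_ne_zero h2 hq]
      split_ifs with hA hB hAB hAB <;> simp_all
      field_simp
    · rw [show act ModularGroup.S (some a) = some (-a⁻¹) by
        have : ((a.val : ℤ) : ZMod p) = a := by simp
        simp [act, idx, rep_some, ModularGroup.coe_S, ModularGroup.coe_T_zpow,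
          Matrix.SpecialLinearGroup.coe_mul, ha]]
      have hg := gauss_plane h.p_ne h.not_square ha A B
      simp only [dualChar, fourier, cosetChar]
      have hsum : ∑ A' : ZMod p, ∑ B' : ZMod p, -(p : ℂ)⁻¹ * stdAddChar (a * barN p q A' B') *
          stdAddChar (-(A / 2 * A' + B / (2 * (q : ZMod p)) * B')) =
          -(p : ℂ)⁻¹ * (-(p : ℂ) * stdAddChar (-a⁻¹ * barN p q A B)) := by
        rw [barN, ← hg, Finset.mul_sum]
        refine Finset.sum_congr rfl fun A' _ => ?_
        rw [Finset.mul_sum]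
        refine Finset.sum_congr rfl fun B' _ => ?_
        rw [mul_assoc, ← AddChar.map_add_eq_mul, barN]
        congr 2
        field_simp
        ring
      rw [hsum]
      field_simp

omit [Fact (Nat.Prime q)] in
theorem cosetChar_mul (i : Option (ZMod p)) :
    (fun A B => cosetChar p q i A B * stdAddChar (barN p q A B)) =
      cosetChar p q (act ModularGroup.T i) := by
  funext A B
  cases i with
  | none =>
    rw [show act ModularGroup.T (none : Option (ZMod p)) = none by
      simp [act_none, idx, ModularGroup.coe_T]]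
    simp only [cosetChar, delta0]
    split_ifs with hAB
    · simp [barN, hAB.1, hAB.2]
    · simp
  | some a =>
    rw [show act ModularGroup.T (some a) = some (a + 1) by
      simp [act, idx, rep_some, ModularGroup.coe_S, ModularGroup.coe_T_zpow, ModularGroup.coe_T,
        Matrix.SpecialLinearGroup.coe_mul, add_comm]]
    simp only [cosetChar, mul_assoc, ← AddChar.map_add_eq_mul]
    congr 2
    ring

theorem thetaFamily_slash (h : AuxData p q r) (g : SL(2, ℤ)) (i : Option (ZMod p)) :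
    thetaFamily p q r i ∣[(2 : ℤ)] g = thetaFamily p q r (act g i) := by
  refine IsFamily.slash_of_generators (fun i => ?_) (fun i => ?_) g i
  · funext τ
    rw [SlashInvariantForm.slash_S_apply]
    change twisted p q r (cosetChar p q i) (-(τ : ℂ))⁻¹ * _ = _
    rw [show (-(τ : ℂ))⁻¹ = -1 / (τ : ℂ) by rw [inv_neg, neg_div, one_div], h.twisted_inv,
      dualChar_cosetChar h]
    simp only [thetaFamily, zpow_neg, zpow_ofNat]
    field_simp [ne_zero τ]
  · funext τ
    have hT : thetaFamily p q r i ∣[(2 : ℤ)] ModularGroup.T =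
        thetaFamily p q r i ∣[(2 : ℤ)] (ModularGroup.T ^ (1 : ℤ)) := by rw [zpow_one]
    rw [hT, slash_T_zpow_apply]
    change twisted p q r (cosetChar p q i) _ = _
    rw [UpperHalfPlane.coe_vadd, Int.cast_one, Complex.ofReal_one, add_comm, h.twisted_add_one,
      cosetChar_mul]
    rfl

theorem differentiableOn_line (d β : ℝ) (hd : 0 < d) :
    DifferentiableOn ℂ (line d β) {z : ℂ | 0 < z.im} := fun z hz => by
  have him : 0 < (z / (2 * (d : ℂ))).im := by
    rw [show (2 * (d : ℂ)) = ((2 * d : ℝ) : ℂ) by push_cast; ring, div_ofReal_im]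
    exact div_pos hz (by positivity)
  have h := (differentiableAt_jacobiTheta₂_snd (β : ℂ) him).comp z
    ((differentiableAt_id (𝕜 := ℂ) (x := z)).div_const (2 * (d : ℂ)))
  exact h.differentiableWithinAt

theorem isBounded_line (d β : ℝ) (hd : 0 < d) :
    IsBoundedAtImInfty fun τ : ℍ => line d β τ := by
  rw [isBoundedAtImInfty_iff]
  have hsum := summable_pow_mul_jacobiTheta₂_term_bound (0 : ℝ) (T := 1 / (2 * d)) (by positivity) 0
  refine ⟨∑' n : ℤ, Real.exp (-Real.pi * ((1 / (2 * d)) * (n : ℝ) ^ 2 - 2 * 0 * |(n : ℝ)|)), 1,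
    fun z hz => ?_⟩
  have him : ((z : ℂ) / (2 * (d : ℂ))).im = z.im / (2 * d) := by
    rw [show (2 * (d : ℂ)) = ((2 * d : ℝ) : ℂ) by push_cast; ring, div_ofReal_im]
    rfl
  have hle : ∀ n : ℤ, ‖jacobiTheta₂_term n (β : ℂ) ((z : ℂ) / (2 * d))‖ ≤
      Real.exp (-Real.pi * ((1 / (2 * d)) * (n : ℝ) ^ 2 - 2 * 0 * |(n : ℝ)|)) := fun n => by
    rw [norm_jacobiTheta₂_term, him, Complex.ofReal_im]
    refine Real.exp_le_exp.mpr ?_
    have h1 : Real.pi * (1 / (2 * d)) * (n : ℝ) ^ 2 ≤ Real.pi * (z.im / (2 * d)) * (n : ℝ) ^ 2 := by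
      gcongr
    nlinarith [h1]
  have hs : Summable fun n : ℤ =>
      Real.exp (-Real.pi * ((1 / (2 * d)) * (n : ℝ) ^ 2 - 2 * 0 * |(n : ℝ)|)) := by
    simpa using hsum
  refine tsum_of_norm_bounded hs.hasSum hle

theorem differentiableOn_thetaChar (u v : ℤ) :
    DifferentiableOn ℂ (thetaChar p q r u v) {z : ℂ | 0 < z.im} := by
  have hp := cast_pos₁ p
  have hq := cast_pos₁ q
  unfold thetaChar
  refine DifferentiableOn.const_mul ?_ _
  refine DifferentiableOn.fun_sum fun g _ => ?_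
  exact (differentiableOn_line _ _ one_pos).mul ((differentiableOn_line _ _ hp).mul
    ((differentiableOn_line _ _ hq).mul (differentiableOn_line _ _ (mul_pos hp hq))))

theorem isBounded_thetaChar (u v : ℤ) : IsBoundedAtImInfty fun τ : ℍ => thetaChar p q r u v τ := by
  have hp := cast_pos₁ p
  have hq := cast_pos₁ q
  unfold thetaChar
  refine Asymptotics.IsBigO.const_mul_left (Asymptotics.IsBigO.fun_sum fun g _ => ?_) _
  exact (isBounded_line _ _ one_pos).mul ((isBounded_line _ _ hp).mul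
    ((isBounded_line _ _ hq).mul (isBounded_line _ _ (mul_pos hp hq))))

theorem isFamily_thetaFamily (h : AuxData p q r) : IsFamily 2 (thetaFamily p q r) where
  slash := thetaFamily_slash h
  holo i := by
    rw [UpperHalfPlane.mdifferentiable_iff]
    have hd : DifferentiableOn ℂ (twisted p q r (cosetChar p q i)) {z : ℂ | 0 < z.im} :=
      DifferentiableOn.fun_sum fun u _ => DifferentiableOn.fun_sum fun v _ =>
        (differentiableOn_thetaChar _ _).const_mul _
    exact hd.congr fun z hz => by simp [thetaFamily, ofComplex_apply_of_im_pos hz]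
  bdd i := by
    show IsBoundedAtImInfty fun τ : ℍ => twisted p q r (cosetChar p q i) τ
    unfold twisted
    exact Asymptotics.IsBigO.fun_sum fun u _ => Asymptotics.IsBigO.fun_sum fun v _ =>
      Asymptotics.IsBigO.const_mul_left (isBounded_thetaChar _ _) _

variable (p q r)

/-- Lattice vectors of norm `n`. -/
def latFiber (n : ℕ) : Set Quad :=
  {m | InLat q r m ∧ (p : ℤ) ∣ m.2.1 ∧ (p : ℤ) ∣ m.2.2.2 ∧
    4 * (q : ℤ) * ((p : ℤ) * n) =
      (p : ℤ) * q * m.1 ^ 2 + q * m.2.1 ^ 2 + p * m.2.2.1 ^ 2 + m.2.2.2 ^ 2}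

theorem latFiber_finite (n : ℕ) : (latFiber p q r n).Finite := by
  set B : ℤ := 4 * (q : ℤ) * ((p : ℤ) * n) with hB
  have hfin : ((Set.Icc (-B) B) ×ˢ ((Set.Icc (-B) B) ×ˢ ((Set.Icc (-B) B) ×ˢ (Set.Icc (-B) B)))).Finite :=
    (Set.finite_Icc _ _).prod ((Set.finite_Icc _ _).prod ((Set.finite_Icc _ _).prod (Set.finite_Icc _ _)))
  refine hfin.subset ?_
  rintro ⟨a, b, c, d⟩ ⟨-, -, -, he⟩
  simp only at he
  have hp : (1 : ℤ) ≤ p := by exact_mod_cast (Fact.out : p.Prime).one_lt.le
  have hq : (1 : ℤ) ≤ q := by exact_mod_cast (Fact.out : q.Prime).one_lt.le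
  have h1 : ∀ x : ℤ, x ≤ x ^ 2 ∧ -x ≤ x ^ 2 := fun x => ⟨Int.le_self_sq x, by
    have := Int.le_self_sq (-x); linarith [show (-x) ^ 2 = x ^ 2 by ring]⟩
  have ha : a ^ 2 ≤ (p : ℤ) * q * a ^ 2 := le_mul_of_one_le_left (sq_nonneg a) (one_le_mul_of_one_le_of_one_le hp hq)
  have hb : b ^ 2 ≤ (q : ℤ) * b ^ 2 := le_mul_of_one_le_left (sq_nonneg b) hq
  have hc : c ^ 2 ≤ (p : ℤ) * c ^ 2 := le_mul_of_one_le_left (sq_nonneg c) hp
  have := h1 a; have := h1 b; have := h1 c; have := h1 d
  have := sq_nonneg a; have := sq_nonneg b; have := sq_nonneg c; have := sq_nonneg d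
  simp only [Set.mem_prod, Set.mem_Icc]
  refine ⟨⟨?_, ?_⟩, ⟨?_, ?_⟩, ⟨?_, ?_⟩, ?_, ?_⟩ <;> linarith

/-- The number of lattice vectors of norm `n`. -/
def latCount (n : ℕ) : ℕ := (latFiber p q r n).ncard

theorem latCount_zero : latCount p q r 0 = 1 := by
  have hp : (0 : ℤ) < p := by exact_mod_cast (Fact.out : p.Prime).pos
  have hq : (0 : ℤ) < q := by exact_mod_cast (Fact.out : q.Prime).pos
  rw [latCount, Set.ncard_eq_one]
  refine ⟨(0, 0, 0, 0), Set.eq_singleton_iff_unique_mem.mpr ⟨?_, ?_⟩⟩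
  · simp [latFiber, InLat]
  · rintro ⟨a, b, c, d⟩ ⟨-, -, -, he⟩
    simp only [Nat.cast_zero, mul_zero] at he
    have h1 : 0 ≤ (p : ℤ) * q * a ^ 2 := by positivity
    have h2 : 0 ≤ (q : ℤ) * b ^ 2 := by positivity
    have h3 : 0 ≤ (p : ℤ) * c ^ 2 := by positivity
    have h4 : 0 ≤ d ^ 2 := sq_nonneg d
    have e1 : (p : ℤ) * q * a ^ 2 = 0 := by linarith
    have e2 : (q : ℤ) * b ^ 2 = 0 := by linarith
    have e3 : (p : ℤ) * c ^ 2 = 0 := by linarith
    have e4 : d ^ 2 = 0 := by linarith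
    rw [mul_eq_zero, mul_eq_zero, pow_eq_zero_iff two_ne_zero] at e1
    rw [mul_eq_zero, pow_eq_zero_iff two_ne_zero] at e2 e3
    rw [pow_eq_zero_iff two_ne_zero] at e4
    rw [(e1.resolve_left (not_or.mpr ⟨hp.ne', hq.ne'⟩)), e2.resolve_left hq.ne',
      e3.resolve_left hp.ne', e4]

theorem even_latCount {n : ℕ} (hn : n ≠ 0) : Even (latCount p q r n) := by
  rw [latCount, Set.ncard_eq_toFinset_card _ (latFiber_finite p q r n), ← ZMod.natCast_eq_zero_iff_even,
    Finset.card_eq_sum_ones, Nat.cast_sum]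
  refine Finset.sum_involution (fun m _ => -m) (fun _ _ => by decide) (fun m hm _ he => ?_)
    (fun m hm => ?_) (fun m _ => neg_neg m)
  · rw [Set.Finite.mem_toFinset] at hm
    obtain ⟨-, -, -, h4⟩ := hm
    obtain ⟨a, b, c, d⟩ := m
    simp only [Prod.neg_mk, Prod.mk.injEq] at he
    obtain ⟨ea, eb, ec, ed⟩ := he
    have : a = 0 ∧ b = 0 ∧ c = 0 ∧ d = 0 := ⟨by omega, by omega, by omega, by omega⟩
    simp [this, hn, (Fact.out : p.Prime).ne_zero, (Fact.out : q.Prime).ne_zero] at h4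
  · rw [Set.Finite.mem_toFinset] at hm ⊢
    obtain ⟨⟨ha, hb, hc⟩, h2, h3, h4⟩ := hm
    refine ⟨⟨?_, ?_, ?_⟩, ?_, ?_, ?_⟩ <;> simp only [Prod.fst_neg, Prod.snd_neg]
    · rw [show -m.1 - -m.2.2.1 = -(m.1 - m.2.2.1) by ring]; exact ha.neg_right
    · rw [show -m.2.1 - -m.2.2.2 = -(m.2.1 - m.2.2.2) by ring]; exact hb.neg_right
    · rw [show r * -m.2.2.1 + -m.2.2.2 = -(r * m.2.2.1 + m.2.2.2) by ring]; exact hc.neg_right
    · exact h2.neg_right
    · exact h3.neg_right
    · rw [h4]; ring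

variable {p q r}

/-- The expansion of the theta series. -/
theorem hasExp_theta (h : AuxData p q r) :
    HasExp 1 (thetaFamily p q r none) (PowerSeries.mk fun n => (latCount p q r n : ℂ)) := fun τ => by
  classical
  have hp : (p : ℤ) ≠ 0 := Int.natCast_ne_zero.mpr (Fact.out : p.Prime).ne_zero
  set S : Set Quad := {m | InLat q r m ∧ (p : ℤ) ∣ m.2.1 ∧ (p : ℤ) ∣ m.2.2.2} with hS
  have hdiv : ∀ m ∈ S, ∃ n : ℕ, m ∈ latFiber p q r n := by
    rintro m ⟨hm, h1, h3⟩
    obtain ⟨n, hn⟩ := h.exists_nat hm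
    have hz : ((n : ℤ) : ZMod p) = 0 := by
      rw [h.cast_eq_barN hn, (ZMod.intCast_zmod_eq_zero_iff_dvd _ _).mpr h1,
        (ZMod.intCast_zmod_eq_zero_iff_dvd _ _).mpr h3]
      simp [barN]
    obtain ⟨k, rfl⟩ := Int.natCast_dvd_natCast.mp ((ZMod.intCast_zmod_eq_zero_iff_dvd _ _).mp hz)
    exact ⟨k, hm, h1, h3, by rw [← hn, Nat.cast_mul]⟩
  choose! k hk using hdiv
  set e : (Σ n, latFiber p q r n) → Quad := fun x => x.2
  have hval : ∀ n, ∀ m ∈ latFiber p q r n, latExp p q τ m = Function.Periodic.qParam 1 τ ^ n := by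
    rintro n m ⟨hm, -, -, he⟩
    rw [latExp, AuxData.latN_eq (n := p * n) (by push_cast; exact he), Function.Periodic.qParam,
      ← Complex.exp_nat_mul]
    congr 1
    push_cast
    field_simp [natCast_ne_zero (p := p)]
  have hinj : Function.Injective e := by
    rintro ⟨n, m, hm⟩ ⟨n', m', hm'⟩ (rfl : m = m')
    have hnn : n = n' := by
      have h4 : 4 * (q : ℤ) * ((p : ℤ) * n) = 4 * (q : ℤ) * ((p : ℤ) * n') :=
        hm.2.2.2.trans hm'.2.2.2.symm
      have := mul_left_cancel₀ (mul_ne_zero four_ne_zero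
        (Int.natCast_ne_zero.mpr (Fact.out : q.Prime).ne_zero)) h4
      exact_mod_cast mul_left_cancel₀ hp this
    subst hnn
    rfl
  have hsum := hasSum_twisted p q r (cosetChar p q none) τ
  have hsupp : ∀ m ∉ Set.range e, ({m | InLat q r m}.indicator fun m =>
      cosetChar p q none (m.2.1 : ZMod p) (m.2.2.2 : ZMod p) * latExp p q τ m) m = 0 := by
    intro m hm
    by_cases hlat : InLat q r m
    · rw [Set.indicator_of_mem (s := {m | InLat q r m}) hlat]
      simp only [cosetChar, delta0, ZMod.intCast_zmod_eq_zero_iff_dvd]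
      have hneg : ¬ ((p : ℤ) ∣ m.2.1 ∧ (p : ℤ) ∣ m.2.2.2) := fun hc =>
        hm ⟨⟨k m, m, hk m ⟨hlat, hc.1, hc.2⟩⟩, rfl⟩
      rw [if_neg hneg, zero_mul]
    · exact Set.indicator_of_notMem (s := {m | InLat q r m}) hlat _
  have h1 := (hinj.hasSum_iff hsupp).mpr hsum
  have h2 := h1.sigma fun n => by
    have := (latFiber_finite p q r n).to_subtype
    exact Summable.hasSum Summable.of_finite
  refine h2.congr_fun fun n => ?_
  have := (latFiber_finite p q r n).to_subtype
  rw [PowerSeries.coeff_mk, tsum_congr (g := fun _ : latFiber p q r n =>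
    Function.Periodic.qParam 1 (τ : ℂ) ^ n) fun m => ?_]
  · rw [tsum_const, Nat.card_coe_set_eq, nsmul_eq_mul, latCount]
  · obtain ⟨m, hm⟩ := m
    have hlat : InLat q r m := hm.1
    simp only [Function.comp_apply, e]
    rw [Set.indicator_of_mem (s := {m | InLat q r m}) hlat]
    simp only [cosetChar, delta0, ZMod.intCast_zmod_eq_zero_iff_dvd]
    rw [if_pos ⟨hm.2.1, hm.2.2.1⟩, one_mul, hval n m hm]

/-- For an odd prime `p` there is a form of weight two on `Γ₀(p)` with constant term `1` and all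
other coefficients even integers. -/
theorem exists_theta (hp : p ≠ 2) : ∃ Θ : ModularForm (Gamma0 p) 2, ∃ c : ℕ → ℤ,
    ∀ n, (qExpansion 1 Θ).coeff n = if n = 0 then 1 else 2 * (c n : ℂ) := by
  obtain ⟨q, r, hq, hq4, hqp, hdvd, hsq⟩ := exists_aux_prime hp
  have : Fact q.Prime := ⟨hq⟩
  have h : AuxData p q r := ⟨hp, hq4, hqp, hdvd, hsq⟩
  refine ⟨(isFamily_thetaFamily h).toForm, fun n => (latCount p q r n / 2 : ℕ), fun n => ?_⟩
  rw [← (hasExp_theta h).congr (isFamily_thetaFamily h).coe_toForm.symm rfl |>.eq_qExpansion one_pos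
    (one_mem_strictPeriods_Gamma0 p), PowerSeries.coeff_mk]
  split_ifs with hn
  · rw [hn, latCount_zero, Nat.cast_one]
  · obtain ⟨j, hj⟩ := even_latCount p q r hn
    simp only [hj, show (j + j) / 2 = j by omega]
    push_cast
    ring

end Fermat.Agent.EisensteinIndex

end
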