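import Mathlib.Data.Nat.Choose.Lucas
import Mathlib.RingTheory.IntegralClosure.IntegrallyClosed
import Fermat.Agent.EisensteinIndex.Trace

/-!
# Odd primes: elementary symmetric functions of the conjugates modulo a prime
-/

set_option autoImplicit false

noncomputable section

open UpperHalfPlane CongruenceSubgroup ModularGroup ModularForm
open scoped MatrixGroups Manifold ModularForm

namespace Fermat.Agent.EisensteinIndex

variable {p : ℕ} [Fact p.Prime]

/-- A rational algebraic integer is an integer. -/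
theorem exists_int_eq_of_rat (x : AInt) (q : ℚ) (h : (x : ℂ) = (q : ℂ)) : ∃ n : ℤ, q = n := by
  have hx : IsIntegral ℤ ((algebraMap ℚ ℂ) q) := by
    rw [eq_ratCast, ← h]
    exact x.2
  obtain ⟨n, hn⟩ := IsIntegrallyClosed.isIntegral_iff.mp
    ((isIntegral_algebraMap_iff (algebraMap ℚ ℂ).injective).mp hx)
  exact ⟨n, by simpa using hn.symm⟩

/-- Every prime has a residue map on the algebraic integers. -/
theorem exists_residue (ℓ : ℕ) (hℓ : ℓ.Prime) :
    ∃ (k : Type) (_ : Field k) (_ : AInt →+* k), (ℓ : k) = 0 := by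
  have hne : Ideal.span {((ℓ : AInt))} ≠ ⊤ := by
    rw [Ne, Ideal.span_singleton_eq_top]
    rintro ⟨u, hu⟩
    have hℓ0 : (ℓ : ℂ) ≠ 0 := Nat.cast_ne_zero.mpr hℓ.ne_zero
    have h1 : ((↑u⁻¹ : AInt) : ℂ) = (((ℓ : ℚ)⁻¹ : ℚ) : ℂ) := by
      have h2 := congrArg toC (u.inv_mul)
      rw [hu, map_mul, map_one, map_natCast, toC_apply] at h2
      push_cast
      exact eq_inv_of_mul_eq_one_left h2
    obtain ⟨n, hn⟩ := exists_int_eq_of_rat _ _ h1
    have h3 : (n : ℤ) * ℓ = 1 := by
      have : ((n : ℚ) * ℓ) = 1 := by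
        rw [← hn, inv_mul_cancel₀ (Nat.cast_ne_zero.mpr hℓ.ne_zero)]
      exact_mod_cast this
    exact hℓ.ne_one (by exact_mod_cast Int.eq_one_of_mul_eq_one_left (Int.natCast_nonneg ℓ) h3)
  obtain ⟨𝔪, hmax, hle⟩ := Ideal.exists_le_maximal _ hne
  let inst : Field (AInt ⧸ 𝔪) := Ideal.Quotient.field 𝔪
  refine ⟨AInt ⧸ 𝔪, inst, Ideal.Quotient.mk 𝔪, ?_⟩
  have h : Ideal.Quotient.mk 𝔪 (ℓ : AInt) = 0 :=
    Ideal.Quotient.eq_zero_iff_mem.mpr (hle (Ideal.mem_span_singleton_self _))
  rwa [map_natCast] at h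

theorem map_rescale {R S : Type*} [CommRing R] [CommRing S] (φ : R →+* S) (a : R)
    (P : PowerSeries R) :
    PowerSeries.map φ (PowerSeries.rescale a P) = PowerSeries.rescale (φ a) (PowerSeries.map φ P) := by
  ext n
  simp [PowerSeries.coeff_rescale]

theorem map_kSeries {R S : Type*} [CommRing R] [CommRing S] (φ : R →+* S) (ζ : ZMod p → R)
    (P Q : PowerSeries R) (i : Option (ZMod p)) :
    PowerSeries.map φ (kSeries R ζ P Q i) =
      kSeries S (fun j => φ (ζ j)) (PowerSeries.map φ P) (PowerSeries.map φ Q) i := by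
  cases i with
  | none => simp [kSeries, PowerSeries.map_expand]
  | some j => simp [kSeries, map_rescale]

theorem rescale_C {R : Type*} [CommRing R] (a c : R) :
    PowerSeries.rescale a (PowerSeries.C c) = PowerSeries.C c := by
  ext n
  rcases eq_or_ne n 0 with rfl | hn <;> simp [PowerSeries.coeff_rescale, PowerSeries.coeff_C, *]

theorem castSeries_C (R : Type*) [CommRing R] (c : ℤ) :
    castSeries R (PowerSeries.C c) = PowerSeries.C (c : R) := by
  simp [castSeries]

/-- The constant attached to each conjugate. -/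
def conjConst (p : ℕ) (C : ℤ) : Option (ZMod p) → ℤ
  | none => p * C
  | some _ => -C

/-- Algebraic integer expansions of the family of a congruent-to-constant form. -/
theorem exists_series {G : ModularForm (Gamma0 p) 2} {C M : ℤ} (hG : IsCongrConst G C M) :
    ∃ z : Option (ZMod p) → PowerSeries AInt, ∀ i, HasExp p (kFamily G i)
      (PowerSeries.map toC (PowerSeries.C (conjConst p C i : AInt) + M • z i)) := by
  obtain ⟨y, hy⟩ := hG.atkin
  obtain ⟨x, hx⟩ := hG
  rw [coe_atkinForm] at hy
  refine ⟨kSeries AInt (fun j => zeta p j.val) (castSeries AInt x) (castSeries AInt y),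
    fun i => (hasExp_kFamily G i).congr rfl ?_⟩
  rw [map_add, map_zsmul, map_kSeries, map_castSeries, map_castSeries, PowerSeries.map_C,
    map_intCast, hx, hy, map_add, map_add, castSeries_C, castSeries_C, map_zsmul, map_zsmul]
  cases i with
  | none =>
    simp only [kSeries, conjConst, mul_add, map_add, mul_smul_comm, map_zsmul, ← map_mul,
      PowerSeries.expand_C]
    push_cast
    rfl
  | some j => simp only [kSeries, conjConst, map_add, map_zsmul, rescale_C]

/-- The core obstruction: an elementary symmetric function of low weight and high order. -/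
theorem esymm_obstruction {k : Type} [Field k] (π : AInt →+* k) {w : ℕ}
    {F : Option (ZMod p) → ℍ → ℂ} (hF : IsFamily (w : ℤ) F)
    {P : Option (ZMod p) → PowerSeries AInt}
    (hP : ∀ i, HasExp p (F i) (PowerSeries.map toC (P i))) {r : ℕ} (hr : w * r / 12 < r)
    (e : ℕ) (c : k)
    (hsum : PowerSeries.map π (∑ s ∈ (Finset.univ : Finset (Option (ZMod p))).powersetCard r,
        ∏ i ∈ s, P i) =
      PowerSeries.C c * PowerSeries.expand p prime_ne_zero (castSeries k (sigmaSeries e)) ^ r) :
    c = 0 := by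
  set f : ModularForm 𝒮ℒ ((w * r : ℕ) : ℤ) := ModularForm.mcast (by push_cast; rfl) (hF.esymmForm r)
  set S := ∑ s ∈ (Finset.univ : Finset (Option (ZMod p))).powersetCard r, ∏ i ∈ s, P i
  have hf : HasExp p f (PowerSeries.map toC S) := by
    refine (HasExp.finsetSum fun s _ => HasExp.finsetProd fun i _ => hP i).congr
      (by rw [coe_mcast, hF.coe_esymmForm]; rfl) ?_
    simp [S, map_sum, map_prod]
  set P1 : PowerSeries AInt := PowerSeries.mk fun n => S.coeff (p * n)
  have hP1 : PowerSeries.map toC P1 = qExpansion 1 f := PowerSeries.ext fun n => by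
    rw [PowerSeries.coeff_map, PowerSeries.coeff_mk, ← PowerSeries.coeff_map,
      coeff_eq_qExpansion f hf, PowerSeries.coeff_expand_mul]
  have hπ : PowerSeries.map π P1 = PowerSeries.C c * castSeries k (sigmaSeries e) ^ r :=
    PowerSeries.ext fun n => by
      rw [PowerSeries.coeff_map, PowerSeries.coeff_mk, ← PowerSeries.coeff_map, hsum, ← map_pow,
        PowerSeries.coeff_C_mul, PowerSeries.coeff_expand_mul, PowerSeries.coeff_C_mul]
  obtain ⟨u, hu⟩ : PowerSeries.X ∣ castSeries k (sigmaSeries e) := by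
    rw [PowerSeries.X_dvd_iff, ← PowerSeries.coeff_zero_eq_constantCoeff_apply, castSeries,
      PowerSeries.coeff_map, coeff_sigmaSeries]
    simp
  have hu0 : u.constantCoeff = 1 := by
    have h1 := congrArg (PowerSeries.coeff 1) hu
    rw [PowerSeries.coeff_succ_X_mul, castSeries, PowerSeries.coeff_map, coeff_sigmaSeries] at h1
    simpa using h1.symm
  have hz := map_eq_zero_of_dvd π (w * r) f P1 hP1 <| by
    rw [hπ, hu, mul_pow]
    exact Dvd.dvd.mul_left (Dvd.dvd.mul_right (pow_dvd_pow _ (by omega)) _) _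
  have h2 := congrArg (PowerSeries.coeff r) hz
  rw [hπ, hu, mul_pow, PowerSeries.coeff_C_mul, PowerSeries.coeff_X_pow_mul', if_pos le_rfl,
    Nat.sub_self, map_zero, PowerSeries.coeff_zero_eq_constantCoeff_apply, map_pow, hu0, one_pow,
    mul_one] at h2
  exact h2

theorem choose_prime_pow_modEq {ℓ : ℕ} (hℓ : ℓ.Prime) (v u : ℕ) :
    (ℓ ^ v * u).choose (ℓ ^ v) ≡ u [MOD ℓ] := by
  have : Fact ℓ.Prime := ⟨hℓ⟩
  induction v with
  | zero => simp [Nat.ModEq.refl]
  | succ v ih =>
    refine Choose.choose_modEq_choose_mod_mul_choose_div_nat.trans ?_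
    rw [pow_succ', mul_assoc, Nat.mul_mod_right, Nat.mul_mod_right, Nat.mul_div_cancel_left _ hℓ.pos,
      Nat.mul_div_cancel_left _ hℓ.pos, Nat.choose_self, one_mul]
    exact ih

/-- Uniform conjugates give a contradiction. -/
theorem eq_zero_of_uniform {k : Type} [Field k] (π : AInt →+* k) {ℓ : ℕ} (hℓ : ℓ.Prime)
    (hℓk : (ℓ : k) = 0) {w : ℕ} (hw : w < 12)
    {F : Option (ZMod p) → ℍ → ℂ} (hF : IsFamily (w : ℤ) F)
    {P : Option (ZMod p) → PowerSeries AInt}
    (hP : ∀ i, HasExp p (F i) (PowerSeries.map toC (P i))) (e : ℕ) (c : k)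
    (hπ : ∀ i, PowerSeries.map π (P i) =
      PowerSeries.C c * PowerSeries.expand p prime_ne_zero (castSeries k (sigmaSeries e))) :
    c = 0 := by
  have : CharP k ℓ := (CharP.charP_iff_prime_eq_zero hℓ).mpr hℓk
  obtain ⟨v, u, hu, hn⟩ := Nat.exists_eq_pow_mul_and_not_dvd (Nat.succ_ne_zero p) ℓ hℓ.ne_one
  have hr : w * ℓ ^ v / 12 < ℓ ^ v := by
    have : 0 < ℓ ^ v := pow_pos hℓ.pos v
    rw [Nat.div_lt_iff_lt_mul (by norm_num)]
    nlinarith
  have key := esymm_obstruction π hF hP hr e (((p + 1).choose (ℓ ^ v) : k) * c ^ (ℓ ^ v)) <| by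
    rw [map_sum]
    rw [Finset.sum_congr rfl fun s hs => by
      rw [map_prod, Finset.prod_congr rfl fun i _ => hπ i, Finset.prod_const,
        (Finset.mem_powersetCard.mp hs).2]]
    rw [Finset.sum_const, Finset.card_powersetCard, Finset.card_univ, Fintype.card_option,
      ZMod.card, nsmul_eq_mul, mul_pow, map_mul, map_natCast, map_pow, mul_assoc]
  have hne : ((p + 1).choose (ℓ ^ v) : k) ≠ 0 := by
    rw [show p + 1 = ℓ ^ v * u from hn,
      (CharP.natCast_eq_natCast k ℓ).mpr (choose_prime_pow_modEq hℓ v u), Ne,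
      CharP.cast_eq_zero_iff k ℓ]
    exact hu
  exact (pow_eq_zero_iff (pow_ne_zero v hℓ.ne_zero)).mp ((mul_eq_zero.mp key).resolve_left hne)

/-- In characteristic `p` one conjugate is irrelevant. -/
theorem eq_zero_of_uniform_some {k : Type} [Field k] (π : AInt →+* k)
    (hpk : (p : k) = 0) {w : ℕ} (hw : w < 12)
    {F : Option (ZMod p) → ℍ → ℂ} (hF : IsFamily (w : ℤ) F)
    {P : Option (ZMod p) → PowerSeries AInt}
    (hP : ∀ i, HasExp p (F i) (PowerSeries.map toC (P i))) (e : ℕ) (c : k)
    (hπ : ∀ j, PowerSeries.map π (P (some j)) =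
      PowerSeries.C c * PowerSeries.expand p prime_ne_zero (castSeries k (sigmaSeries e))) :
    c = 0 := by
  classical
  have hp : p.Prime := Fact.out
  have hr : w * p / 12 < p := by
    rw [Nat.div_lt_iff_lt_mul (by norm_num)]
    nlinarith [hp.pos]
  obtain ⟨q, hq⟩ : ∃ q, p = q + 1 := ⟨p - 1, by have := hp.pos; omega⟩
  set φ := PowerSeries.C c * PowerSeries.expand p prime_ne_zero (castSeries k (sigmaSeries e))
  set U : Finset (Option (ZMod p)) := Finset.univ.map Function.Embedding.some with hU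
  have hcard : U.card = p := by simp [hU]
  have hnone : none ∉ U := by simp [hU]
  have huniv : (Finset.univ : Finset (Option (ZMod p))) = insert none U := by
    ext i; cases i <;> simp [hU]
  have hprod : ∀ s ∈ U.powerset, ∏ i ∈ s, PowerSeries.map π (P i) = φ ^ s.card := fun s hs => by
    rw [← Finset.prod_const]
    refine Finset.prod_congr rfl fun i hi => ?_
    obtain ⟨j, -, rfl⟩ := Finset.mem_map.mp (Finset.mem_powerset.mp hs hi)
    exact hπ j
  have key := esymm_obstruction π hF hP hr e (c ^ p) <| by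
    rw [map_sum, huniv]
    conv_lhs => rw [show (Finset.powersetCard p (insert none U)) =
      Finset.powersetCard (q + 1) (insert none U) by rw [← hq], Finset.powersetCard_succ_insert hnone]
    rw [Finset.sum_union, Finset.sum_image, show q.succ = p from hq.symm]
    · have h1 : ∀ s ∈ U.powersetCard p, PowerSeries.map π (∏ i ∈ s, P i) = φ ^ p := fun s hs => by
        rw [map_prod, hprod s (Finset.mem_powerset.mpr (Finset.mem_powersetCard.mp hs).1),
          (Finset.mem_powersetCard.mp hs).2]
      have h2 : ∀ s ∈ U.powersetCard q, PowerSeries.map π (∏ i ∈ insert none s, P i) =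
          PowerSeries.map π (P none) * φ ^ q := fun s hs => by
        rw [map_prod, Finset.prod_insert fun h => hnone ((Finset.mem_powersetCard.mp hs).1 h),
          hprod s (Finset.mem_powerset.mpr (Finset.mem_powersetCard.mp hs).1),
          (Finset.mem_powersetCard.mp hs).2]
      rw [Finset.sum_congr rfl h1, Finset.sum_congr rfl h2, Finset.sum_const, Finset.sum_const,
        Finset.card_powersetCard, Finset.card_powersetCard, hcard, Nat.choose_self, one_smul,
        show p.choose q = p by rw [hq]; exact Nat.choose_succ_self_right q,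
        nsmul_eq_mul, ← map_natCast (PowerSeries.C (R := k)), hpk, map_zero, zero_mul, add_zero,
        map_pow, mul_pow]
    · intro a ha b hb hab
      have h1 : none ∉ a := fun h => hnone ((Finset.mem_powersetCard.mp ha).1 h)
      have h2 : none ∉ b := fun h => hnone ((Finset.mem_powersetCard.mp hb).1 h)
      simpa [h1, h2] using congrArg (fun t => t.erase (none : Option (ZMod p))) hab
    · rw [Finset.disjoint_left]
      intro s hs hs'
      obtain ⟨t, -, rfl⟩ := Finset.mem_image.mp hs'
      exact hnone ((Finset.mem_powersetCard.mp hs).1 (Finset.mem_insert_self _ _))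
  exact (pow_eq_zero_iff hp.ne_zero).mp key

/-- The family of constants in weight `4`. -/
theorem hasExp_E4_family :
    HasExp p E₄ (PowerSeries.expand p prime_ne_zero (castSeries ℂ e4Z)) := by
  simpa using hasExp_E4.expand (M := p) prime_ne_zero

theorem hasExp_E6_family :
    HasExp p E₆ (PowerSeries.expand p prime_ne_zero (castSeries ℂ e6Z)) := by
  simpa using hasExp_E6.expand (M := p) prime_ne_zero

theorem expand_castSeries_e4 (R : Type*) [CommRing R] :
    PowerSeries.expand p prime_ne_zero (castSeries R e4Z) =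
      1 + (240 : ℤ) • PowerSeries.expand p prime_ne_zero (castSeries R (sigmaSeries 3)) := by
  rw [e4Z, map_add, map_one, map_zsmul, map_add, map_one, map_zsmul]

theorem expand_castSeries_e6 (R : Type*) [CommRing R] :
    PowerSeries.expand p prime_ne_zero (castSeries R e6Z) =
      1 - (504 : ℤ) • PowerSeries.expand p prime_ne_zero (castSeries R (sigmaSeries 5)) := by
  rw [e6Z, map_sub, map_one, map_zsmul, map_sub, map_one, map_zsmul]

theorem not_dvd_two_pow_mul {ℓ : ℕ} (hℓ : ℓ.Prime) (h5 : 5 ≤ ℓ) {a : ℕ} (b : ℕ)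
    (ha : ¬ ℓ ∣ a) : ¬ ℓ ∣ 2 ^ b * a := fun h => by
  rcases hℓ.dvd_mul.mp h with h | h
  · have := Nat.le_of_dvd two_pos (hℓ.dvd_of_dvd_pow h); omega
  · exact ha h

variable {G : ModularForm (Gamma0 p) 2} {C : ℤ} {m : ℕ}

/-- No congruence at `3` when `9 ∣ p + 1`. -/
theorem not_three_dvd (hC : C = (p : ℤ) - 1) (hG : IsCongrConst G C (24 * m))
    (h9 : 9 ∣ p + 1) : ¬ 3 ∣ m := fun h3 => by
  obtain ⟨k, hk, π, hπ3⟩ := exists_residue 3 Nat.prime_three
  obtain ⟨z, hz⟩ := exists_series hG
  obtain ⟨m', rfl⟩ := h3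
  obtain ⟨d, hd⟩ : (9 : ℤ) ∣ (p : ℤ) + 1 := by exact_mod_cast h9
  have h9i : ∀ i, ∃ w : PowerSeries AInt, PowerSeries.C (conjConst p C i : AInt) +
      (24 * ((3 * m' : ℕ) : ℤ)) • z i = PowerSeries.C (-C : AInt) + 9 * w := fun i => by
    cases i with
    | none =>
      refine ⟨PowerSeries.C ((d * C : ℤ) : AInt) + (8 * (m' : ℤ)) • z none, ?_⟩
      have h : ((p : ℤ) * C) = -C + 9 * (d * C) := by linear_combination C * hd
      simp only [conjConst, h, Int.cast_add, Int.cast_neg, Int.cast_mul, Int.cast_ofNat, map_add,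
        map_neg, map_mul, map_ofNat, zsmul_eq_mul]
      push_cast
      ring
    | some j =>
      refine ⟨(8 * (m' : ℤ)) • z (some j), ?_⟩
      simp only [conjConst, Int.cast_neg, zsmul_eq_mul]
      push_cast
      ring
  choose w hw using h9i
  set a := PowerSeries.expand p prime_ne_zero (castSeries AInt (sigmaSeries 3)) with ha
  set P : Option (ZMod p) → PowerSeries AInt := fun i =>
    -6 * PowerSeries.C (C : AInt) * w i + 27 * w i ^ 2 - 80 * PowerSeries.C (C : AInt) ^ 2 * a
    with hPdef
  set F : Option (ZMod p) → ℍ → ℂ :=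
    (3 : ℂ)⁻¹ • (kFamily G * kFamily G - ((C : ℂ) ^ 2) • fun _ => ⇑E₄) with hFdef
  have hfam : IsFamily ((4 : ℕ) : ℤ) F :=
    ((((isFamily_kFamily G).mul (isFamily_kFamily G)).sub ((IsFamily.const E₄).smul _)).smul _ :
      IsFamily (2 + 2) _)
  have hP : ∀ i, HasExp p (F i)
      (PowerSeries.map toC (P i)) := fun i => by
    have h := hz i
    rw [hw] at h
    refine (((h.mul h).sub (hasExp_E4_family.C_mul ((C : ℂ) ^ 2))).C_mul (3 : ℂ)⁻¹).congr rfl ?_
    rw [hPdef, expand_castSeries_e4, ha]
    simp only [map_add, map_sub, map_mul, map_neg, map_pow, map_ofNat,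
      map_intCast, PowerSeries.map_expand, map_castSeries, zsmul_eq_mul]
    have h3 : PowerSeries.C ((3 : ℂ)⁻¹) * 3 = 1 := by
      rw [← map_ofNat (PowerSeries.C (R := ℂ)) 3, ← map_mul, inv_mul_cancel₀ (by norm_num), map_one]
    push_cast
    try rw [map_intCast (PowerSeries.C (R := ℂ))]
    linear_combination (-6 * (C : PowerSeries ℂ) * PowerSeries.map toC (w i) +
      27 * PowerSeries.map toC (w i) ^ 2 - 80 * (C : PowerSeries ℂ) ^ 2 *
        PowerSeries.expand p prime_ne_zero (castSeries ℂ (sigmaSeries 3))) * h3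
  have h0 := eq_zero_of_uniform π Nat.prime_three hπ3
    (w := 4) (by norm_num) hfam hP 3 ((-80 * C ^ 2 : ℤ) : k) fun i => by
    have h3 : (3 : PowerSeries k) = 0 := by
      rw [← map_ofNat (PowerSeries.C (R := k)) 3, show (3 : k) = ((3 : ℕ) : k) by norm_num, hπ3,
        map_zero]
    rw [hPdef, ha]
    simp only [map_add, map_sub, map_mul, map_neg, map_pow, map_ofNat,
      map_intCast, PowerSeries.map_expand, map_castSeries, Int.cast_mul, Int.cast_neg,
      Int.cast_pow, Int.cast_ofNat]
    linear_combination (-2 * (C : PowerSeries k) * PowerSeries.map π (w i) +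
      9 * PowerSeries.map π (w i) ^ 2) * h3
  have : CharP k 3 := (CharP.charP_iff_prime_eq_zero Nat.prime_three).mpr hπ3
  rw [CharP.intCast_eq_zero_iff k 3] at h0
  have h3p : (3 : ℤ) ∣ (p : ℤ) + 1 := (by norm_num : (3 : ℤ) ∣ 9).trans ⟨d, hd⟩
  rcases Int.Prime.dvd_mul' Nat.prime_three h0 with h | h
  · norm_num at h
  · have hC3 : (3 : ℤ) ∣ C := Int.Prime.dvd_pow' Nat.prime_three h
    rw [hC] at hC3
    have := Int.dvd_sub h3p hC3
    norm_num at this

/-- No congruence at primes `ℓ ≥ 5` dividing `p + 1` or equal to `p`. -/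
theorem not_prime_dvd {ℓ : ℕ} (hℓ : ℓ.Prime) (h5 : 5 ≤ ℓ) (hC : C = (p : ℤ) - 1)
    (hG : IsCongrConst G C (24 * m)) (hcase : ℓ ∣ p + 1 ∨ ℓ = p) : ¬ ℓ ∣ m := fun hm => by
  obtain ⟨k, hk, π, hπℓ⟩ := exists_residue ℓ hℓ
  obtain ⟨z, hz⟩ := exists_series hG
  have hchar : CharP k ℓ := (CharP.charP_iff_prime_eq_zero hℓ).mpr hπℓ
  have hM : ((24 * (m : ℤ) : ℤ) : k) = 0 := by
    rw [CharP.intCast_eq_zero_iff k ℓ]
    exact (Int.natCast_dvd_natCast.mpr hm).mul_left 24
  have hCk : (C : k) ≠ 0 := by
    rw [Ne, CharP.intCast_eq_zero_iff k ℓ, hC]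
    intro h
    rcases hcase with h1 | h1
    · have h2 := Int.dvd_sub (Int.natCast_dvd_natCast.mpr h1) h
      rw [show ((p + 1 : ℕ) : ℤ) - ((p : ℤ) - 1) = 2 by push_cast; ring] at h2
      have := Int.le_of_dvd two_pos h2
      omega
    · subst h1
      have h2 : (ℓ : ℤ) ∣ 1 := by simpa using Int.dvd_sub (dvd_refl (ℓ : ℤ)) h
      have := Int.le_of_dvd one_pos h2
      omega
  have hM' : ((24 * (m : ℤ) : ℤ) : PowerSeries k) = 0 := by
    rw [← map_intCast (PowerSeries.C (R := k)), hM, map_zero]
  set K := fun i => PowerSeries.C (conjConst p C i : AInt) + (24 * (m : ℤ)) • z i with hK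
  have hsome : ∀ j, PowerSeries.map π (K (some j)) = -PowerSeries.C (C : k) := fun j => by
    simp only [hK, map_add, map_zsmul, map_intCast]
    rw [zsmul_eq_mul, hM']
    simp [conjConst]
  have hnone : ℓ ∣ p + 1 → PowerSeries.map π (K none) = -PowerSeries.C (C : k) := fun h => by
    have hp1 : (p : k) = -1 := by
      have := (CharP.cast_eq_zero_iff k ℓ (p + 1)).mpr h
      push_cast at this
      exact eq_neg_of_add_eq_zero_left this
    simp only [hK, map_add, map_zsmul, map_intCast]
    rw [zsmul_eq_mul, hM']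
    have hp2 : (p : PowerSeries k) = -1 := by
      rw [← map_natCast (PowerSeries.C (R := k)), hp1, map_neg, map_one]
    simp [conjConst, hp2]
  have finish : ∀ (w : ℕ) (_ : w < 12) (F : Option (ZMod p) → ℍ → ℂ) (_ : IsFamily (w : ℤ) F)
      (Y : PowerSeries AInt → PowerSeries AInt) (_ : ∀ i, HasExp p (F i)
        (PowerSeries.map toC (Y (K i)))) (e : ℕ) (c : k)
      (_ : ∀ P, PowerSeries.map π P = -PowerSeries.C (C : k) → PowerSeries.map π (Y P) =
        PowerSeries.C c * PowerSeries.expand p prime_ne_zero (castSeries k (sigmaSeries e))),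
      c = 0 := by
    intro w hw F hF Y hY e c hc
    rcases hcase with h | h
    · exact eq_zero_of_uniform π hℓ hπℓ hw hF hY e c fun i => hc _ <| by
        cases i with
        | none => exact hnone h
        | some j => exact hsome j
    · exact eq_zero_of_uniform_some π (h ▸ hπℓ) hw hF hY e c fun j => hc _ (hsome j)
  by_cases hl5 : ℓ = 5
  · set a := PowerSeries.expand p prime_ne_zero (castSeries AInt e6Z) with ha
    have h := finish 6 (by norm_num)
      (kFamily G * kFamily G * kFamily G + ((C : ℂ) ^ 3) • fun _ => ⇑E₆)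
      ((((isFamily_kFamily G).mul (isFamily_kFamily G)).mul (isFamily_kFamily G)).add
        (((IsFamily.const E₆).smul _ : IsFamily (2 + 2 + 2) _)) : IsFamily (2 + 2 + 2) _)
      (fun P => P * P * P + PowerSeries.C (C : AInt) ^ 3 * a)
      (fun i => ((((hz i).mul (hz i)).mul (hz i)).add (hasExp_E6_family.C_mul _)).congr rfl (by
        simp only [hK, ha, map_add, map_mul, map_pow, map_intCast,
          PowerSeries.map_expand, map_castSeries]))
      5 ((-504 * C ^ 3 : ℤ) : k) (fun P hP => by
        simp only [map_add, map_mul, map_pow, map_intCast, hP, ha,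
          PowerSeries.map_expand, map_castSeries]
        simp only [expand_castSeries_e6, Int.cast_mul, Int.cast_neg,
          Int.cast_pow, Int.cast_ofNat, zsmul_eq_mul]
        ring)
    rw [CharP.intCast_eq_zero_iff k ℓ] at h
    rcases Int.Prime.dvd_mul' hℓ h with h1 | h1
    · subst hl5; norm_num at h1
    · exact hCk ((CharP.intCast_eq_zero_iff k ℓ C).mpr (Int.Prime.dvd_pow' hℓ h1))
  · set a := PowerSeries.expand p prime_ne_zero (castSeries AInt e4Z) with ha
    have h := finish 4 (by norm_num)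
      (kFamily G * kFamily G - ((C : ℂ) ^ 2) • fun _ => ⇑E₄)
      (((isFamily_kFamily G).mul (isFamily_kFamily G)).sub
        (((IsFamily.const E₄).smul _ : IsFamily (2 + 2) _)) : IsFamily (2 + 2) _)
      (fun P => P * P - PowerSeries.C (C : AInt) ^ 2 * a)
      (fun i => (((hz i).mul (hz i)).sub (hasExp_E4_family.C_mul _)).congr rfl (by
        simp only [hK, ha, map_sub, map_mul, map_pow, map_intCast,
          PowerSeries.map_expand, map_castSeries]))
      3 ((-240 * C ^ 2 : ℤ) : k) (fun P hP => by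
        simp only [map_sub, map_mul, map_pow, map_intCast, hP, ha,
          PowerSeries.map_expand, map_castSeries]
        simp only [expand_castSeries_e4, Int.cast_mul, Int.cast_neg,
          Int.cast_pow, Int.cast_ofNat, zsmul_eq_mul]
        ring)
    rw [CharP.intCast_eq_zero_iff k ℓ] at h
    rcases Int.Prime.dvd_mul' hℓ h with h1 | h1
    · have h15 : ¬ ℓ ∣ 15 := fun hd => by
        rcases hℓ.dvd_mul.mp (show ℓ ∣ 3 * 5 from hd) with h2 | h2
        · have := Nat.le_of_dvd (by norm_num) h2; omega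
        · exact hl5 ((Nat.prime_dvd_prime_iff_eq hℓ Nat.prime_five).mp h2)
      exact not_dvd_two_pow_mul hℓ h5 4 h15 (by
        have := Int.natCast_dvd.mp h1
        simpa using this)
    · exact hCk ((CharP.intCast_eq_zero_iff k ℓ C).mpr (Int.Prime.dvd_pow' hℓ h1))

end Fermat.Agent.EisensteinIndex

end
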