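import Mathlib.Analysis.Complex.Polynomial.Basic
import Fermat.Agent.EisensteinIndex.OddPrimes

/-!
# The prime two: integrality of values at a zero of `E₄`
-/

set_option autoImplicit false

noncomputable section

open UpperHalfPlane CongruenceSubgroup ModularGroup ModularForm
open scoped MatrixGroups Manifold ModularForm

namespace Fermat.Agent.EisensteinIndex

variable {p : ℕ} [Fact p.Prime]

/-- A point of the upper half plane with `τ² + τ + 1 = 0`. -/
def rho : ℍ := ⟨⟨-1 / 2, Real.sqrt 3 / 2⟩, div_pos (Real.sqrt_pos.mpr (by norm_num)) two_pos⟩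

theorem rho_sq : (rho : ℂ) ^ 2 + rho + 1 = 0 := by
  have h : Real.sqrt 3 * Real.sqrt 3 = 3 := Real.mul_self_sqrt (by norm_num)
  rw [pow_two]
  apply Complex.ext <;> simp [rho] <;> first | linear_combination (-1 / 4 : ℝ) * h | ring

theorem E4_rho : E₄ rho = 0 := by
  set r : ℂ := (rho : ℂ)
  have hr : r ^ 2 + r + 1 = 0 := rho_sq
  have hr0 : r ≠ 0 := ne_zero rho
  have hr1 : r + 1 ≠ 0 := fun h => hr0 (by
    have : r ^ 2 = 0 := by linear_combination hr - h
    exact (pow_eq_zero_iff two_ne_zero).mp this)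
  have hfix : (S * T : SL(2, ℤ)) • rho = rho := by
    refine UpperHalfPlane.ext ?_
    rw [mul_smul, modular_S_smul]
    change (-((T • rho : ℍ) : ℂ))⁻¹ = r
    rw [show ((T • rho : ℍ) : ℂ) = r + 1 by
      have := ModularGroup.coe_T_zpow_smul_eq (z := rho) (n := 1)
      simpa using this]
    refine inv_eq_of_mul_eq_one_left ?_
    linear_combination -hr
  have hinv : ⇑E₄ ∣[(4 : ℤ)] (S * T : SL(2, ℤ)) = ⇑E₄ :=
    SlashInvariantFormClass.slash_action_eq E₄ _ ⟨S * T, rfl⟩
  have h := congrFun hinv rho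
  rw [ModularForm.SL_slash_apply, hfix] at h
  have hd : denom (S * T : SL(2, ℤ)) rho = r + 1 := by
    simp [denom, coe_S, coe_T, Matrix.mul_apply, Fin.sum_univ_succ, r]
  rw [hd] at h
  by_contra hne
  have h4 : (r + 1) ^ (-4 : ℤ) = 1 := mul_left_cancel₀ hne (h.trans (mul_one _).symm)
  rw [zpow_neg, inv_eq_one, zpow_ofNat] at h4
  have h3 : r ^ 3 = 1 := by linear_combination (r - 1) * hr
  have h2 : (r + 1) ^ 4 = r ^ 2 := by linear_combination (r ^ 2 + 3 * r + 1) * hr
  rw [h2] at h4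
  have h1 : r = 1 := by linear_combination h3 - r * h4
  rw [h1] at hr
  norm_num at hr

theorem exists_root_scale : ∃ t : ℂ, t ≠ 0 ∧ E₆ rho = -216 * t ^ 6 := by
  obtain ⟨t, ht⟩ := IsAlgClosed.exists_pow_nat_eq (E₆ rho / -216) (show 0 < 6 by norm_num)
  refine ⟨t, fun h0 => discriminant_ne_zero rho ?_, by rw [ht]; ring⟩
  have h6 : E₆ rho = 0 := by
    rw [h0, zero_pow (by norm_num), eq_comm, div_eq_zero_iff] at ht
    exact ht.resolve_right (by norm_num)
  rw [discriminant_eq_E₄_cube_sub_E₆_sq, E4_rho, h6]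
  ring

/-- The normalised values of a family with integral expansions are algebraic integers. -/
theorem isIntegral_family_value {t : ℂ} (ht : t ≠ 0) (h6 : E₆ rho = -216 * t ^ 6) {w : ℕ}
    {F : Option (ZMod p) → ℍ → ℂ} (hF : IsFamily (w : ℤ) F)
    {P : Option (ZMod p) → PowerSeries AInt}
    (hP : ∀ i, HasExp p (F i) (PowerSeries.map toC (P i))) (i : Option (ZMod p)) :
    IsIntegral ℤ (F i rho / t ^ w) := by
  classical
  set x : Option (ZMod p) → ℂ := fun j => F j rho / t ^ w with hx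
  have hcoeff : ∀ r, ∃ z : AInt,
      ∑ s ∈ (Finset.univ : Finset (Option (ZMod p))).powersetCard r, ∏ j ∈ s, x j = z := by
    intro r
    set f : ModularForm 𝒮ℒ ((w * r : ℕ) : ℤ) :=
      ModularForm.mcast (by push_cast; rfl) (hF.esymmForm r) with hf
    set S := ∑ s ∈ (Finset.univ : Finset (Option (ZMod p))).powersetCard r, ∏ j ∈ s, P j
    have hexp : HasExp p f (PowerSeries.map toC S) := by
      refine (HasExp.finsetSum fun s _ => HasExp.finsetProd fun j _ => hP j).congr
        (by rw [coe_mcast, hF.coe_esymmForm]; rfl) ?_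
      simp [S, map_sum, map_prod]
    set P1 : PowerSeries AInt := PowerSeries.mk fun n => S.coeff (p * n)
    have hP1 : PowerSeries.map toC P1 = qExpansion 1 f := PowerSeries.ext fun n => by
      rw [PowerSeries.coeff_map, PowerSeries.coeff_mk, ← PowerSeries.coeff_map,
        coeff_eq_qExpansion f hexp, PowerSeries.coeff_expand_mul]
    obtain ⟨z, hz⟩ := isIntegral_value rho t E4_rho h6 (w * r) f P1 hP1
    refine ⟨z, ?_⟩
    rw [hf, coe_mcast, hF.coe_esymmForm, IsFamily.esymmFun, Finset.sum_apply] at hz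
    rw [← mul_div_cancel_right₀ (z : ℂ) (pow_ne_zero (w * r) ht), ← hz, Finset.sum_div]
    refine Finset.sum_congr rfl fun s hs => ?_
    rw [Finset.prod_apply, hx, Finset.prod_div_distrib, Finset.prod_const,
      (Finset.mem_powersetCard.mp hs).2, pow_mul]
  set Q : Polynomial ℂ := ∏ j : Option (ZMod p), (Polynomial.X - Polynomial.C (x j))
  have hQ : Q.Monic := Polynomial.monic_prod_of_monic _ _ fun j _ => Polynomial.monic_X_sub_C _
  have hlift : Q ∈ Polynomial.lifts (algebraMap AInt ℂ) := by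
    rw [Polynomial.lifts_iff_coeff_lifts]
    intro n
    by_cases hn : n ≤ Fintype.card (Option (ZMod p))
    · obtain ⟨z, hz⟩ := hcoeff (Fintype.card (Option (ZMod p)) - n)
      refine ⟨(-1) ^ (Fintype.card (Option (ZMod p)) - n) * z, ?_⟩
      have hQ' : Q = ((Finset.univ.val.map x).map
          fun a => Polynomial.X - Polynomial.C a).prod := by
        rw [Multiset.map_map]
        rfl
      have hcard : Multiset.card (Finset.univ.val.map x) = Fintype.card (Option (ZMod p)) := by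
        rw [Multiset.card_map]
        rfl
      rw [hQ', Multiset.prod_X_sub_C_coeff _ (hcard ▸ hn), hcard, Finset.esymm_map_val, hz,
        map_mul, map_pow, map_neg, map_one]
      rfl
    · refine ⟨0, ?_⟩
      rw [map_zero, Polynomial.coeff_eq_zero_of_natDegree_lt]
      rw [Polynomial.natDegree_prod_of_monic _ _ fun j _ => Polynomial.monic_X_sub_C _]
      simp only [Polynomial.natDegree_X_sub_C, Finset.sum_const, Finset.card_univ, smul_eq_mul,
        mul_one]
      omega
  obtain ⟨R, hR, -, hRm⟩ := Polynomial.lifts_and_degree_eq_and_monic hlift hQ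
  refine isIntegral_trans (R := ℤ) (A := AInt) _ ⟨R, hRm, ?_⟩
  rw [Polynomial.eval₂_eq_eval_map, hR, Polynomial.eval_prod]
  exact Finset.prod_eq_zero (Finset.mem_univ i) (by simp [hx])

variable {G : ModularForm (Gamma0 p) 2} {C : ℤ} {m : ℕ}

/-- No congruence at `2` when `p ≡ 7 [MOD 8]`. -/
theorem not_two_dvd (hC : C = (p : ℤ) - 1) (hG : IsCongrConst G C (24 * m))
    (h8 : p % 8 = 7) : ¬ 2 ∣ m := fun h2 => by
  obtain ⟨z, hz⟩ := exists_series hG
  obtain ⟨m', rfl⟩ := h2
  obtain ⟨d, hd⟩ : (8 : ℤ) ∣ (p : ℤ) + 1 := ⟨(p / 8 + 1 : ℕ), by push_cast; omega⟩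
  obtain ⟨c, hc, hcodd⟩ : ∃ c : ℤ, C = 2 * c ∧ Odd c :=
    ⟨4 * d - 1, by rw [hC]; linarith, ⟨2 * d - 1, by ring⟩⟩
  have hK : ∀ i, ∃ x : PowerSeries AInt, PowerSeries.C (conjConst p C i : AInt) +
      (24 * ((2 * m' : ℕ) : ℤ)) • z i = -2 * (PowerSeries.C (c : AInt) + 8 * x) := fun i => by
    cases i with
    | none =>
      refine ⟨-(PowerSeries.C ((d * c : ℤ) : AInt)) - (3 * (m' : ℤ)) • z none, ?_⟩
      have h : ((p : ℤ) * C) = -2 * c + 16 * (d * c) := by rw [hc]; linear_combination 2 * c * hd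
      simp only [conjConst, h, Int.cast_add, Int.cast_neg, Int.cast_mul, Int.cast_ofNat, map_add,
        map_neg, map_mul, map_ofNat, zsmul_eq_mul]
      push_cast
      ring
    | some j =>
      refine ⟨-((3 * (m' : ℤ)) • z (some j)), ?_⟩
      simp only [conjConst, hc, Int.cast_neg, Int.cast_mul, Int.cast_ofNat, map_neg, map_mul,
        map_ofNat, zsmul_eq_mul]
      push_cast
      ring
  choose x hx using hK
  set H : Option (ZMod p) → ℍ → ℂ := (-(2 : ℂ)⁻¹) • kFamily G with hH
  have hHfam : IsFamily 2 H := (isFamily_kFamily G).smul _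
  have hHexp : ∀ i, HasExp p (H i)
      (PowerSeries.map toC (PowerSeries.C (c : AInt) + 8 * x i)) := fun i => by
    have h := hz i
    rw [hx] at h
    refine (h.C_mul (-(2 : ℂ)⁻¹)).congr rfl ?_
    have h2 : PowerSeries.C ((2 : ℂ)⁻¹) * 2 = 1 := by
      rw [← map_ofNat (PowerSeries.C (R := ℂ)) 2, ← map_mul, inv_mul_cancel₀ two_ne_zero, map_one]
    simp only [map_mul, map_neg, map_ofNat]
    linear_combination PowerSeries.map toC (PowerSeries.C (c : AInt) + 8 * x i) * h2
  set a := PowerSeries.expand p prime_ne_zero (castSeries AInt (sigmaSeries 3)) with ha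
  set s := PowerSeries.expand p prime_ne_zero (castSeries AInt mixZ) with hs
  set b := PowerSeries.expand p prime_ne_zero (castSeries ℂ (sigmaSeries 5))
  have h12 : (12 : PowerSeries ℂ) * PowerSeries.map toC s =
      5 * PowerSeries.map toC a + 7 * b := by
    have h := congrArg (fun P => PowerSeries.expand p prime_ne_zero (castSeries ℂ P)) twelve_mul_mixZ
    simp only [zsmul_eq_mul, map_add, map_mul, map_intCast] at h
    push_cast at h
    rw [hs, ha, PowerSeries.map_expand, PowerSeries.map_expand, map_castSeries, map_castSeries]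
    exact h
  set Q : Option (ZMod p) → ℍ → ℂ :=
    (16 : ℂ)⁻¹ • (H * H - ((c : ℂ) ^ 2) • fun _ => ⇑E₄) with hQ
  have hQfam : IsFamily ((4 : ℕ) : ℤ) Q :=
    (((hHfam.mul hHfam).sub ((IsFamily.const E₄).smul _)).smul _ : IsFamily (2 + 2) _)
  have hQexp : ∀ i, HasExp p (Q i) (PowerSeries.map toC (PowerSeries.C (c : AInt) * x i +
      4 * x i ^ 2 - 15 * PowerSeries.C (c : AInt) ^ 2 * a)) := fun i => by
    refine ((((hHexp i).mul (hHexp i)).sub (hasExp_E4_family.C_mul ((c : ℂ) ^ 2))).C_mul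
      (16 : ℂ)⁻¹).congr rfl ?_
    have h16 : PowerSeries.C ((16 : ℂ)⁻¹) * 16 = 1 := by
      rw [← map_ofNat (PowerSeries.C (R := ℂ)) 16, ← map_mul, inv_mul_cancel₀ (by norm_num), map_one]
    simp only [ha, map_add, map_sub, map_mul, map_pow, map_ofNat, map_intCast,
      PowerSeries.map_expand, map_castSeries, expand_castSeries_e4, zsmul_eq_mul]
    push_cast
    linear_combination (c * PowerSeries.map toC (x i) + 4 * PowerSeries.map toC (x i) ^ 2 -
      15 * (c : PowerSeries ℂ) ^ 2 *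
        PowerSeries.expand p prime_ne_zero (castSeries ℂ (sigmaSeries 3))) * h16
  set F : Option (ZMod p) → ℍ → ℂ := (64 : ℂ)⁻¹ •
    ((3 * (c : ℂ) ^ 2) • (H * fun _ => ⇑E₄) - (2 * (c : ℂ) ^ 3) • (fun _ => ⇑E₆) - H * H * H)
    with hF
  have hFfam : IsFamily ((6 : ℕ) : ℤ) F := by
    refine (IsFamily.sub (IsFamily.sub ?_ ?_) ?_).smul _
    · exact ((hHfam.mul (IsFamily.const E₄)).smul _ : IsFamily (2 + 4) _)
    · exact (IsFamily.const E₆).smul _
    · exact ((hHfam.mul hHfam).mul hHfam : IsFamily (2 + 2 + 2) _)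
  have hFexp : ∀ i, HasExp p (F i) (PowerSeries.map toC (27 * PowerSeries.C (c : AInt) ^ 3 * s +
      90 * PowerSeries.C (c : AInt) ^ 2 * x i * a - 3 * PowerSeries.C (c : AInt) * x i ^ 2 -
      8 * x i ^ 3)) := fun i => by
    refine (((((hHexp i).mul hasExp_E4_family).C_mul (3 * (c : ℂ) ^ 2)).sub
      (hasExp_E6_family.C_mul (2 * (c : ℂ) ^ 3))).sub
      (((hHexp i).mul (hHexp i)).mul (hHexp i)) |>.C_mul (64 : ℂ)⁻¹).congr rfl ?_
    have h64 : PowerSeries.C ((64 : ℂ)⁻¹) * 64 = 1 := by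
      rw [← map_ofNat (PowerSeries.C (R := ℂ)) 64, ← map_mul, inv_mul_cancel₀ (by norm_num), map_one]
    rw [ha] at h12
    simp only [ha, map_add, map_sub, map_mul, map_pow, map_ofNat, map_intCast,
      PowerSeries.map_expand, map_castSeries, expand_castSeries_e4, expand_castSeries_e6,
      zsmul_eq_mul] at h12 ⊢
    push_cast
    linear_combination (27 * (c : PowerSeries ℂ) ^ 3 * PowerSeries.map toC s +
      90 * (c : PowerSeries ℂ) ^ 2 * PowerSeries.map toC (x i) *
        PowerSeries.expand p prime_ne_zero (castSeries ℂ (sigmaSeries 3)) -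
      3 * (c : PowerSeries ℂ) * PowerSeries.map toC (x i) ^ 2 -
      8 * PowerSeries.map toC (x i) ^ 3) * h64 -
      144 * (c : PowerSeries ℂ) ^ 3 * PowerSeries.C ((64 : ℂ)⁻¹) * h12
  obtain ⟨t, ht, h6⟩ := exists_root_scale
  set h := H none rho / t ^ 2 with hh
  have hQv : IsIntegral ℤ ((h / 4) ^ 2) := by
    have := isIntegral_family_value ht h6 hQfam hQexp none
    rwa [show Q none rho / t ^ 4 = (h / 4) ^ 2 by simp [hQ, hh, E4_rho]; ring] at this
  have hh4 : IsIntegral ℤ (h / 4) := IsIntegral.of_pow two_pos hQv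
  have hFv : IsIntegral ℤ (27 * (c : ℂ) ^ 3 / 4 - (h / 4) ^ 3) := by
    have := isIntegral_family_value ht h6 hFfam hFexp none
    rwa [show F none rho / t ^ 6 = 27 * (c : ℂ) ^ 3 / 4 - (h / 4) ^ 3 by
      simp [hF, hh, E4_rho, h6]; field_simp; ring] at this
  have hq : IsIntegral ℤ (27 * (c : ℂ) ^ 3 / 4) := by
    simpa using hFv.add (hh4.pow 3)
  obtain ⟨n, hn⟩ := exists_int_eq_of_rat ⟨_, hq⟩ (27 * (c : ℚ) ^ 3 / 4) (by simp)
  have h4 : 27 * c ^ 3 = 4 * n := by
    have : (27 : ℚ) * (c : ℚ) ^ 3 = 4 * n := by linarith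
    exact_mod_cast this
  have hodd : Odd (27 * c ^ 3) := Odd.mul (by decide) hcodd.pow
  rw [h4, Int.odd_iff, Int.mul_emod] at hodd
  norm_num at hodd

end Fermat.Agent.EisensteinIndex

end
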