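import Fermat.Prelude.Def_ModularCurve_ModularUnit
import Fermat.Agent.EisensteinIndex.Two

/-!
# The modulus of an Eisenstein congruence divides the numerator of `(p-1)/12`
-/

set_option autoImplicit false

noncomputable section

open UpperHalfPlane CongruenceSubgroup ModularCurve

namespace Fermat.Agent.EisensteinIndex

variable {p : ℕ} [Fact p.Prime]

theorem numerator_mul_gcd (p : ℕ) : eisensteinNumerator p * Nat.gcd (p - 1) 12 = p - 1 :=
  Nat.div_mul_cancel (Nat.gcd_dvd_left _ _)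

omit [Fact (Nat.Prime p)] in
theorem dvd_numerator_of_dvd_sub_one {ℓ e : ℕ} (hℓ : ℓ.Prime) (h5 : 5 ≤ ℓ)
    (h : ℓ ^ e ∣ p - 1) : ℓ ^ e ∣ eisensteinNumerator p := by
  rw [← numerator_mul_gcd p] at h
  refine (Nat.Coprime.dvd_of_dvd_mul_right (Nat.Coprime.pow_left e ?_) h)
  refine Nat.Coprime.coprime_dvd_right (Nat.gcd_dvd_right _ _) ?_
  rw [hℓ.coprime_iff_not_dvd]
  intro hd
  have : ℓ ≤ 12 := Nat.le_of_dvd (by norm_num) hd
  interval_cases ℓ <;> revert hd hℓ <;> norm_num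

omit [Fact (Nat.Prime p)] in
theorem dvd_numerator_aux {ℓ a e : ℕ} (hℓ : ℓ.Prime) (ha : ℓ ^ a ∣ 12) (ha' : ¬ ℓ ^ (a + 1) ∣ 12)
    (h : ℓ ^ (e + a) ∣ p - 1) : ℓ ^ e ∣ eisensteinNumerator p := by
  obtain ⟨g', hg'⟩ : ℓ ^ a ∣ Nat.gcd (p - 1) 12 :=
    Nat.dvd_gcd ((pow_dvd_pow ℓ (by omega)).trans h) ha
  have hco : (ℓ ^ e).Coprime g' := by
    refine Nat.Coprime.pow_left e (hℓ.coprime_iff_not_dvd.mpr fun hd => ha' ?_)
    rw [pow_succ]
    exact (mul_dvd_mul_left _ hd).trans (hg' ▸ Nat.gcd_dvd_right _ _)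
  rw [← numerator_mul_gcd p, hg', pow_add, mul_comm (ℓ ^ a) g', ← mul_assoc,
    Nat.mul_dvd_mul_iff_right (pow_pos hℓ.pos a)] at h
  exact hco.dvd_of_dvd_mul_right h

/-- The upper bound on Eisenstein congruences. -/
theorem dvd_eisensteinNumerator (hp : 5 ≤ p) {G : ModularForm (Gamma0 p) 2} {m : ℕ}
    (hG : IsCongrConst G ((p : ℤ) - 1) (24 * m)) : m ∣ eisensteinNumerator p := by
  have hpp : p.Prime := Fact.out
  have hA : 24 * m ∣ (p - 1) * (p ^ 11 * (p + 1)) := by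
    have h := dvd_of_isCongrConst hG
    rw [show ((p : ℤ) - 1) = ((p - 1 : ℕ) : ℤ) by push_cast [show 1 ≤ p by omega]; ring] at h
    exact_mod_cast h
  rw [Nat.dvd_iff_prime_pow_dvd_dvd]
  intro ℓ e hℓ hdvd
  rcases Nat.eq_zero_or_pos e with rfl | he
  · simp
  have hℓm : ℓ ∣ m := (dvd_pow_self ℓ he.ne').trans hdvd
  by_cases h5 : 5 ≤ ℓ
  · have h1 : ¬ ℓ ∣ p + 1 := fun h => not_prime_dvd hℓ h5 rfl hG (Or.inl h) hℓm
    have h2 : ℓ ≠ p := fun h => not_prime_dvd hℓ h5 rfl hG (Or.inr h) hℓm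
    have hco : (ℓ ^ e).Coprime (p ^ 11 * (p + 1)) :=
      Nat.Coprime.pow_left e (Nat.Coprime.mul_right
        (((Nat.coprime_primes hℓ hpp).mpr h2).pow_right 11) (hℓ.coprime_iff_not_dvd.mpr h1))
    exact dvd_numerator_of_dvd_sub_one hℓ h5
      (hco.dvd_of_dvd_mul_right ((hdvd.mul_left 24).trans hA))
  have hℓ23 : ℓ = 2 ∨ ℓ = 3 := by
    have h2 := hℓ.two_le
    interval_cases ℓ <;> first | omega | exact absurd hℓ (by norm_num)
  have hpodd : p % 2 = 1 := (hpp.eq_two_or_odd).resolve_left (by omega)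
  rcases hℓ23 with rfl | rfl
  · have h7 : ¬ p % 8 = 7 := fun h => not_two_dvd rfl hG h hℓm
    have hB : 2 ^ (e + 3) ∣ (p - 1) * (p + 1) := by
      have h : 2 ^ (e + 3) ∣ (p - 1) * (p + 1) * p ^ 11 := by
        refine Dvd.dvd.trans ?_ (show 24 * m ∣ _ by rw [mul_assoc, mul_comm (p + 1)]; exact hA)
        rw [pow_add]
        exact (mul_dvd_mul hdvd (by norm_num : (2 ^ 3 : ℕ) ∣ 24)).trans (by rw [mul_comm])
      exact (Nat.Coprime.pow _ 11 ((Nat.coprime_primes Nat.prime_two hpp).mpr (by omega))).dvd_of_dvd_mul_right h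
    rcases (show p % 4 = 1 ∨ p % 8 = 3 by omega) with h4 | h8
    · refine dvd_numerator_aux Nat.prime_two (a := 2) (by norm_num) (by norm_num) ?_
      obtain ⟨u, hu⟩ : ∃ u, p + 1 = 2 * (2 * u + 1) := ⟨p / 4, by omega⟩
      rw [hu, show e + 3 = (e + 2) + 1 by rfl, pow_succ, ← mul_assoc, mul_comm (p - 1) 2,
        mul_assoc, mul_comm (2 ^ (e + 2)) 2, Nat.mul_dvd_mul_iff_left (by norm_num)] at hB
      exact (Nat.Coprime.pow_left _ (by simp)).dvd_of_dvd_mul_right hB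
    · exfalso
      obtain ⟨u, hu⟩ : ∃ u, p + 1 = 4 * (2 * u + 1) := ⟨p / 8, by omega⟩
      obtain ⟨u', hu'⟩ : ∃ u', p - 1 = 2 * (2 * u' + 1) := ⟨p / 4, by omega⟩
      rw [hu, hu', show 2 * (2 * u' + 1) * (4 * (2 * u + 1)) =
        2 ^ 3 * ((2 * u' + 1) * (2 * u + 1)) by ring, pow_add, mul_comm (2 ^ e),
        Nat.mul_dvd_mul_iff_left (by norm_num)] at hB
      have := (dvd_pow_self 2 he.ne').trans hB
      rw [← even_iff_two_dvd, Nat.even_mul] at this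
      simp at this
  · have h9 : ¬ 9 ∣ p + 1 := fun h => not_three_dvd rfl hG h hℓm
    have hp3 : p % 3 ≠ 0 := fun h => by
      have := (Nat.prime_dvd_prime_iff_eq Nat.prime_three hpp).mp (Nat.dvd_of_mod_eq_zero h)
      omega
    have hB : 3 ^ (e + 1) ∣ (p - 1) * (p + 1) := by
      have h : 3 ^ (e + 1) ∣ (p - 1) * (p + 1) * p ^ 11 := by
        refine Dvd.dvd.trans ?_ (show 24 * m ∣ _ by rw [mul_assoc, mul_comm (p + 1)]; exact hA)
        rw [pow_add]
        exact (mul_dvd_mul hdvd (by norm_num : (3 ^ 1 : ℕ) ∣ 24)).trans (by rw [mul_comm])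
      exact (Nat.Coprime.pow _ 11 ((Nat.coprime_primes Nat.prime_three hpp).mpr (by omega))).dvd_of_dvd_mul_right h
    rcases (show p % 3 = 1 ∨ p % 3 = 2 by omega) with h1 | h2
    · refine dvd_numerator_aux Nat.prime_three (a := 1) (by norm_num) (by norm_num) ?_
      exact (Nat.Coprime.pow_left _ (Nat.prime_three.coprime_iff_not_dvd.mpr (by omega))).dvd_of_dvd_mul_right hB
    · exfalso
      have hco : Nat.Coprime (3 ^ (e + 1)) (p - 1) :=
        Nat.Coprime.pow_left _ (Nat.prime_three.coprime_iff_not_dvd.mpr (by omega))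
      exact h9 ((pow_dvd_pow 3 (by omega : 2 ≤ e + 1)).trans (hco.dvd_of_dvd_mul_left hB))

end Fermat.Agent.EisensteinIndex

end
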