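import Fermat.Agent.EisensteinIndex.Eisenstein
import Fermat.Agent.EisensteinIndex.ThetaModular
import Fermat.Agent.EisensteinIndex.UpperBound
import Mathlib.NumberTheory.ModularForms.CuspFormSubmodule

/-!
# An integral cusp form congruent to the Eisenstein series
-/

set_option autoImplicit false

noncomputable section

open UpperHalfPlane CongruenceSubgroup ModularCurve Filter
open scoped MatrixGroups Manifold ModularForm Topology

namespace Fermat.Agent.EisensteinIndex

variable {p : ℕ} [Fact p.Prime]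

theorem isZeroAtImInfty_of_coeff_zero {k : ℤ} (f : ModularForm (Gamma0 p) k)
    (h : (qExpansion 1 f).coeff 0 = 0) : IsZeroAtImInfty f := by
  have hΓ := one_mem_strictPeriods_Gamma0 p
  have : Fact (IsCusp OnePoint.infty (Gamma0 p : Subgroup (GL (Fin 2) ℝ))) :=
    ⟨Subgroup.isCusp_of_mem_strictPeriods one_pos hΓ⟩
  refine ModularForm.isZeroAtImInfty_of_valueAtInfty_eq_zero f ?_
  rwa [← qExpansion_coeff_zero one_pos (ModularFormClass.analyticAt_cuspFunction_zero f one_pos hΓ)
    (SlashInvariantFormClass.periodic_comp_ofComplex f hΓ)]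

/-- A weight two form with vanishing constant term is a cusp form. -/
theorem exists_cuspForm_of_coeff_zero (f : ModularForm (Gamma0 p) 2)
    (h : (qExpansion 1 f).coeff 0 = 0) : ∃ g : CuspForm (Gamma0 p) 2, ⇑g = ⇑f := by
  have hat : IsZeroAtImInfty (atkin p ⇑f) := by
    rw [← coe_atkinForm]
    refine isZeroAtImInfty_of_coeff_zero _ ?_
    rw [coe_atkinForm, coeff_qExpansion_atkin, zero_mul, h, neg_zero]
  have hall : ∀ i : Option (ZMod p), IsZeroAtImInfty (conj ⇑f 2 i) := by
    intro i
    cases i with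
    | none => rw [conj_none]; exact isZeroAtImInfty_of_coeff_zero f h
    | some j =>
      rw [conj, rep_some, ← atkin_slash_heckeMatrix (p := p)]
      have hh : atkin p ⇑f ∣[(2 : ℤ)] ModularForm.heckeMatrix p j.val =
          (p : ℂ)⁻¹ • (atkin p ⇑f ∘ fun τ => ModularForm.heckeMatrix p j.val • τ) :=
        funext fun τ => ModularForm.slash_heckeMatrix_apply 2 prime_ne_zero _ _ τ
      rw [hh]
      have he : Tendsto (fun τ : ℍ => ModularForm.heckeMatrix p j.val • τ) atImInfty atImInfty := by
        rw [atImInfty, tendsto_comap_iff]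
        have : (fun τ : ℍ => (ModularForm.heckeMatrix p j.val • τ).im) =
            fun τ : ℍ => (p : ℝ)⁻¹ * τ.im := funext fun τ => by
          have h := congrArg Complex.im (ModularForm.coe_heckeMatrix_smul (prime_ne_zero (p := p)) j.val τ)
          simp only [Complex.div_natCast_im, Complex.add_im, Complex.natCast_im, add_zero] at h
          rw [← coe_im, ← coe_im, h]
          ring
        rw [Function.comp_def, this]
        exact tendsto_comap.const_mul_atTop (inv_pos.mpr (Nat.cast_pos.mpr (Fact.out : p.Prime).pos))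
      have h0 := (hat.comp he).const_smul (p : ℂ)⁻¹
      rwa [smul_zero] at h0
  refine ⟨⟨⟨f, f.slash_action_eq'⟩, f.holo', fun {c} hc => ?_⟩, rfl⟩
  rw [Subgroup.IsArithmetic.isCusp_iff_isCusp_SL2Z] at hc
  rw [OnePoint.isZeroAt_iff_forall_SL2Z hc]
  intro g _
  have := (isFamily_conj f).slash g none
  rw [conj_none] at this
  show IsZeroAtImInfty (⇑f ∣[(2 : ℤ)] g)
  rw [this]
  exact hall _

/-- The integral cusp form congruent to a multiple of the Eisenstein series. -/
theorem exists_congruent_cuspForm (hp : 5 ≤ p) :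
    ∃ (d : ℕ) (f : CuspForm (Gamma0 p) 2) (a : ℕ → ℤ),
      Nat.Coprime d (eisensteinNumerator p) ∧
      (∀ n, ModularFormClass.qCoeff f n = (a n : ℂ)) ∧
      ∀ n, n ≠ 0 → (eisensteinNumerator p : ℤ) ∣ a n - d * sigmaPrime p n := by
  obtain ⟨Θ, c, hΘ⟩ := exists_theta (p := p) (by omega)
  set N := eisensteinNumerator p with hN
  set g := Nat.gcd (p - 1) 12 with hg
  have hgpos : 0 < g := Nat.gcd_pos_of_pos_right _ (by norm_num)
  obtain ⟨d, hd⟩ : g ∣ 12 := Nat.gcd_dvd_right _ _
  have hco : Nat.Coprime d N := by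
    have h := Nat.coprime_div_gcd_div_gcd hgpos (m := p - 1) (n := 12)
    rw [← hg, hd, Nat.mul_div_cancel_left _ hgpos] at h
    exact h.symm
  have hNd : (d : ℂ) * ((p : ℂ) - 1) = 12 * (N : ℂ) := by
    have h := congrArg (fun x : ℕ => (x : ℂ)) (numerator_mul_gcd p)
    have h' := congrArg (fun x : ℕ => (x : ℂ)) hd
    push_cast [show 1 ≤ p by omega] at h h'
    rw [← h, h', hN, hg]
    ring
  set F : ModularForm (Gamma0 p) 2 := ((d : ℂ) / 24) • eisForm p - ((N : ℂ) / 2) • Θ with hF
  have hcoeff : ∀ n, (qExpansion 1 F).coeff n =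
      (((if n = 0 then (0 : ℤ) else (d : ℤ) * sigmaPrime p n - N * c n) : ℤ) : ℂ) := by
    intro n
    rw [← ((((hasExp_form (eisForm p)).smul ((d : ℂ) / 24)).sub
      ((hasExp_form Θ).smul ((N : ℂ) / 2))).congr (G := (F : ℍ → ℂ)) (by rw [hF]; rfl) rfl
      |>.eq_qExpansion one_pos (one_mem_strictPeriods_Gamma0 p)),
      map_sub, PowerSeries.coeff_smul, PowerSeries.coeff_smul, coeff_eisForm, hΘ]
    split_ifs with hn
    · simp only [smul_eq_mul, Int.cast_zero]
      linear_combination hNd / 24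
    · simp only [smul_eq_mul]
      push_cast
      ring
  obtain ⟨f, hf⟩ := exists_cuspForm_of_coeff_zero F (by rw [hcoeff, if_pos rfl, Int.cast_zero])
  refine ⟨d, f, fun n => if n = 0 then 0 else (d : ℤ) * sigmaPrime p n - N * c n, hco,
    fun n => ?_, fun n hn => ⟨-c n, ?_⟩⟩
  · rw [ModularFormClass.qCoeff, hf, hcoeff]
  · simp only [if_neg hn]
    ring

/-- From a cusp form congruent to the Eisenstein series, a form congruent to a constant. -/
theorem exists_congrConst (f : CuspForm (Gamma0 p) 2) (a : ℕ → ℤ)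
    (ha : ∀ n, ModularFormClass.qCoeff f n = (a n : ℂ)) {m : ℕ}
    (hcongr : ∀ n, n ≠ 0 → (m : ℤ) ∣ a n - sigmaPrime p n) :
    ∃ G : ModularForm (Gamma0 p) 2, IsCongrConst G ((p : ℤ) - 1) (24 * m) := by
  choose! x hx using hcongr
  have hf0 : (qExpansion 1 (f : ℍ → ℂ)).coeff 0 = 0 :=
    CuspFormClass.qExpansion_coeff_zero f one_pos (one_mem_strictPeriods_Gamma0 p)
  set F : ModularForm (Gamma0 p) 2 := CuspForm.toModularFormₗ f with hF
  refine ⟨eisForm p - (24 : ℂ) • F,
    PowerSeries.mk fun n => if n = 0 then 0 else -x n, PowerSeries.ext fun n => ?_⟩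
  rw [← (((hasExp_form (eisForm p)).sub ((hasExp_form F).smul (24 : ℂ))).congr
      (G := ((eisForm p - (24 : ℂ) • F : ModularForm (Gamma0 p) 2) : ℍ → ℂ)) (by rfl) rfl
      |>.eq_qExpansion one_pos (one_mem_strictPeriods_Gamma0 p)),
    map_sub, PowerSeries.coeff_smul, coeff_eisForm, castSeries, PowerSeries.coeff_map, map_add,
    map_zsmul, PowerSeries.coeff_mk, PowerSeries.coeff_C]
  have hFcoe : (F : ℍ → ℂ) = f := rfl
  rw [hFcoe]
  split_ifs with hn
  · subst hn
    rw [hf0]
    simp
  · have e : (qExpansion 1 (f : ℍ → ℂ)).coeff n = ((sigmaPrime p n : ℤ) + m * x n : ℤ) := by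
      rw [show (qExpansion 1 (f : ℍ → ℂ)).coeff n = ModularFormClass.qCoeff f n from rfl, ha,
        show a n = (sigmaPrime p n : ℤ) + m * x n by linear_combination hx n hn]
    rw [e]
    simp
    ring

end Fermat.Agent.EisensteinIndex

end
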