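import Mathlib.LinearAlgebra.FreeModule.Finite.Quotient
import Mathlib.LinearAlgebra.Dual.Basis
import Mathlib.LinearAlgebra.Dual.Lemmas
import Fermat.Prelude.Def_CuspForm_HeckeLocal
import Fermat.Prelude.Def_CuspForm_HeckeEvalForms
import Fermat.Agent.HeckeEigen.Lattice

/-!
# The perfect pairing between the Hecke ring on the integral lattice and the lattice
-/

set_option autoImplicit false

noncomputable section

open CongruenceSubgroup CuspForm
open Fermat.Agent.HeckeEigen

namespace Fermat.Agent.EisensteinIndex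

variable {N : ℕ} [NeZero N]

/-- The `n`-th coefficient as an integer-valued functional on the integral lattice. -/
def intCoeff (n : ℕ) : intLattice N 2 →ₗ[ℤ] ℤ :=
  AddMonoidHom.toIntLinearMap
    { toFun := fun g => (mem_intLattice_iff.mp g.2 n).choose
      map_zero' := Int.cast_injective (α := ℂ) <| by
        rw [← (mem_intLattice_iff.mp (0 : intLattice N 2).2 n).choose_spec, Submodule.coe_zero,
          ← qCoeffLin_apply, map_zero, Int.cast_zero]
      map_add' := fun a b => Int.cast_injective (α := ℂ) <| by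
        rw [Int.cast_add, ← (mem_intLattice_iff.mp a.2 n).choose_spec,
          ← (mem_intLattice_iff.mp b.2 n).choose_spec,
          ← (mem_intLattice_iff.mp (a + b).2 n).choose_spec, Submodule.coe_add,
          ← qCoeffLin_apply, map_add, qCoeffLin_apply, qCoeffLin_apply] }

omit [NeZero N] in
theorem cast_intCoeff (n : ℕ) (g : intLattice N 2) :
    (intCoeff n g : ℂ) = ModularFormClass.qCoeff (g : CuspForm (Gamma0 N) 2) n :=
  (mem_intLattice_iff.mp g.2 n).choose_spec.symm

omit [NeZero N] in
theorem intCoeff_zero (g : intLattice N 2) : intCoeff 0 g = 0 :=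
  Int.cast_injective (α := ℂ) <| by rw [cast_intCoeff, qCoeff_zero, Int.cast_zero]

omit [NeZero N] in
theorem ext_intCoeff {g h : intLattice N 2} (H : ∀ n, intCoeff n g = intCoeff n h) : g = h :=
  Subtype.ext <| ext_qCoeff fun n => by rw [← cast_intCoeff, ← cast_intCoeff, H]

theorem coe_latticeRestrictHom_apply (t : heckeAlgebra N 2 ∅) (g : intLattice N 2) :
    (((latticeRestrictHom N ∅ t : heckeLatticeAlgebra N ∅) : Module.End ℤ (intLattice N 2)) g :
        CuspForm (Gamma0 N) 2) = (t : Module.End ℂ (CuspForm (Gamma0 N) 2)) g := rfl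

/-- The pairing `(x, g) ↦ a₁ (x g)`. -/
def latticePair : heckeLatticeAlgebra N ∅ →ₗ[ℤ] intLattice N 2 →ₗ[ℤ] ℤ :=
  (LinearMap.llcomp ℤ (intLattice N 2) (intLattice N 2) ℤ (intCoeff 1)).comp
    (heckeLatticeAlgebra N ∅).val.toLinearMap

theorem latticePair_apply (x : heckeLatticeAlgebra N ∅) (g : intLattice N 2) :
    latticePair x g = intCoeff 1 ((x : Module.End ℤ (intLattice N 2)) g) := rfl

theorem latticePair_mul (x y : heckeLatticeAlgebra N ∅) (g : intLattice N 2) :
    latticePair (x * y) g = latticePair x ((y : Module.End ℤ (intLattice N 2)) g) := rfl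

theorem cast_latticePair (t : heckeAlgebra N 2 ∅) (g : intLattice N 2) :
    (latticePair (latticeRestrictHom N ∅ t) g : ℂ) = pairOne t g := by
  rw [latticePair_apply, cast_intCoeff, coe_latticeRestrictHom_apply]
  rfl

/-- Every positive coefficient is `a₁ ∘ T_n`. -/
theorem exists_latticePair_eq_intCoeff (n : ℕ) (hn : 0 < n) :
    ∃ x : heckeLatticeAlgebra N ∅, ∀ g, latticePair x g = intCoeff n g := by
  obtain ⟨t, ht⟩ := exists_pairOne_eq_qCoeff (N := N) (k := 2) (by norm_num) n hn
  refine ⟨latticeRestrictHom N ∅ t, fun g => Int.cast_injective (α := ℂ) ?_⟩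
  rw [cast_latticePair, ht, cast_intCoeff]

theorem eq_zero_of_forall_latticePair {g : intLattice N 2} (h : ∀ x, latticePair x g = 0) :
    g = 0 := by
  refine ext_intCoeff fun n => ?_
  rcases Nat.eq_zero_or_pos n with rfl | hn
  · rw [intCoeff_zero, intCoeff_zero]
  · obtain ⟨x, hx⟩ := exists_latticePair_eq_intCoeff (N := N) n hn
    rw [← hx, h, map_zero]

theorem latticePair_injective : Function.Injective (latticePair (N := N)) := by
  rw [injective_iff_map_eq_zero]
  intro x hx
  refine Subtype.ext (LinearMap.ext fun g => ?_)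
  refine eq_zero_of_forall_latticePair fun y => ?_
  rw [← latticePair_mul, mul_comm, latticePair_mul, hx]
  rfl

theorem latticePair_flip_injective : Function.Injective (latticePair (N := N)).flip := by
  rw [injective_iff_map_eq_zero]
  exact fun g hg => eq_zero_of_forall_latticePair fun x => LinearMap.congr_fun hg x

/-- Every integral functional on the Hecke ring comes from an integral form. -/
theorem exists_latticePair_eq (φ : heckeLatticeAlgebra N ∅ →ₗ[ℤ] ℤ) :
    ∃ g : intLattice N 2, ∀ x, latticePair x g = φ x := by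
  have := intLattice.moduleFinite N
  have := intLattice.moduleFree N
  set D := Module.Dual ℤ (heckeLatticeAlgebra N ∅) with hD
  have h1 : Module.finrank ℤ (intLattice N 2) ≤ Module.finrank ℤ D :=
    LinearMap.finrank_le_finrank_of_injective latticePair_flip_injective
  have h2 : Module.finrank ℤ (heckeLatticeAlgebra N ∅) ≤ Module.finrank ℤ (intLattice N 2) := by
    have h := LinearMap.finrank_le_finrank_of_injective (latticePair_injective (N := N))
    rwa [(Module.Free.chooseBasis ℤ (intLattice N 2)).toDualEquiv.finrank_eq]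
  have h3 : Module.finrank ℤ D = Module.finrank ℤ (heckeLatticeAlgebra N ∅) :=
    (Module.Free.chooseBasis ℤ (heckeLatticeAlgebra N ∅)).toDualEquiv.finrank_eq.symm
  set R := LinearMap.range (latticePair (N := N)).flip with hR
  have : Finite (D ⧸ R) := Submodule.finiteQuotientOfFreeOfRankEq R (by
    rw [hR, LinearMap.finrank_range_of_inj latticePair_flip_injective]
    exact le_antisymm h1 (h3.le.trans h2))
  set c : ℕ := Nat.card (D ⧸ R) with hc
  have hcpos : 0 < c := Nat.card_pos
  have hmem : c • φ ∈ R := by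
    rw [← Submodule.Quotient.mk_eq_zero, Submodule.Quotient.mk_smul]
    exact card_nsmul_eq_zero'
  obtain ⟨g, hg⟩ := hmem
  have hdvd : ∀ n, ∃ m : ℤ, intCoeff n g = c * m := fun n => by
    rcases Nat.eq_zero_or_pos n with rfl | hn
    · exact ⟨0, by rw [intCoeff_zero, mul_zero]⟩
    · obtain ⟨x, hx⟩ := exists_latticePair_eq_intCoeff (N := N) n hn
      refine ⟨φ x, ?_⟩
      rw [← hx, show latticePair x g = (c • φ) x from LinearMap.congr_fun hg x,
        LinearMap.smul_apply, nsmul_eq_mul]
  choose m hm using hdvd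
  have hc0 : (c : ℂ) ≠ 0 := by exact_mod_cast hcpos.ne'
  have hg' : (c : ℂ)⁻¹ • (g : CuspForm (Gamma0 N) 2) ∈ intLattice N 2 :=
    mem_intLattice_iff.mpr fun n => ⟨m n, by
      rw [← qCoeffLin_apply, map_smul, qCoeffLin_apply, ← cast_intCoeff, hm, smul_eq_mul,
        Int.cast_mul, Int.cast_natCast, inv_mul_cancel_left₀ hc0]⟩
  refine ⟨⟨_, hg'⟩, fun x => ?_⟩
  have hgg : g = (c : ℤ) • (⟨_, hg'⟩ : intLattice N 2) := Subtype.ext (by
    rw [Submodule.coe_smul, ← Int.cast_smul_eq_zsmul ℂ, Int.cast_natCast, smul_smul,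
      mul_inv_cancel₀ hc0, one_smul])
  have h : latticePair x g = (c • φ) x := LinearMap.congr_fun hg x
  rw [hgg, map_smul, LinearMap.smul_apply, nsmul_eq_mul, smul_eq_mul] at h
  exact mul_left_cancel₀ (show (c : ℤ) ≠ 0 by exact_mod_cast hcpos.ne') h

end Fermat.Agent.EisensteinIndex

end
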