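import Fermat.Agent.EisensteinIndex.Eisenstein

/-!
# The Hecke recursion for `σ₁` of the prime-to-`p` part
-/

set_option autoImplicit false

open ArithmeticFunction
open scoped ArithmeticFunction.sigma

namespace Fermat.Agent.EisensteinIndex

theorem sigma_one_mul_prime_of_dvd {ℓ : ℕ} (hℓ : ℓ.Prime) {m : ℕ} (hm : m ≠ 0) (hd : ℓ ∣ m) :
    σ 1 (m * ℓ) + ℓ * σ 1 (m / ℓ) = (1 + ℓ) * σ 1 m := by
  have : Fact ℓ.Prime := ⟨hℓ⟩
  obtain ⟨j, rfl⟩ := hd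
  have hj : j ≠ 0 := fun h => hm (by simp [h])
  have h1 := sigma_one_prime_mul (p := ℓ) hj
  have h2 := sigma_one_prime_mul (p := ℓ) hm
  have h3 : sigmaPrime ℓ (ℓ * (ℓ * j)) = sigmaPrime ℓ (ℓ * j) := by
    rw [sigmaPrime, sigmaPrime, Nat.ordCompl_mul ℓ (ℓ * j) ℓ,
      show ordCompl[ℓ] ℓ = 1 by simpa using Nat.ordCompl_self_pow (k := 1) hℓ, one_mul]
  rw [mul_comm (ℓ * j) ℓ, Nat.mul_div_cancel_left _ hℓ.pos, h2, h3, add_mul (1 : ℕ), one_mul,
    add_assoc, add_comm (ℓ * σ 1 (ℓ * j)), ← add_assoc, ← h1]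

theorem sigma_one_mul_prime_of_not_dvd {ℓ : ℕ} (hℓ : ℓ.Prime) {m : ℕ} (hd : ¬ ℓ ∣ m) :
    σ 1 (m * ℓ) = (1 + ℓ) * σ 1 m := by
  rw [isMultiplicative_sigma.map_mul_of_coprime (hℓ.coprime_iff_not_dvd.mpr hd).symm,
    ← pow_one ℓ, sigma_one_apply_prime_pow hℓ]
  simp [Finset.sum_range_succ, mul_comm]

variable {p : ℕ} [Fact p.Prime]

omit [Fact (Nat.Prime p)] in
theorem sigmaPrime_zero : sigmaPrime p 0 = 0 := by simp [sigmaPrime]

omit [Fact (Nat.Prime p)] in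
theorem sigmaPrime_one : sigmaPrime p 1 = 1 := by simp [sigmaPrime]

/-- The coefficient recursion satisfied by `σ₁` of the prime-to-`p` part. -/
theorem sigmaPrime_mul_prime {ℓ : ℕ} (hℓ : ℓ.Prime) (k : ℕ) :
    sigmaPrime p (k * ℓ) + (if ¬ ℓ ∣ p ∧ ℓ ∣ k then ℓ * sigmaPrime p (k / ℓ) else 0) =
      (if ℓ ∣ p then 1 else 1 + ℓ) * sigmaPrime p k := by
  have hp : p.Prime := Fact.out
  rcases eq_or_ne k 0 with rfl | hk
  · simp [sigmaPrime_zero]
  have hmul : ordCompl[p] (k * ℓ) = ordCompl[p] k * ordCompl[p] ℓ := Nat.ordCompl_mul k ℓ p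
  by_cases h : ℓ ∣ p
  · obtain rfl : ℓ = p := (Nat.prime_dvd_prime_iff_eq hℓ hp).mp h
    rw [if_neg (fun hh => hh.1 h), if_pos h, add_zero, one_mul, sigmaPrime, sigmaPrime, hmul,
      show ordCompl[ℓ] ℓ = 1 by simpa using Nat.ordCompl_self_pow (k := 1) hℓ, mul_one]
  · have hne : ¬ p ∣ ℓ := fun h' => h ((Nat.prime_dvd_prime_iff_eq hp hℓ).mp h' ▸ dvd_rfl)
    rw [Nat.factorization_eq_zero_of_not_dvd hne, pow_zero, Nat.div_one] at hmul
    rw [if_neg h]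
    set m := ordCompl[p] k with hm
    have hmk : p ^ k.factorization p * m = k := Nat.ordProj_mul_ordCompl_eq_self k p
    have hco : ℓ.Coprime (p ^ k.factorization p) :=
      ((Nat.coprime_primes hℓ hp).mpr fun e => h (e ▸ dvd_rfl)).pow_right _
    have hiff : ℓ ∣ k ↔ ℓ ∣ m := by
      refine ⟨fun hk' => hco.dvd_of_dvd_mul_left (by rwa [hmk]), fun hm' => ?_⟩
      rw [← hmk]
      exact hm'.mul_left _
    by_cases hd : ℓ ∣ k
    · have hdiv : ordCompl[p] (k / ℓ) = m / ℓ := by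
        have h' := Nat.ordCompl_mul (k / ℓ) ℓ p
        rw [Nat.div_mul_cancel hd, Nat.factorization_eq_zero_of_not_dvd hne, pow_zero,
          Nat.div_one] at h'
        rw [hm, h', Nat.mul_div_cancel _ hℓ.pos]
      rw [if_pos ⟨h, hd⟩, sigmaPrime, sigmaPrime, sigmaPrime, hmul, hdiv]
      exact sigma_one_mul_prime_of_dvd hℓ (Nat.ordCompl_pos p hk).ne' (hiff.mp hd)
    · rw [if_neg (fun hh => hd hh.2), add_zero, sigmaPrime, sigmaPrime, hmul]
      exact sigma_one_mul_prime_of_not_dvd hℓ fun hh => hd (hiff.mpr hh)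

end Fermat.Agent.EisensteinIndex
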