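import Mathlib.Data.ZMod.QuotientRing
import Fermat.Prelude.Def_HeckeGalois_EichlerShimura
import Fermat.Agent.EisensteinIndex.Pairing
import Fermat.Agent.EisensteinIndex.SigmaRec
import Fermat.Agent.EisensteinIndex.LowerBound
import Fermat.Agent.Quick.CuspTwo

/-!
# The index of the Eisenstein ideal
-/

set_option autoImplicit false

noncomputable section

open CongruenceSubgroup CuspForm ModularCurve
open Fermat.Agent.HeckeEigen

namespace Fermat.Agent.EisensteinIndex

section general

variable (N : ℕ) [NeZero N]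

/-- Evaluation of the abstract Hecke algebra on the lattice algebra. -/
abbrev latticeEval : HeckeAlg →+* heckeLatticeAlgebra N ∅ :=
  (latticeRestrictHom N ∅).toRingHom.comp (heckeEvalForms N 2)

theorem heckeEvalForms_surjective (k : ℤ) : Function.Surjective (heckeEvalForms N k) := by
  rintro ⟨t, ht⟩
  suffices h : ∃ P, (heckeEvalForms N k P : Module.End ℂ (CuspForm (Gamma0 N) k)) = t from
    h.imp fun P hP => Subtype.ext hP
  induction ht using Algebra.adjoin_induction with
  | mem x hx =>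
    rcases hx with ⟨ℓ, hℓ, hℓN, -, rfl⟩ | ⟨q, hqN, hq, -, rfl⟩
    · exact ⟨heckeGen ⟨ℓ, hℓ⟩, by
        rw [heckeEvalForms_heckeGen_of_not_dvd (ℓ := ⟨ℓ, hℓ⟩) hℓN]; rfl⟩
    · exact ⟨heckeGen ⟨q, hq⟩, by
        rw [heckeEvalForms_heckeGen_of_dvd (q := ⟨q, hq⟩) hqN]; rfl⟩
  | algebraMap r => exact ⟨MvPolynomial.C r, by rw [heckeEvalForms_C]; rfl⟩
  | add x y _ _ hx hy =>
    obtain ⟨P, hP⟩ := hx
    obtain ⟨Q, hQ⟩ := hy
    exact ⟨P + Q, by rw [map_add, Subalgebra.coe_add, hP, hQ]⟩
  | mul x y _ _ hx hy =>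
    obtain ⟨P, hP⟩ := hx
    obtain ⟨Q, hQ⟩ := hy
    exact ⟨P * Q, by rw [map_mul, Subalgebra.coe_mul, hP, hQ]⟩

theorem latticeEval_surjective : Function.Surjective (latticeEval N) :=
  (latticeRestrictHom_surjective N ∅).comp (heckeEvalForms_surjective N 2)

theorem latticeEval_C (a : ℤ) : latticeEval N (MvPolynomial.C a) = (a : heckeLatticeAlgebra N ∅) := by
  rw [latticeEval, RingHom.comp_apply, heckeEvalForms_C, eq_intCast, map_intCast]

/-- Coefficients of the image of an integral form under a generator. -/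
theorem intCoeff_latticeEval_heckeGen (ℓ : Nat.Primes) (g : intLattice N 2) (n : ℕ) :
    intCoeff n ((latticeEval N (heckeGen ℓ) : Module.End ℤ (intLattice N 2)) g) =
      intCoeff (n * ℓ) g +
        if ¬ (ℓ : ℕ) ∣ N ∧ (ℓ : ℕ) ∣ n then (ℓ : ℤ) * intCoeff (n / ℓ) g else 0 := by
  refine Int.cast_injective (α := ℂ) ?_
  rw [cast_intCoeff, latticeEval, RingHom.comp_apply, AlgHom.toRingHom_eq_coe, RingHom.coe_coe,
    coe_latticeRestrictHom_apply, Int.cast_add, cast_intCoeff]
  by_cases h : (ℓ : ℕ) ∣ N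
  · rw [heckeEvalForms_heckeGen_of_dvd h, heckeAlgebra.coe_U,
      qCoeff_heckeULin ℓ.2.ne_zero h, if_neg (fun hh => hh.1 h), Int.cast_zero, add_zero]
  · rw [heckeEvalForms_heckeGen_of_not_dvd h, heckeAlgebra.coe_T, qCoeff_heckeTLin ℓ.2 h]
    by_cases hd : (ℓ : ℕ) ∣ n
    · rw [if_pos hd, if_pos ⟨h, hd⟩, Int.cast_mul, cast_intCoeff, Int.cast_natCast]
      norm_num
    · rw [if_neg hd, if_neg (fun hh => hd hh.2), Int.cast_zero]

end general

variable {p : ℕ} [Fact p.Prime]

/-- The image of the Eisenstein ideal in the Hecke ring on the lattice. -/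
abbrev latticeEisenstein (p : ℕ) [Fact p.Prime] : Ideal (heckeLatticeAlgebra p ∅) :=
  Ideal.map (latticeEval p) (eisensteinIdeal p)

theorem mk_latticeEval (P : HeckeAlg) :
    Ideal.Quotient.mk (latticeEisenstein p) (latticeEval p P) =
      ((MvPolynomial.aeval (R := ℤ) (eisensteinSystem p) P : ℤ) :
        heckeLatticeAlgebra p ∅ ⧸ latticeEisenstein p) := by
  rw [← map_intCast (Ideal.Quotient.mk (latticeEisenstein p)), ← latticeEval_C,
    Ideal.Quotient.mk_eq_mk_iff_sub_mem, ← map_sub]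
  refine Ideal.mem_map_of_mem _ ?_
  rw [eisensteinIdeal, eigenIdeal, RingHom.mem_ker, map_sub, MvPolynomial.aeval_C]
  simp

omit [Fact (Nat.Prime p)] in
theorem eisensteinSystem_eq (ℓ : Nat.Primes) :
    eisensteinSystem p ℓ = ((if (ℓ : ℕ) ∣ p then 1 else 1 + (ℓ : ℕ) : ℕ) : ℤ) := by
  by_cases h : (ℓ : ℕ) ∣ p <;> simp [eisensteinSystem, h]

theorem sigmaPrime_recursion (ℓ : Nat.Primes) (k : ℕ) :
    (sigmaPrime p (k * ℓ) : ℤ) +
      (if ¬ (ℓ : ℕ) ∣ p ∧ (ℓ : ℕ) ∣ k then (ℓ : ℤ) * sigmaPrime p (k / ℓ) else 0) =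
      eisensteinSystem p ℓ * sigmaPrime p k := by
  have h := congrArg (Nat.cast : ℕ → ℤ) (sigmaPrime_mul_prime (p := p) ℓ.2 k)
  push_cast at h
  rw [eisensteinSystem_eq]
  push_cast
  exact h

/-- A ring map killing the Eisenstein ideal has the Eisenstein series as system of coefficients. -/
theorem exists_congruent_of_ringHom {m : ℕ} (π : heckeLatticeAlgebra p ∅ →+* ZMod m)
    (hπ : ∀ P, π (latticeEval p P) = ((MvPolynomial.aeval (R := ℤ) (eisensteinSystem p) P : ℤ) :
      ZMod m)) :
    ∃ (f : CuspForm (Gamma0 p) 2) (a : ℕ → ℤ),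
      (∀ n, ModularFormClass.qCoeff f n = (a n : ℂ)) ∧
      ∀ n, n ≠ 0 → (m : ℤ) ∣ a n - sigmaPrime p n := by
  obtain ⟨φ, hφ⟩ := Module.projective_lifting_property (Int.castAddHom (ZMod m)).toIntLinearMap
    π.toAddMonoidHom.toIntLinearMap ZMod.intCast_surjective
  have hφ' : ∀ x, (φ x : ZMod m) = π x := fun x => LinearMap.congr_fun hφ x
  obtain ⟨f, hf⟩ := exists_latticePair_eq φ
  refine ⟨f, fun n => intCoeff n f, fun n => (cast_intCoeff n f).symm, fun n hn => ?_⟩
  beta_reduce
  rw [← ZMod.intCast_zmod_eq_zero_iff_dvd, Int.cast_sub, sub_eq_zero]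
  induction n using Nat.strong_induction_on with
  | _ n ih =>
    rcases Nat.eq_or_lt_of_le (Nat.one_le_iff_ne_zero.mpr hn) with h1 | h1
    · subst h1
      have h : intCoeff 1 f = φ 1 := by
        rw [← hf 1, latticePair_apply]
        rfl
      rw [sigmaPrime_one, h, hφ', map_one]
      simp
    · obtain ⟨ℓ, k, rfl⟩ : ∃ (ℓ : Nat.Primes) (k : ℕ), n = k * ℓ :=
        ⟨⟨n.minFac, Nat.minFac_prime (Nat.ne_of_gt h1)⟩, n / n.minFac,
          (Nat.div_mul_cancel (Nat.minFac_dvd n)).symm⟩
      have hk : 0 < k := Nat.pos_of_ne_zero fun h => hn (by simp [h])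
      have hlt : k < k * ℓ := by
        have := ℓ.2.two_le
        nlinarith
      obtain ⟨x, hx⟩ := exists_latticePair_eq_intCoeff (N := p) k hk
      have h2 : (intCoeff k ((latticeEval p (heckeGen ℓ) :
          Module.End ℤ (intLattice p 2)) f) : ZMod m) =
          (intCoeff k f : ZMod m) * (eisensteinSystem p ℓ : ZMod m) := by
        rw [← hx, ← latticePair_mul, hf, hφ', map_mul, ← hφ' x, ← hf x, hx, hπ, aeval_heckeGen]
      rw [intCoeff_latticeEval_heckeGen, ih k hlt hk.ne'] at h2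
      have h3 := congrArg (fun z : ℤ => (z : ZMod m)) (sigmaPrime_recursion (p := p) ℓ k)
      by_cases hc : ¬ (ℓ : ℕ) ∣ p ∧ (ℓ : ℕ) ∣ k
      · have hq : 0 < k / ℓ := Nat.div_pos (Nat.le_of_dvd hk hc.2) ℓ.2.pos
        simp only [if_pos hc, Int.cast_add, Int.cast_mul,
          ih (k / ℓ) ((Nat.div_le_self k ℓ).trans_lt hlt) hq.ne'] at h2 h3
        linear_combination h2 - h3
      · simp only [if_neg hc, Int.cast_mul, add_zero] at h2 h3
        rw [h2, h3, mul_comm]

/-- The coefficients of the image of the congruent form are multiples of the coefficients. -/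
theorem dvd_intCoeff_latticeEval {f : intLattice p 2} {d : ℤ} {M : ℤ}
    (hf : ∀ n, M ∣ intCoeff n f - d * sigmaPrime p n) (P : HeckeAlg) (n : ℕ) :
    M ∣ intCoeff n ((latticeEval p P : Module.End ℤ (intLattice p 2)) f) -
      MvPolynomial.aeval (R := ℤ) (eisensteinSystem p) P * (d * sigmaPrime p n) := by
  induction P using MvPolynomial.induction_on generalizing n with
  | C a =>
    rw [latticeEval_C, MvPolynomial.aeval_C]
    have : ((a : heckeLatticeAlgebra p ∅) : Module.End ℤ (intLattice p 2)) f = a • f := by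
      rw [SubringClass.coe_intCast]
      simp
    rw [this, map_smul, smul_eq_mul]
    simpa [mul_sub] using (hf n).mul_left a
  | add P Q hP hQ =>
    rw [map_add, map_add, Subalgebra.coe_add, LinearMap.add_apply, map_add, add_mul,
      add_sub_add_comm]
    exact dvd_add (hP n) (hQ n)
  | mul_X P ℓ hP =>
    have hc : latticeEval p (P * MvPolynomial.X ℓ) =
        latticeEval p (heckeGen ℓ) * latticeEval p P := by
      rw [map_mul, mul_comm]
      rfl
    rw [hc, map_mul, MvPolynomial.aeval_X, mul_assoc (MvPolynomial.aeval _ P) (eisensteinSystem p ℓ),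
      mul_left_comm (eisensteinSystem p ℓ) d, ← sigmaPrime_recursion, Subalgebra.coe_mul,
      Module.End.mul_apply, intCoeff_latticeEval_heckeGen]
    by_cases h : ¬ (ℓ : ℕ) ∣ p ∧ (ℓ : ℕ) ∣ n
    · rw [if_pos h, if_pos h]
      obtain ⟨u, hu⟩ := hP (n * ℓ)
      obtain ⟨v, hv⟩ := hP (n / ℓ)
      exact ⟨u + (ℓ : ℤ) * v, by linear_combination hu + (ℓ : ℤ) * hv⟩
    · rw [if_neg h, if_neg h, add_zero, add_zero]
      exact hP (n * ℓ)

theorem eisensteinNumerator_pos : 0 < eisensteinNumerator p := by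
  have := (Fact.out : p.Prime).two_le
  refine Nat.pos_of_ne_zero fun h => ?_
  have h' := numerator_mul_gcd p
  rw [h, zero_mul] at h'
  omega

theorem subsingleton_of_le_three (hp : p ≤ 3) :
    Subsingleton (heckeLatticeAlgebra p ∅) := by
  have hi : (Gamma0 p).index ≤ 5 := by
    rw [Fermat.Agent.Gamma0Count.index_Gamma0]
    have := (Fact.out : p.Prime).two_le
    unfold ModularCurve.dedekindPsi
    rw [Finset.sum_filter, Nat.Prime.divisors (Fact.out : p.Prime)]
    interval_cases p <;> simp [Nat.prime_two.squarefree, Nat.prime_three.squarefree]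
  refine ⟨fun x y => Subtype.ext (LinearMap.ext fun g => Subtype.ext ?_)⟩
  exact (Fermat.Agent.Quick.cuspForm_eq_zero_of_index_le hi _).trans
    (Fermat.Agent.Quick.cuspForm_eq_zero_of_index_le hi _).symm

/-- An integer lies in the Eisenstein ideal iff the numerator divides it. -/
theorem intCast_mem_latticeEisenstein (k : ℤ) :
    (k : heckeLatticeAlgebra p ∅) ∈ latticeEisenstein p ↔ (eisensteinNumerator p : ℤ) ∣ k := by
  by_cases hp : p ≤ 3
  · have := subsingleton_of_le_three (p := p) hp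
    have h1 : eisensteinNumerator p = 1 := by
      have := (Fact.out : p.Prime).two_le
      interval_cases p <;> rfl
    rw [h1, Nat.cast_one]
    refine iff_of_true ?_ (one_dvd k)
    rw [Subsingleton.elim (k : heckeLatticeAlgebra p ∅) 0]
    exact zero_mem _
  have hp5 : 5 ≤ p := by
    rcases Nat.lt_or_ge p 5 with h | h
    · obtain rfl : p = 4 := by omega
      exact absurd (Fact.out : Nat.Prime 4) (by norm_num)
    · exact h
  constructor
  · intro hk
    obtain ⟨d, f, a, hco, ha, hcongr⟩ := exists_congruent_cuspForm (p := p) hp5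
    have hmem : f ∈ intLattice p 2 := mem_intLattice_iff.mpr fun n => ⟨a n, ha n⟩
    have hf : ∀ n, (eisensteinNumerator p : ℤ) ∣
        intCoeff n ⟨f, hmem⟩ - d * sigmaPrime p n := by
      intro n
      rcases eq_or_ne n 0 with rfl | hn
      · simp [intCoeff_zero, sigmaPrime_zero]
      · rw [show intCoeff n (⟨f, hmem⟩ : intLattice p 2) = a n from
          Int.cast_injective (α := ℂ) ((cast_intCoeff n _).trans (ha n))]
        exact hcongr n hn
    obtain ⟨P, hP, hPk⟩ :=
      (Ideal.mem_map_iff_of_surjective _ (latticeEval_surjective p)).mp hk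
    have h1 := dvd_intCoeff_latticeEval hf P 1
    rw [eisensteinIdeal, eigenIdeal, RingHom.mem_ker] at hP
    rw [hP, zero_mul, sub_zero, hPk] at h1
    have h2 : intCoeff 1 (((k : heckeLatticeAlgebra p ∅) : Module.End ℤ (intLattice p 2))
        ⟨f, hmem⟩) = k * intCoeff 1 ⟨f, hmem⟩ := by
      rw [show ((k : heckeLatticeAlgebra p ∅) : Module.End ℤ (intLattice p 2)) ⟨f, hmem⟩ =
        k • (⟨f, hmem⟩ : intLattice p 2) by rw [SubringClass.coe_intCast]; simp, map_smul,
        smul_eq_mul]
    rw [h2] at h1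
    have h3 : (eisensteinNumerator p : ℤ) ∣ k * d := by
      have h := dvd_sub h1 ((hf 1).mul_left k)
      rwa [sigmaPrime_one, Nat.cast_one, mul_one, mul_sub, sub_sub_cancel] at h
    refine IsCoprime.dvd_of_dvd_mul_right ?_ h3
    exact Int.isCoprime_iff_gcd_eq_one.mpr (by simpa using hco.symm)
  · suffices h : ((eisensteinNumerator p : ℤ) : heckeLatticeAlgebra p ∅) ∈ latticeEisenstein p by
      rintro ⟨c, rfl⟩
      rw [Int.cast_mul]
      exact Ideal.mul_mem_right _ _ h
    set J : Ideal ℤ := Ideal.comap (Int.castRingHom (heckeLatticeAlgebra p ∅)) (latticeEisenstein p)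
      with hJ
    show (eisensteinNumerator p : ℤ) ∈ J
    obtain ⟨g, hg⟩ := (IsPrincipalIdealRing.principal J).principal
    rw [hg, Submodule.mem_span_singleton]
    obtain ⟨m, hm, hmg⟩ : ∃ m : ℕ, (∀ x ∈ J, (m : ℤ) ∣ x) ∧
        (m ∣ eisensteinNumerator p → ∃ c : ℤ, c • g = (eisensteinNumerator p : ℤ)) := by
      refine ⟨g.natAbs, fun x hx => ?_, fun h => ?_⟩
      · rw [hg, Submodule.mem_span_singleton] at hx
        obtain ⟨c, rfl⟩ := hx
        rw [Int.natAbs_dvd, smul_eq_mul]
        exact dvd_mul_left _ _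
      · obtain ⟨c, hc⟩ := Int.natAbs_dvd.mp (Int.natCast_dvd_natCast.mpr h)
        exact ⟨c, by rw [smul_eq_mul, hc, mul_comm]⟩
    refine hmg ?_
    -- descend the quotient to `ZMod m`
    let ψ : ℤ →+* heckeLatticeAlgebra p ∅ ⧸ latticeEisenstein p := Int.castRingHom _
    have hψ : Function.Surjective ψ := fun x => by
      obtain ⟨y, rfl⟩ := Ideal.Quotient.mk_surjective x
      obtain ⟨P, rfl⟩ := latticeEval_surjective p y
      exact ⟨_, (mk_latticeEval P).symm⟩
    have hker : RingHom.ker ψ ≤ RingHom.ker (Int.castRingHom (ZMod m)) := fun x hx => by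
      rw [RingHom.mem_ker, eq_intCast, ZMod.intCast_zmod_eq_zero_iff_dvd]
      refine hm x ?_
      rw [hJ, Ideal.mem_comap, eq_intCast, ← Ideal.Quotient.eq_zero_iff_mem, map_intCast]
      exact hx
    let π : heckeLatticeAlgebra p ∅ →+* ZMod m :=
      (RingHom.liftOfSurjective ψ hψ ⟨Int.castRingHom (ZMod m), hker⟩).comp
        (Ideal.Quotient.mk (latticeEisenstein p))
    obtain ⟨f, a, ha, hcongr⟩ := exists_congruent_of_ringHom π fun P => by
      rw [RingHom.comp_apply, mk_latticeEval, map_intCast]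
    obtain ⟨G, hG⟩ := exists_congrConst f a ha hcongr
    exact dvd_eisensteinNumerator hp5 hG

/-- The index of the Eisenstein ideal in the Hecke ring on the integral lattice. -/
theorem natCard_quotient_latticeEisenstein :
    Nat.card (heckeLatticeAlgebra p ∅ ⧸ latticeEisenstein p) = eisensteinNumerator p := by
  let ψ : ℤ →+* heckeLatticeAlgebra p ∅ ⧸ latticeEisenstein p := Int.castRingHom _
  have hψ : Function.Surjective ψ := fun x => by
    obtain ⟨y, rfl⟩ := Ideal.Quotient.mk_surjective x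
    obtain ⟨P, rfl⟩ := latticeEval_surjective p y
    exact ⟨_, (mk_latticeEval P).symm⟩
  have hker : RingHom.ker ψ = Ideal.span {(eisensteinNumerator p : ℤ)} := by
    ext x
    rw [RingHom.mem_ker, eq_intCast, ← map_intCast (Ideal.Quotient.mk (latticeEisenstein p)),
      Ideal.Quotient.eq_zero_iff_mem, intCast_mem_latticeEisenstein, Ideal.mem_span_singleton]
  rw [← Nat.card_congr (RingHom.quotientKerEquivOfSurjective hψ).toEquiv, hker,
    Nat.card_congr (Int.quotientSpanNatEquivZMod _).toEquiv, Nat.card_zmod]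

end Fermat.Agent.EisensteinIndex

end
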